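import Mathlib
import Fermat.Prelude.Def_ModularCurve_GenusNumerics

set_option autoImplicit false

namespace Fermat.Agent.S20

open scoped MatrixGroups
open CongruenceSubgroup

theorem sl2_inv_mul_apply_one_zero (a b : SL(2, ℤ)) :
    (a⁻¹ * b) 1 0 = a 0 0 * b 1 0 - a 1 0 * b 0 0 := by
  rw [Matrix.SpecialLinearGroup.coe_mul, Matrix.SpecialLinearGroup.SL2_inv_expl]
  rw [Matrix.mul_apply, Fin.sum_univ_two]
  simp
  ring

theorem sl2_det_eq (a : SL(2, ℤ)) : a 0 0 * a 1 1 - a 0 1 * a 1 0 = 1 := by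
  have := a.det_coe
  rw [Matrix.det_fin_two] at this
  exact this

theorem mk_eq_mk_iff (N : ℕ) (a b : SL(2, ℤ)) :
    (QuotientGroup.mk a : SL(2, ℤ) ⧸ Gamma0 N) = QuotientGroup.mk b ↔
      ((a 0 0 * b 1 0 - a 1 0 * b 0 0 : ℤ) : ZMod N) = 0 := by
  rw [QuotientGroup.eq, Gamma0_mem, sl2_inv_mul_apply_one_zero]

/-- The elliptic element `[[0,-1],[1,t]]`. -/
def ell (t : ℤ) : SL(2, ℤ) := ⟨!![0, -1; 1, t], by simp [Matrix.det_fin_two_of]⟩

theorem ell_zero : ell 0 = ModularGroup.S := by decide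

theorem ell_one : ell 1 = ModularGroup.S * ModularGroup.T := by decide

/-- the representative `[[x,-1],[1,0]]`. -/
def repr1 (x : ℤ) : SL(2, ℤ) := ⟨!![x, -1; 1, 0], by simp [Matrix.det_fin_two_of]⟩

theorem smul_mk_eq_iff (N : ℕ) (t : ℤ) (g : SL(2, ℤ)) :
    ell t • (QuotientGroup.mk g : SL(2, ℤ) ⧸ Gamma0 N) = QuotientGroup.mk g ↔
      ((g 0 0 ^ 2 + t * g 0 0 * g 1 0 + g 1 0 ^ 2 : ℤ) : ZMod N) = 0 := by
  rw [MulAction.Quotient.smul_mk, eq_comm, mk_eq_mk_iff]
  have h00 : (ell t • g) 0 0 = - g 1 0 := by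
    rw [smul_eq_mul, Matrix.SpecialLinearGroup.coe_mul, Matrix.mul_apply, Fin.sum_univ_two]
    simp [ell]
  have h10 : (ell t • g) 1 0 = g 0 0 + t * g 1 0 := by
    rw [smul_eq_mul, Matrix.SpecialLinearGroup.coe_mul, Matrix.mul_apply, Fin.sum_univ_two]
    simp [ell]
  rw [h00, h10]
  ring_nf

theorem card_fixedBy_ell (N : ℕ) (t : ℤ) :
    Nat.card (MulAction.fixedBy (SL(2, ℤ) ⧸ Gamma0 N) (ell t)) =
      Nat.card {x : ZMod N // x ^ 2 + t * x + 1 = 0} := by
  symm
  have hcast : ∀ x : ZMod N, ∃ y : ℤ, (y : ZMod N) = x := ZMod.intCast_surjective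
  choose lift hlift using hcast
  refine Nat.card_congr (Equiv.ofBijective
    (fun x => ⟨QuotientGroup.mk (repr1 (lift x.1)), ?_⟩) ⟨?_, ?_⟩)
  · rw [MulAction.mem_fixedBy, smul_mk_eq_iff]
    have := x.2
    simp only [repr1]
    push_cast
    simp [hlift]
    linear_combination this
  · intro x y hxy
    have := (mk_eq_mk_iff N _ _).1 (congrArg Subtype.val hxy)
    simp only [repr1] at this
    push_cast at this
    simp [hlift] at this
    exact Subtype.ext (sub_eq_zero.1 this)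
  · rintro ⟨q, hq⟩
    induction q using QuotientGroup.induction_on with | _ g => ?_
    rw [MulAction.mem_fixedBy, smul_mk_eq_iff] at hq
    have hdet := congrArg (Int.cast : ℤ → ZMod N) (sl2_det_eq g)
    push_cast at hq hdet
    set a : ZMod N := ((g 0 0 : ℤ) : ZMod N)
    set b : ZMod N := ((g 0 1 : ℤ) : ZMod N)
    set c : ZMod N := ((g 1 0 : ℤ) : ZMod N)
    set d : ZMod N := ((g 1 1 : ℤ) : ZMod N)
    set w : ZMod N := -(2 * b + b ^ 2 * c + t * d + t * b * c * d + c * d ^ 2) with hw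
    have hcw : c * w = 1 := by
      rw [hw]
      linear_combination (-(d ^ 2)) * hq + (a * d + b * c + 1 + t * c * d) * hdet
    refine ⟨⟨a * w, ?_⟩, ?_⟩
    · linear_combination w ^ 2 * hq - (t * a * w + c * w + 1) * hcw
    · apply Subtype.ext
      simp only
      rw [mk_eq_mk_iff]
      simp only [repr1]
      push_cast
      simp [hlift]
      linear_combination a * hcw

theorem card_fixedBy_S (N : ℕ) :
    Nat.card (MulAction.fixedBy (SL(2, ℤ) ⧸ Gamma0 N) ModularGroup.S) = ModularCurve.nuTwo N := by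
  rw [← ell_zero, card_fixedBy_ell, ModularCurve.nuTwo]
  exact Nat.card_congr (Equiv.subtypeEquivRight (fun x => by simp))

theorem card_fixedBy_ST (N : ℕ) :
    Nat.card (MulAction.fixedBy (SL(2, ℤ) ⧸ Gamma0 N) (ModularGroup.S * ModularGroup.T)) =
      ModularCurve.nuThree N := by
  rw [← ell_one, card_fixedBy_ell, ModularCurve.nuThree]
  exact Nat.card_congr (Equiv.subtypeEquivRight (fun x => by simp))

end Fermat.Agent.S20
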