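import Mathlib
import Fermat.Prelude.Def_ModularCurve_GenusNumerics

set_option autoImplicit false

namespace Fermat.Agent.S20

open ModularCurve

theorem dedekindPsi_mul_prime_of_dvd {M p : ℕ} (hM : M ≠ 0) (hp : p.Prime) (h : p ∣ M) :
    dedekindPsi (M * p) = p * dedekindPsi M := by
  unfold dedekindPsi
  have hset : (M * p).divisors.filter (fun d => Squarefree d) =
      M.divisors.filter (fun d => Squarefree d) := by
    ext d
    simp only [Finset.mem_filter, Nat.mem_divisors]
    constructor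
    · rintro ⟨⟨hd, -⟩, hsq⟩
      refine ⟨⟨?_, hM⟩, hsq⟩
      have h2 : d ∣ M ^ 2 := by
        rw [sq]
        exact hd.trans (Nat.mul_dvd_mul_left M h)
      exact (hsq.dvd_pow_iff_dvd two_ne_zero).1 h2
    · rintro ⟨⟨hd, -⟩, hsq⟩
      exact ⟨⟨hd.mul_right p, Nat.mul_ne_zero hM hp.ne_zero⟩, hsq⟩
  rw [hset, Finset.mul_sum]
  refine Finset.sum_congr rfl fun d hd => ?_
  simp only [Finset.mem_filter, Nat.mem_divisors] at hd
  rw [mul_comm M p, Nat.mul_div_assoc _ hd.1.1]

theorem dedekindPsi_mul_prime_of_not_dvd {M p : ℕ} (hM : M ≠ 0) (hp : p.Prime) (h : ¬ p ∣ M) :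
    dedekindPsi (M * p) = (p + 1) * dedekindPsi M := by
  unfold dedekindPsi
  have hMp : M * p ≠ 0 := Nat.mul_ne_zero hM hp.ne_zero
  rw [← Finset.sum_filter_add_sum_filter_not _ (fun d => p ∣ d), add_mul, one_mul, add_comm]
  congr 1
  · -- divisors not divisible by p
    have hset : ((M * p).divisors.filter (fun d => Squarefree d)).filter (fun d => ¬ p ∣ d) =
        M.divisors.filter (fun d => Squarefree d) := by
      ext d
      simp only [Finset.mem_filter, Nat.mem_divisors]
      constructor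
      · rintro ⟨⟨⟨hd, -⟩, hsq⟩, hpd⟩
        refine ⟨⟨?_, hM⟩, hsq⟩
        have hcop : Nat.Coprime d p := by
          rw [Nat.coprime_comm, hp.coprime_iff_not_dvd]
          exact hpd
        exact hcop.dvd_of_dvd_mul_right hd
      · rintro ⟨⟨hd, -⟩, hsq⟩
        exact ⟨⟨⟨hd.mul_right p, hMp⟩, hsq⟩, fun hpd => h (hpd.trans hd)⟩
    rw [hset, Finset.mul_sum]
    refine Finset.sum_congr rfl fun d hd => ?_
    simp only [Finset.mem_filter, Nat.mem_divisors] at hd
    rw [mul_comm M p, Nat.mul_div_assoc _ hd.1.1]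
  · -- divisors divisible by p
    symm
    refine Finset.sum_bij (fun d _ => d * p) ?_ ?_ ?_ ?_
    · intro d hd
      simp only [Finset.mem_filter, Nat.mem_divisors] at hd ⊢
      refine ⟨⟨⟨Nat.mul_dvd_mul_right hd.1.1 p, hMp⟩, ?_⟩, Dvd.intro_left d rfl⟩
      have hcop : Nat.Coprime d p := by
        rw [Nat.coprime_comm, hp.coprime_iff_not_dvd]
        exact fun hpd => h (hpd.trans hd.1.1)
      exact (Nat.squarefree_mul hcop).2 ⟨hd.2, hp.squarefree⟩
    · intro a _ b _ hab
      exact Nat.eq_of_mul_eq_mul_right hp.pos hab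
    · intro e he
      simp only [Finset.mem_filter, Nat.mem_divisors] at he
      obtain ⟨⟨⟨hd, -⟩, hsq⟩, d, rfl⟩ := he
      refine ⟨d, ?_, mul_comm _ _⟩
      simp only [Finset.mem_filter, Nat.mem_divisors]
      refine ⟨⟨?_, hM⟩, hsq.squarefree_of_dvd (Dvd.intro_left p rfl)⟩
      rw [mul_comm M p] at hd
      exact Nat.dvd_of_mul_dvd_mul_left hp.pos hd
    · intro d hd
      exact (Nat.mul_div_mul_right M d hp.pos).symm

end Fermat.Agent.S20
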