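import Mathlib
import Fermat.Agent.S20.CombBasic
import Fermat.Agent.S20.CombPsi

set_option autoImplicit false

namespace Fermat.Agent.S20

open scoped MatrixGroups
open CongruenceSubgroup ModularCurve

theorem mem_Gamma0_iff_dvd (N : ℕ) (A : SL(2, ℤ)) : A ∈ Gamma0 N ↔ (N : ℤ) ∣ A 1 0 := by
  rw [Gamma0_mem, CharP.intCast_eq_zero_iff (ZMod N) N]

theorem Gamma0_mul_le (M p : ℕ) : Gamma0 (M * p) ≤ Gamma0 M := by
  intro A hA
  rw [mem_Gamma0_iff_dvd] at hA ⊢
  exact (Dvd.intro _ (by push_cast; rfl)).trans hA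

/-- lower triangular unipotent -/
def low (c : ℤ) : SL(2, ℤ) := ⟨!![1, 0; c, 1], by simp [Matrix.det_fin_two_of]⟩

@[simp] theorem low_apply_one_zero (c : ℤ) : (low c) 1 0 = c := by simp [low]

@[simp] theorem low_apply_zero_zero (c : ℤ) : (low c) 0 0 = 1 := by simp [low]

theorem low_mem (M : ℕ) (j : ℤ) : low (M * j) ∈ Gamma0 M := by
  rw [mem_Gamma0_iff_dvd]
  simp

theorem relmk_eq_iff {M p : ℕ} (hM : M ≠ 0) (x y : Gamma0 M) (cx cy : ℤ)
    (hx : (x : SL(2, ℤ)) 1 0 = M * cx) (hy : (y : SL(2, ℤ)) 1 0 = M * cy) :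
    (QuotientGroup.mk x : Gamma0 M ⧸ (Gamma0 (M * p)).subgroupOf (Gamma0 M)) = QuotientGroup.mk y ↔
      (((x : SL(2, ℤ)) 0 0 : ℤ) : ZMod p) * (cy : ZMod p) -
        (cx : ZMod p) * (((y : SL(2, ℤ)) 0 0 : ℤ) : ZMod p) = 0 := by
  rw [QuotientGroup.eq, Subgroup.mem_subgroupOf, mem_Gamma0_iff_dvd]
  have : ((x⁻¹ * y : Gamma0 M) : SL(2, ℤ)) = (x : SL(2, ℤ))⁻¹ * (y : SL(2, ℤ)) := rfl
  rw [this, sl2_inv_mul_apply_one_zero, hx, hy]
  have hM' : (M : ℤ) ≠ 0 := by exact_mod_cast hM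
  have e : (x : SL(2, ℤ)) 0 0 * (M * cy) - M * cx * (y : SL(2, ℤ)) 0 0 =
      M * ((x : SL(2, ℤ)) 0 0 * cy - cx * (y : SL(2, ℤ)) 0 0) := by ring
  rw [e]
  push_cast
  rw [mul_dvd_mul_iff_left hM', ← CharP.intCast_eq_zero_iff (ZMod p) p]
  push_cast
  rfl

theorem relIndex_Gamma0_of_dvd {M p : ℕ} (hM : M ≠ 0) (hp : p.Prime) (h : p ∣ M) :
    (Gamma0 (M * p)).relIndex (Gamma0 M) = p := by
  have : Fact p.Prime := ⟨hp⟩
  have hcast : ∀ x : ZMod p, ∃ y : ℤ, (y : ZMod p) = x := ZMod.intCast_surjective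
  choose lift hlift using hcast
  rw [Subgroup.relIndex, Subgroup.index]
  conv_rhs => rw [← Nat.card_zmod p]
  symm
  refine Nat.card_congr (Equiv.ofBijective
    (fun j => QuotientGroup.mk ⟨low (M * lift j), low_mem M _⟩) ⟨?_, ?_⟩)
  · intro i j hij
    rw [relmk_eq_iff hM _ _ (lift i) (lift j) (by simp) (by simp)] at hij
    simp [hlift] at hij
    exact (sub_eq_zero.1 hij).symm
  · intro q
    induction q using QuotientGroup.induction_on with | _ y => ?_
    obtain ⟨cy, hcy⟩ := (mem_Gamma0_iff_dvd M _).1 y.2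
    have hdet := congrArg (Int.cast : ℤ → ZMod p) (sl2_det_eq (y : SL(2, ℤ)))
    rw [hcy] at hdet
    have hMp : (M : ZMod p) = 0 := (CharP.cast_eq_zero_iff (ZMod p) p M).2 h
    push_cast at hdet
    rw [hMp] at hdet
    refine ⟨(cy : ZMod p) * (((y : SL(2, ℤ)) 1 1 : ℤ) : ZMod p), ?_⟩
    rw [relmk_eq_iff hM _ _ (lift ((cy : ZMod p) * (((y : SL(2, ℤ)) 1 1 : ℤ) : ZMod p))) cy
      (by simp) hcy]
    simp [hlift]
    linear_combination (-(cy : ZMod p)) * hdet

theorem relIndex_Gamma0_of_not_dvd {M p : ℕ} (hM : M ≠ 0) (hp : p.Prime) (h : ¬ p ∣ M) :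
    (Gamma0 (M * p)).relIndex (Gamma0 M) = p + 1 := by
  have : Fact p.Prime := ⟨hp⟩
  have hcast : ∀ x : ZMod p, ∃ y : ℤ, (y : ZMod p) = x := ZMod.intCast_surjective
  choose lift hlift using hcast
  have hcop : IsCoprime (p : ℤ) (M : ℤ) := by
    rw [Nat.isCoprime_iff_coprime, hp.coprime_iff_not_dvd]
    exact h
  obtain ⟨u, v, huv⟩ := hcop
  let ginf : SL(2, ℤ) := ⟨!![(p : ℤ), -v; (M : ℤ), u], by
    rw [Matrix.det_fin_two_of]; linear_combination huv⟩
  have hginf : ginf ∈ Gamma0 M := by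
    rw [mem_Gamma0_iff_dvd]
    simp [ginf]
  have hg10 : ginf 1 0 = M * 1 := by simp [ginf]
  have hg00 : ginf 0 0 = p := by simp [ginf]
  rw [Subgroup.relIndex, Subgroup.index]
  have hcard : Nat.card (Option (ZMod p)) = p + 1 := by
    rw [Nat.card_eq_fintype_card, Fintype.card_option, ZMod.card]
  rw [← hcard]
  symm
  refine Nat.card_congr (Equiv.ofBijective
    (fun j => match j with
      | some j => QuotientGroup.mk ⟨low (M * lift j), low_mem M _⟩
      | none => QuotientGroup.mk ⟨ginf, hginf⟩) ⟨?_, ?_⟩)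
  · intro i j hij
    match i, j with
    | some i, some j =>
      simp only at hij
      rw [relmk_eq_iff hM _ _ (lift i) (lift j) (by simp) (by simp)] at hij
      simp [hlift] at hij
      rw [(sub_eq_zero.1 hij)]
    | some i, none =>
      simp only at hij
      rw [relmk_eq_iff hM _ _ (lift i) 1 (by simp) hg10] at hij
      simp [hlift, hg00] at hij
    | none, some j =>
      simp only at hij
      rw [relmk_eq_iff hM _ _ 1 (lift j) hg10 (by simp)] at hij
      simp [hlift, hg00] at hij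
    | none, none => rfl
  · intro q
    induction q using QuotientGroup.induction_on with | _ y => ?_
    obtain ⟨cy, hcy⟩ := (mem_Gamma0_iff_dvd M _).1 y.2
    by_cases ha : (((y : SL(2, ℤ)) 0 0 : ℤ) : ZMod p) = 0
    · refine ⟨none, ?_⟩
      simp only
      rw [relmk_eq_iff hM _ _ 1 cy hg10 hcy]
      simp [hg00, ha]
    · refine ⟨some ((cy : ZMod p) * (((y : SL(2, ℤ)) 0 0 : ℤ) : ZMod p)⁻¹), ?_⟩
      simp only
      rw [relmk_eq_iff hM _ _ (lift ((cy : ZMod p) * (((y : SL(2, ℤ)) 0 0 : ℤ) : ZMod p)⁻¹)) cy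
        (by simp) hcy]
      simp [hlift]
      field_simp
      ring

theorem index_Gamma0 (N : ℕ) [NeZero N] : (Gamma0 N).index = dedekindPsi N := by
  have key : ∀ N : ℕ, N ≠ 0 → (Gamma0 N).index = dedekindPsi N := by
    intro N
    induction N using Nat.strong_induction_on with
    | _ N ih =>
      intro hN
      by_cases h1 : N = 1
      · subst h1
        rw [dedekindPsi_one]
        have : Gamma0 1 = ⊤ := by
          ext A
          rw [mem_Gamma0_iff_dvd]
          simp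
        rw [this, Subgroup.index_top]
      · obtain ⟨M, hM⟩ := Nat.minFac_dvd N
        have hp : (N.minFac).Prime := Nat.minFac_prime h1
        generalize N.minFac = p at hM hp
        have hM0 : M ≠ 0 := by
          rintro rfl
          exact hN (by simpa using hM)
        have hlt : M < N := by
          rw [hM]
          exact lt_mul_of_one_lt_left (Nat.pos_of_ne_zero hM0) hp.one_lt
        have hNM : N = M * p := by rw [hM, mul_comm]
        rw [hNM, ← Subgroup.relIndex_mul_index (Gamma0_mul_le M p), ih M hlt hM0]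
        by_cases hd : p ∣ M
        · rw [relIndex_Gamma0_of_dvd hM0 hp hd, dedekindPsi_mul_prime_of_dvd hM0 hp hd]
        · rw [relIndex_Gamma0_of_not_dvd hM0 hp hd, dedekindPsi_mul_prime_of_not_dvd hM0 hp hd]
  exact key N (NeZero.ne N)

theorem card_quotient_Gamma0 (N : ℕ) [NeZero N] :
    Nat.card (SL(2, ℤ) ⧸ Gamma0 N) = dedekindPsi N :=
  index_Gamma0 N

end Fermat.Agent.S20
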