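import Fermat.Agent.S20.Defs

set_option autoImplicit false

namespace Fermat.Agent.S20

open UpperHalfPlane ModularForm EisensteinSeries Filter Topology
open scoped MatrixGroups ModularForm Manifold

noncomputable section

/-! ### Level one forms as functions -/

lemma coe_mem_M1 {k : ℤ} (f : ModularForm 𝒮ℒ k) : (f : ℍ → ℂ) ∈ M1 k := by
  refine ⟨f.holo', ModularFormClass.bdd_at_infty f, fun g => ?_⟩
  rw [SL_slash]
  exact f.slash_action_eq' _ ⟨g, rfl⟩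

/-- Build a level one modular form from an element of `M1 k`. -/
def ofM1 {k : ℤ} (r : ℍ → ℂ) (hr : r ∈ M1 k) : ModularForm 𝒮ℒ k where
  toFun := r
  slash_action_eq' := by
    rintro _ ⟨g, rfl⟩
    exact hr.2.2 g
  holo' := hr.1
  bdd_at_cusps' {c} hc := by
    rw [OnePoint.isBoundedAt_iff_forall_SL2Z hc]
    intro γ _
    rw [hr.2.2 γ]
    exact hr.2.1

@[simp] lemma coe_ofM1 {k : ℤ} (r : ℍ → ℂ) (hr : r ∈ M1 k) : (ofM1 r hr : ℍ → ℂ) = r := rfl

/-- `M1 k` is linearly equivalent to Mathlib's `ModularForm 𝒮ℒ k`. -/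
def M1equiv (k : ℤ) : ModularForm 𝒮ℒ k ≃ₗ[ℂ] M1 k where
  toFun f := ⟨f, coe_mem_M1 f⟩
  map_add' _ _ := rfl
  map_smul' _ _ := rfl
  invFun r := ofM1 r.1 r.2
  left_inv _ := rfl
  right_inv _ := rfl

lemma finrank_M1 (k : ℤ) : Module.finrank ℂ (M1 k) = δ k := (M1equiv k).finrank_eq.symm

instance (k : ℤ) : FiniteDimensional ℂ (M1 k) := (M1equiv k).finiteDimensional

lemma M1_congr {a b : ℤ} (h : a = b) {r : ℍ → ℂ} (hr : r ∈ M1 a) : r ∈ M1 b := h ▸ hr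

lemma VMF_congr {X : Type*} [MulAction SL(2, ℤ) X] {a b : ℤ} (h : a = b) {G : X → ℍ → ℂ}
    (hG : G ∈ VMF X a) : G ∈ VMF X b := h ▸ hG

lemma mul_mem_M1 {a b : ℤ} {r s : ℍ → ℂ} (hr : r ∈ M1 a) (hs : s ∈ M1 b) : r * s ∈ M1 (a + b) :=
  ⟨hr.1.mul hs.1, hr.2.1.mul hs.2.1, fun g => by rw [mul_slash_SL2, hr.2.2, hs.2.2]⟩

lemma one_mem_M1 : (1 : ℍ → ℂ) ∈ M1 0 := coe_mem_M1 (1 : ModularForm 𝒮ℒ 0)

lemma pow_mem_M1 {a : ℤ} {r : ℍ → ℂ} (hr : r ∈ M1 a) (n : ℕ) : r ^ n ∈ M1 (n * a) := by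
  induction n with
  | zero => simpa using one_mem_M1
  | succ n ih =>
    rw [pow_succ]
    exact M1_congr (by push_cast; ring) (mul_mem_M1 ih hr)

lemma E4_mem : (E₄ : ℍ → ℂ) ∈ M1 4 := coe_mem_M1 E₄
lemma E6_mem : (E₆ : ℍ → ℂ) ∈ M1 6 := coe_mem_M1 E₆
lemma Delta_mem : (discriminant : ℍ → ℂ) ∈ M1 12 := by
  have := coe_mem_M1 (k := 12) (CuspForm.discriminant : ModularForm 𝒮ℒ 12)
  exact this

lemma M1_eq_zero_of_neg {k : ℤ} (hk : k < 0) {r : ℍ → ℂ} (hr : r ∈ M1 k) : r = 0 :=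
  ModularFormClass.levelOne_neg_weight_eq_zero hk (ofM1 r hr)

lemma M1_eq_zero_of_odd {k : ℤ} (hk : Odd k) {r : ℍ → ℂ} (hr : r ∈ M1 k) : r = 0 := by
  have := ModularForm.levelOne_odd_weight_eq_zero hk (ofM1 r hr)
  simpa using congrArg (fun f : ModularForm 𝒮ℒ k => (f : ℍ → ℂ)) this

lemma M1_two_eq_zero {r : ℍ → ℂ} (hr : r ∈ M1 2) : r = 0 := by
  have := rank_zero_iff_forall_zero.mp ModularForm.levelOne_weight_two_rank_zero (ofM1 r hr)
  simpa using congrArg (fun f : ModularForm 𝒮ℒ 2 => (f : ℍ → ℂ)) this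

lemma M1_zero_const {r : ℍ → ℂ} (hr : r ∈ M1 0) : ∃ c : ℂ, r = Function.const ℍ c :=
  ModularFormClass.levelOne_weight_zero_const (ofM1 r hr)

/-! ### Limits at `i∞` -/

lemma tendsto_valueAtInfty {f : ℍ → ℂ} {h : ℝ} (hh : 0 < h)
    (hfper : Function.Periodic (f ∘ ofComplex) h) (hfhol : MDiff f)
    (hfbdd : IsBoundedAtImInfty f) : Tendsto f atImInfty (𝓝 (valueAtInfty f)) := by
  have hanal := analyticAt_cuspFunction_zero hh hfper hfhol hfbdd
  rw [← cuspFunction_apply_zero hh hanal hfper]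
  exact (hanal.continuousAt.tendsto.comp (qParam_tendsto_atImInfty hh)).congr
    (fun τ ↦ eq_cuspFunction τ hh.ne' hfper)

lemma M1_periodic {k : ℤ} {r : ℍ → ℂ} (hr : r ∈ M1 k) :
    Function.Periodic (r ∘ ofComplex) (1 : ℝ) :=
  SlashInvariantFormClass.periodic_comp_ofComplex (ofM1 r hr) one_mem_strictPeriods_SL

lemma M1_tendsto {k : ℤ} {r : ℍ → ℂ} (hr : r ∈ M1 k) :
    Tendsto r atImInfty (𝓝 (valueAtInfty r)) :=
  tendsto_valueAtInfty one_pos (M1_periodic hr) hr.1 hr.2.1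

lemma M1_valueAtInfty {k : ℤ} {r : ℍ → ℂ} (hr : r ∈ M1 k) :
    valueAtInfty r = (qExpansion 1 r).coeff 0 :=
  (qExpansion_coeff_zero one_pos
    (analyticAt_cuspFunction_zero one_pos (M1_periodic hr) hr.1 hr.2.1) (M1_periodic hr)).symm

lemma E4_tendsto : Tendsto (E₄ : ℍ → ℂ) atImInfty (𝓝 1) := by
  have := M1_tendsto E4_mem
  rwa [M1_valueAtInfty E4_mem, E_qExpansion_coeff_zero _ ⟨2, rfl⟩] at this

lemma E6_tendsto : Tendsto (E₆ : ℍ → ℂ) atImInfty (𝓝 1) := by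
  have := M1_tendsto E6_mem
  rwa [M1_valueAtInfty E6_mem, E_qExpansion_coeff_zero _ ⟨3, rfl⟩] at this

lemma Delta_eq (z : ℍ) : 1728 * discriminant z = E₄ z ^ 3 - E₆ z ^ 2 := by
  rw [discriminant_eq_E₄_cube_sub_E₆_sq z]; ring

/-- A level one form vanishing at `i∞` is divisible by `Δ`. -/
lemma M1_exists_eq_Delta_mul {k : ℤ} {r : ℍ → ℂ} (hr : r ∈ M1 k) (h0 : valueAtInfty r = 0) :
    ∃ s ∈ M1 (k - 12), r = discriminant * s := by
  rw [M1_valueAtInfty hr] at h0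
  refine ⟨CuspForm.discriminantEquiv (toCuspForm (ofM1 r hr) h0), coe_mem_M1 _, ?_⟩
  rw [discriminant_mul_discriminantEquiv]
  rfl


/-- Every level one form of nonzero weight lies in the ideal `(E₄, E₆)`. -/
lemma M1_decomp {w : ℤ} (hw : w ≠ 0) {r : ℍ → ℂ} (hr : r ∈ M1 w) :
    ∃ a ∈ M1 (w - 4), ∃ b ∈ M1 (w - 6), r = E₄ * a + E₆ * b := by
  rcases lt_or_ge w 0 with hneg | hpos
  · exact ⟨0, zero_mem _, 0, zero_mem _, by simp [M1_eq_zero_of_neg hneg hr]⟩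
  rcases Int.even_or_odd w with hev | hodd
  swap
  · exact ⟨0, zero_mem _, 0, zero_mem _, by simp [M1_eq_zero_of_odd hodd hr]⟩
  -- a form `e` in the ideal with value one at infinity
  obtain ⟨a0, ha0, b0, hb0, he⟩ : ∃ a0 ∈ M1 (w - 4), ∃ b0 ∈ M1 (w - 6),
      (w = 2 ∨ Tendsto (fun z => E₄ z * a0 z + E₆ z * b0 z : ℍ → ℂ) atImInfty (𝓝 1)) := by
    obtain ⟨m, hm⟩ := hev
    rcases Int.even_or_odd m with ⟨n, hn⟩ | ⟨n, hn⟩
    · -- w = 4 n, n ≥ 1
      have hn1 : 1 ≤ n := by omega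
      refine ⟨E₄ ^ (n - 1).toNat, M1_congr (by rw [Int.toNat_of_nonneg (by omega)]; omega)
        (pow_mem_M1 E4_mem _), 0, zero_mem _, Or.inr ?_⟩
      simpa using E4_tendsto.mul (E4_tendsto.pow (n - 1).toNat)
    · -- w = 4 n + 2
      rcases eq_or_ne n 0 with rfl | hn0
      · exact ⟨0, zero_mem _, 0, zero_mem _, Or.inl (by omega)⟩
      have hn1 : 1 ≤ n := by omega
      refine ⟨0, zero_mem _, E₄ ^ (n - 1).toNat,
        M1_congr (by rw [Int.toNat_of_nonneg (by omega)]; omega) (pow_mem_M1 E4_mem _),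
        Or.inr ?_⟩
      simpa using E6_tendsto.mul (E4_tendsto.pow (n - 1).toNat)
  rcases he with rfl | he
  · exact ⟨0, zero_mem _, 0, zero_mem _, by simp [M1_two_eq_zero hr]⟩
  set e : ℍ → ℂ := E₄ * a0 + E₆ * b0 with he_def
  have he_mem : e ∈ M1 w := add_mem (M1_congr (by ring) (mul_mem_M1 E4_mem ha0))
    (M1_congr (by ring) (mul_mem_M1 E6_mem hb0))
  set c := valueAtInfty r
  have hr' : r - c • e ∈ M1 w := sub_mem hr (Submodule.smul_mem _ _ he_mem)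
  have h0 : valueAtInfty (r - c • e) = 0 := by
    have h1 : Tendsto (r - c • e) atImInfty (𝓝 (c - c • 1)) :=
      (M1_tendsto hr).sub (he.const_smul c)
    simpa [valueAtInfty] using h1.limUnder_eq
  obtain ⟨s, hs, hrs⟩ := M1_exists_eq_Delta_mul hr' h0
  refine ⟨c • a0 + (1728 : ℂ)⁻¹ • (E₄ * E₄ * s), ?_, c • b0 - (1728 : ℂ)⁻¹ • (E₆ * s), ?_, ?_⟩
  · exact add_mem (Submodule.smul_mem _ _ ha0) (Submodule.smul_mem _ _
      (M1_congr (by ring) (mul_mem_M1 (mul_mem_M1 E4_mem E4_mem) hs)))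
  · exact sub_mem (Submodule.smul_mem _ _ hb0) (Submodule.smul_mem _ _
      (M1_congr (by ring) (mul_mem_M1 E6_mem hs)))
  · ext z
    have h1 := congrFun hrs z
    have h2 := Delta_eq z
    simp only [Pi.sub_apply, Pi.smul_apply, Pi.mul_apply, Pi.add_apply, smul_eq_mul, he_def]
      at h1 ⊢
    linear_combination h1 + (1728 : ℂ)⁻¹ * s z * h2

/-! ### Vector valued forms -/

section VMF

variable {X : Type*} [MulAction SL(2, ℤ) X]

lemma fmul_mem_VMF {w k : ℤ} {r : ℍ → ℂ} {G : X → ℍ → ℂ} (hr : r ∈ M1 w) (hG : G ∈ VMF X k) :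
    fmul r G ∈ VMF X (w + k) :=
  ⟨fun x => hr.1.mul (hG.1 x), fun x => hr.2.1.mul (hG.2.1 x), fun x g => by
    simp only [fmul]; rw [mul_slash_SL2, hr.2.2, hG.2.2]⟩

lemma fmul_mem_VCF {w k : ℤ} {r : ℍ → ℂ} {G : X → ℍ → ℂ} (hr : r ∈ M1 w) (hG : G ∈ VCF X k) :
    fmul r G ∈ VCF X (w + k) :=
  ⟨fun x => hr.1.mul (hG.1 x), fun x => by
    have := hr.2.1.mul_isLittleO ((Asymptotics.isLittleO_one_iff ℝ).mpr (hG.2.1 x))
    simp only [mul_one] at this
    exact (Asymptotics.isLittleO_one_iff ℝ).mp this, fun x g => by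
    simp only [fmul]; rw [mul_slash_SL2, hr.2.2, hG.2.2]⟩

lemma VCF_le_VMF (k : ℤ) : VCF X k ≤ VMF X k := fun _ hG =>
  ⟨hG.1, fun x => (hG.2.1 x).isBigO_one ℝ, hG.2.2⟩

omit [MulAction SL(2, ℤ) X] in
lemma fmul_add (r : ℍ → ℂ) (G H : X → ℍ → ℂ) : fmul r (G + H) = fmul r G + fmul r H := by
  ext x z; simp [mul_add]

omit [MulAction SL(2, ℤ) X] in
lemma add_fmul (r s : ℍ → ℂ) (G : X → ℍ → ℂ) : fmul (r + s) G = fmul r G + fmul s G := by
  ext x z; simp [add_mul]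

omit [MulAction SL(2, ℤ) X] in
lemma fmul_fmul (r s : ℍ → ℂ) (G : X → ℍ → ℂ) : fmul r (fmul s G) = fmul (r * s) G := by
  ext x z; simp [mul_assoc]

omit [MulAction SL(2, ℤ) X] in
lemma fmul_sum {ι : Type*} (t : Finset ι) (r : ℍ → ℂ) (G : ι → X → ℍ → ℂ) :
    fmul r (∑ i ∈ t, G i) = ∑ i ∈ t, fmul r (G i) := by
  ext x z; simp [Finset.sum_apply, Finset.mul_sum]

/-- Division by `Δ`. -/
lemma div_Delta_mem_VMF {k : ℤ} {G : X → ℍ → ℂ} (hG : G ∈ VMF X k)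
    (hb : ∀ x, IsBoundedAtImInfty (G x / discriminant)) :
    (fun x => G x / discriminant) ∈ VMF X (k - 12) :=
  ⟨fun x => (hG.1 x).div Delta_mem.1 discriminant_ne_zero, hb, fun x g => by
    rw [div_slash_SL2, hG.2.2, Delta_mem.2.2]⟩

/-- Koszul exactness: `E₄, E₆` is a regular sequence on vector valued modular forms. -/
lemma koszul_exact {k : ℤ} {A B : X → ℍ → ℂ} (hA : A ∈ VMF X (k - 4)) (hB : B ∈ VMF X (k - 6))
    (h : fmul E₄ A + fmul E₆ B = 0) :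
    ∃ C ∈ VMF X (k - 10), A = fmul E₆ C ∧ B = - fmul E₄ C := by
  have hz : ∀ x z, E₄ z * A x z + E₆ z * B x z = 0 := fun x z => by
    simpa using congrFun (congrFun h x) z
  set P : X → ℍ → ℂ := fmul (E₄ * E₄) B + fmul E₆ A with hP
  have hPmem : P ∈ VMF X (k + 2) := add_mem
    (VMF_congr (by ring) (fmul_mem_VMF (mul_mem_M1 E4_mem E4_mem) hB))
    (VMF_congr (by ring) (fmul_mem_VMF E6_mem hA))
  have hPz : ∀ x z, P x z = E₄ z * E₄ z * B x z + E₆ z * A x z := fun x z => by simp [hP]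
  have hb : ∀ x, IsBoundedAtImInfty (P x / discriminant) := by
    intro x
    have h1 : (P x / discriminant) =ᶠ[atImInfty] fun z => (-1728 : ℂ) * (A x z * (E₆ z)⁻¹) := by
      have hne : ∀ᶠ z in atImInfty, E₆ z ≠ 0 := E6_tendsto.eventually_ne one_ne_zero
      filter_upwards [hne] with z hz6
      have hD := discriminant_ne_zero z
      simp only [Pi.div_apply, hPz]
      rw [div_eq_iff hD]
      field_simp
      linear_combination (E₄ z ^ 2) * hz x z + A x z * Delta_eq z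
    have h2 : IsBoundedAtImInfty fun z => (-1728 : ℂ) * (A x z * (E₆ z)⁻¹) := by
      have h3 : IsBoundedAtImInfty fun z => (E₆ z)⁻¹ :=
        (E6_tendsto.inv₀ one_ne_zero).isBigO_one ℝ
      exact ((hA.2.1 x).mul h3).const_mul_left _
    exact h1.trans_isBigO h2
  refine ⟨(-(1728 : ℂ)⁻¹) • (fun x => P x / discriminant),
    Submodule.smul_mem _ _ (VMF_congr (by ring) (div_Delta_mem_VMF hPmem hb)), ?_, ?_⟩
  · ext x z
    have hD := discriminant_ne_zero z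
    simp only [fmul_apply, Pi.smul_apply, Pi.div_apply, smul_eq_mul, hPz]
    field_simp
    linear_combination (E₄ z ^ 2) * hz x z + A x z * Delta_eq z
  · ext x z
    have hD := discriminant_ne_zero z
    simp only [fmul_apply, Pi.smul_apply, Pi.div_apply, smul_eq_mul, hPz, Pi.neg_apply]
    field_simp
    linear_combination (- E₆ z) * hz x z + B x z * Delta_eq z

end VMF


/-! ### Vanishing results -/

section Vanish

variable {X : Type} [MulAction SL(2, ℤ) X]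

lemma prod_mem_M1 [Fintype X] {k : ℤ} {G : X → ℍ → ℂ} (hG : G ∈ VMF X k) :
    (∏ x, G x) ∈ M1 (k * Fintype.card X) := by
  refine ⟨.prod fun x _ => hG.1 x, ?_, fun g => ?_⟩
  · have : (1 : ℍ → ℝ) = (fun z ↦ ∏ (_i : X), (1 : ℝ)) := by ext; simp
    rw [IsBoundedAtImInfty, BoundedAtFilter, this, Finset.prod_fn]
    exact .finsetProd fun x _ => hG.2.1 x
  · rw [SL_slash, ← Finset.card_univ, ModularForm.prod_slash]
    simp only [← SL_slash, hG.2.2]
    simpa using Equiv.prod_comp (MulAction.toPerm (g⁻¹ : SL(2, ℤ))) G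

lemma VMF_eq_zero_of_exists [MulAction.IsPretransitive SL(2, ℤ) X] {k : ℤ} {G : X → ℍ → ℂ}
    (hG : G ∈ VMF X k) {x : X} (hx : G x = 0) : G = 0 := by
  ext y z
  obtain ⟨g, rfl⟩ := MulAction.exists_smul_eq SL(2, ℤ) x y
  have := hG.2.2 x g⁻¹
  rw [inv_inv, hx, SlashAction.zero_slash] at this
  simp [← this]

lemma VMF_eq_zero_of_neg [Fintype X] [MulAction.IsPretransitive SL(2, ℤ) X] {k : ℤ} (hk : k < 0)
    {G : X → ℍ → ℂ} (hG : G ∈ VMF X k) : G = 0 := by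
  rcases isEmpty_or_nonempty X with hX | hX
  · ext x; exact (hX.false x).elim
  have hc : (0 : ℤ) < Fintype.card X := by exact_mod_cast Fintype.card_pos
  have h0 := M1_eq_zero_of_neg (mul_neg_of_neg_of_pos hk hc) (prod_mem_M1 hG)
  obtain ⟨x, -, hx⟩ := (UpperHalfPlane.prod_eq_zero_iff (fun x _ => hG.1 x)).mp h0
  exact VMF_eq_zero_of_exists hG hx

lemma VMF_eq_zero_of_odd (hneg : ∀ x : X, (-1 : SL(2, ℤ)) • x = x) {k : ℤ} (hk : Odd k)
    {G : X → ℍ → ℂ} (hG : G ∈ VMF X k) : G = 0 := by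
  ext x z
  have h1 := congrFun (hG.2.2 x (-1)) z
  have h2 : ((-1 : SL(2, ℤ))⁻¹ • x) = x := by
    rw [inv_smul_eq_iff, hneg]
  rw [h2, SL_slash_apply] at h1
  have h3 : ((-1 : SL(2, ℤ)) • z) = z := by
    ext; simp
  have h4 : denom ((-1 : SL(2, ℤ)) : GL (Fin 2) ℝ) z = -1 := by
    simp [denom]
  rw [h3, h4, zpow_neg, hk.neg_one_zpow] at h1
  have : G x z * 2 = 0 := by linear_combination -h1
  simpa using this

lemma const_mem_VMF (c : ℂ) : (fun _ _ => c : X → ℍ → ℂ) ∈ VMF X 0 := by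
  refine ⟨fun x => mdifferentiable_const, fun x => Filter.const_boundedAtFilter _ c,
    fun x g => ?_⟩
  ext z
  simp [SL_slash_apply]

lemma VMF_zero_const [Fintype X] [Nonempty X] [MulAction.IsPretransitive SL(2, ℤ) X]
    {G : X → ℍ → ℂ} (hG : G ∈ VMF X 0) : ∃ c : ℂ, G = fun _ _ => c := by
  obtain ⟨x0⟩ := ‹Nonempty X›
  set c := G x0 I
  have hG' : G - (fun _ _ => c) ∈ VMF X 0 := sub_mem hG (const_mem_VMF c)
  have hP := prod_mem_M1 hG'
  rw [zero_mul] at hP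
  obtain ⟨c', hc'⟩ := M1_zero_const hP
  have h0 : c' = 0 := by
    have := congrFun hc' I
    rw [Finset.prod_apply, Finset.prod_eq_zero (Finset.mem_univ x0) (by simp [c])] at this
    simpa using this.symm
  rw [h0] at hc'
  obtain ⟨x, -, hx⟩ := (UpperHalfPlane.prod_eq_zero_iff (fun x _ => hG'.1 x)).mp hc'
  exact ⟨c, sub_eq_zero.mp (VMF_eq_zero_of_exists hG' hx)⟩

lemma finrank_VMF_zero [Fintype X] [Nonempty X] [MulAction.IsPretransitive SL(2, ℤ) X] :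
    Module.finrank ℂ (VMF X 0) = 1 := by
  refine finrank_eq_one ⟨_, const_mem_VMF (X := X) 1⟩ ?_ ?_
  · intro h
    obtain ⟨x0⟩ := ‹Nonempty X›
    have := congrFun (congrFun (congrArg Subtype.val h) x0) I
    simp at this
  · rintro ⟨G, hG⟩
    obtain ⟨c, rfl⟩ := VMF_zero_const hG
    refine ⟨c, ?_⟩
    ext x z
    simp

end Vanish

end

end Fermat.Agent.S20
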