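import Fermat.Agent.S20.Defs

/-!
Package F of S20: traces at the elliptic fixed points.
-/

set_option autoImplicit false

namespace Fermat.Agent.S20

open UpperHalfPlane ModularForm
open scoped MatrixGroups ModularForm Manifold

noncomputable section

variable {X : Type*} [MulAction SL(2, ℤ) X] [Fintype X] [DecidableEq X]

/-- The permutation matrix `x, y ↦ [y = g⁻¹ • x]`. -/
def permMat (X : Type*) [MulAction SL(2, ℤ) X] [DecidableEq X] (g : SL(2, ℤ)) : Matrix X X ℂ :=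
  Matrix.of fun x y => if y = g⁻¹ • x then 1 else 0

lemma permMat_mul_apply (g : SL(2, ℤ)) (M : Matrix X X ℂ) (x j : X) :
    (permMat X g * M) x j = M (g⁻¹ • x) j := by
  simp [permMat, Matrix.mul_apply]

lemma trace_permMat (g : SL(2, ℤ)) :
    (permMat X g).trace = (Nat.card (MulAction.fixedBy X g) : ℂ) := by
  classical
  have h1 : (permMat X g).trace = ∑ x : X, if x ∈ MulAction.fixedBy X g then (1 : ℂ) else 0 := by
    unfold Matrix.trace
    refine Finset.sum_congr rfl fun x _ => ?_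
    simp only [Matrix.diag_apply, permMat, Matrix.of_apply, MulAction.mem_fixedBy]
    have : (x = g⁻¹ • x) ↔ g • x = x := by
      rw [eq_inv_smul_iff]
    simp only [this]
  rw [h1, Finset.sum_boole, Nat.card_eq_fintype_card, Fintype.card_subtype]

/-- General trace identity at a fixed point `z0` of `g`. -/
theorem sum_denom_zpow_eq_card_fixedBy {κ : X → ℤ} {F : X → X → ℍ → ℂ}
    (h : IsFundSystem κ F) (g : SL(2, ℤ)) (z0 : ℍ) (hz : g • z0 = z0) :
    ∑ j, (denom (g : GL (Fin 2) ℝ) z0) ^ (-κ j) = (Nat.card (MulAction.fixedBy X g) : ℂ) := by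
  classical
  set Φ : Matrix X X ℂ := fundMatrix F z0 with hΦ
  set D : Matrix X X ℂ := Matrix.diagonal fun j => (denom (g : GL (Fin 2) ℝ) z0) ^ (-κ j) with hD
  have hdet : IsUnit Φ.det := isUnit_iff_ne_zero.mpr (h.det_ne_zero z0)
  have key : Φ * D = permMat X g * Φ := by
    ext x j
    rw [permMat_mul_apply, hD, Matrix.mul_diagonal, hΦ, fundMatrix_apply, fundMatrix_apply]
    have h3 := (mem_VMF.mp (h.mem j)).2.2 x g
    have h4 := congrFun h3 z0
    rw [SL_slash_apply, hz] at h4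
    exact h4
  have hD' : D = Φ⁻¹ * (permMat X g * Φ) := by
    rw [← key, ← Matrix.mul_assoc, Matrix.nonsing_inv_mul _ hdet, Matrix.one_mul]
  have htr : D.trace = (permMat X g).trace := by
    rw [hD', Matrix.trace_mul_comm, Matrix.mul_assoc, Matrix.mul_nonsing_inv _ hdet, Matrix.mul_one]
  rw [← trace_permMat, ← htr, hD, Matrix.trace_diagonal]

/-! ### The point `i` -/

lemma S_smul_I : ModularGroup.S • UpperHalfPlane.I = UpperHalfPlane.I := by
  rw [modular_S_smul]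
  ext
  simp [Complex.inv_I]

lemma denom_S_I : denom (ModularGroup.S : GL (Fin 2) ℝ) UpperHalfPlane.I = Complex.I := by
  rw [ModularGroup.denom_S]; rfl

theorem sum_I_zpow_eq_card_fixedBy_S {κ : X → ℤ} {F : X → X → ℍ → ℂ} (h : IsFundSystem κ F) :
    ∑ j, Complex.I ^ (-κ j) = (Nat.card (MulAction.fixedBy X ModularGroup.S) : ℂ) := by
  have := sum_denom_zpow_eq_card_fixedBy h ModularGroup.S UpperHalfPlane.I S_smul_I
  rwa [denom_S_I] at this

/-! ### The point `ρ` -/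

/-- The elliptic point `ρ = -1/2 + (√3/2) i`. -/
def rhoPt : ℍ := ⟨-1 / 2 + (Real.sqrt 3 / 2) * Complex.I, by simp⟩

lemma coe_rhoPt : (rhoPt : ℂ) = -1 / 2 + (Real.sqrt 3 / 2) * Complex.I := rfl

lemma rhoPt_sq : (rhoPt : ℂ) ^ 2 + rhoPt + 1 = 0 := by
  rw [coe_rhoPt]
  have h3 : ((Real.sqrt 3 : ℝ) : ℂ) ^ 2 = 3 := by
    rw [← Complex.ofReal_pow, Real.sq_sqrt (by norm_num)]; norm_num
  have hI : Complex.I ^ 2 = -1 := Complex.I_sq
  linear_combination (1/4 : ℂ) * Complex.I ^ 2 * h3 + (3/4 : ℂ) * hI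

lemma ST_coe : ((ModularGroup.S * ModularGroup.T : SL(2,ℤ)) : Matrix (Fin 2) (Fin 2) ℤ)
    = !![0, -1; 1, 1] := by
  rw [Matrix.SpecialLinearGroup.coe_mul, ModularGroup.coe_S, ModularGroup.coe_T]
  simp

lemma denom_ST (z : ℍ) :
    denom ((ModularGroup.S * ModularGroup.T : SL(2,ℤ)) : GL (Fin 2) ℝ) z = z + 1 := by
  rw [ModularGroup.denom_apply, ST_coe]; simp

lemma ST_smul_rhoPt : (ModularGroup.S * ModularGroup.T) • rhoPt = rhoPt := by
  rw [mul_smul, modular_T_smul, modular_S_smul]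
  ext
  simp only [UpperHalfPlane.coe_vadd]
  show (-(((1:ℝ):ℂ) + (rhoPt : ℂ)))⁻¹ = rhoPt
  apply inv_eq_of_mul_eq_one_left
  push_cast
  linear_combination -rhoPt_sq

theorem sum_rho_zpow_eq_card_fixedBy_ST {κ : X → ℤ} {F : X → X → ℍ → ℂ} (h : IsFundSystem κ F) :
    ∑ j, ((rhoPt : ℂ) + 1) ^ (-κ j) =
      (Nat.card (MulAction.fixedBy X (ModularGroup.S * ModularGroup.T)) : ℂ) := by
  have := sum_denom_zpow_eq_card_fixedBy h (ModularGroup.S * ModularGroup.T) rhoPt ST_smul_rhoPt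
  rwa [denom_ST] at this

/-! ### Integer forms, for even weights -/

lemma I_zpow_neg_of_even {k : ℤ} (hk : Even k) :
    Complex.I ^ (-k) = if (4 : ℤ) ∣ k then 1 else -1 := by
  obtain ⟨m, rfl⟩ := hk
  have h1 : Complex.I ^ (-(m + m)) = (-1 : ℂ) ^ (-m) := by
    rw [show -(m + m) = 2 * (-m) by ring, zpow_mul]
    congr 1
    exact_mod_cast Complex.I_sq
  rw [h1]
  rcases Int.even_or_odd m with hm | hm
  · rw [if_pos (by obtain ⟨t, rfl⟩ := hm; exact ⟨t, by ring⟩), Even.neg_one_zpow hm.neg]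
  · rw [if_neg (by obtain ⟨t, rfl⟩ := hm; omega), Odd.neg_one_zpow hm.neg]

theorem sum_ite_four_dvd_eq_card_fixedBy_S {κ : X → ℤ} {F : X → X → ℍ → ℂ}
    (h : IsFundSystem κ F) (hev : ∀ j, Even (κ j)) :
    ∑ j, (if (4 : ℤ) ∣ κ j then (1 : ℤ) else -1) =
      (Nat.card (MulAction.fixedBy X ModularGroup.S) : ℤ) := by
  have h1 := sum_I_zpow_eq_card_fixedBy_S h
  have h2 : ∑ j, Complex.I ^ (-κ j) = ((∑ j, (if (4 : ℤ) ∣ κ j then (1 : ℤ) else -1) : ℤ) : ℂ) := by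
    push_cast
    refine Finset.sum_congr rfl fun j _ => ?_
    rw [I_zpow_neg_of_even (hev j)]
  rw [h2] at h1
  exact_mod_cast h1

lemma rho_cube : (rhoPt : ℂ) ^ 3 = 1 := by
  linear_combination ((rhoPt : ℂ) - 1) * rhoPt_sq

lemma rho_ne_zero : (rhoPt : ℂ) ≠ 0 := by
  intro h
  have := rho_cube
  rw [h] at this
  norm_num at this

lemma rho_re : (rhoPt : ℂ).re = -1 / 2 := by
  simp [coe_rhoPt]

lemma rho_add_one_zpow_neg_re_of_even {k : ℤ} (hk : Even k) :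
    (((rhoPt : ℂ) + 1) ^ (-k)).re = if (6 : ℤ) ∣ k then 1 else -1 / 2 := by
  obtain ⟨m, rfl⟩ := hk
  have h1 : ((rhoPt : ℂ) + 1) ^ (-(m + m)) = (rhoPt : ℂ) ^ (-m) := by
    rw [show -(m + m) = 2 * (-m) by ring, zpow_mul]
    congr 1
    have : ((rhoPt : ℂ) + 1) ^ (2 : ℤ) = ((rhoPt : ℂ) + 1) ^ 2 := by norm_cast
    rw [this]
    linear_combination rhoPt_sq
  rw [h1]
  have h3 : ∀ t : ℤ, (rhoPt : ℂ) ^ (3 * t) = 1 := by
    intro t
    rw [zpow_mul]
    have : (rhoPt : ℂ) ^ (3 : ℤ) = 1 := by exact_mod_cast rho_cube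
    rw [this, one_zpow]
  have hinv : (rhoPt : ℂ)⁻¹ = -1 - rhoPt := by
    apply inv_eq_of_mul_eq_one_left
    linear_combination -rhoPt_sq
  obtain ⟨t, ht⟩ : ∃ t : ℤ, m = 3 * t ∨ m = 3 * t + 1 ∨ m = 3 * t + 2 := ⟨m / 3, by omega⟩
  rcases ht with rfl | rfl | rfl
  · rw [if_pos ⟨t, by ring⟩, show -(3 * t) = 3 * (-t) by ring, h3]; simp
  · rw [if_neg (by omega), show -(3 * t + 1) = 3 * (-t) + (-1) by ring, zpow_add₀ rho_ne_zero, h3,
      one_mul, zpow_neg_one, hinv, Complex.sub_re, rho_re]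
    norm_num
  · rw [if_neg (by omega), show -(3 * t + 2) = 3 * (-t - 1) + 1 by ring, zpow_add₀ rho_ne_zero, h3,
      one_mul, zpow_one, rho_re]

theorem sum_ite_six_dvd_eq_card_fixedBy_ST {κ : X → ℤ} {F : X → X → ℍ → ℂ}
    (h : IsFundSystem κ F) (hev : ∀ j, Even (κ j)) :
    ∑ j, (if (6 : ℤ) ∣ κ j then (2 : ℤ) else -1) =
      2 * (Nat.card (MulAction.fixedBy X (ModularGroup.S * ModularGroup.T)) : ℤ) := by
  have h1 := congrArg Complex.re (sum_rho_zpow_eq_card_fixedBy_ST h)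
  rw [Complex.re_sum, Complex.natCast_re] at h1
  have h2 : ∑ j, (((rhoPt : ℂ) + 1) ^ (-κ j)).re =
      ((∑ j, (if (6 : ℤ) ∣ κ j then (2 : ℤ) else -1) : ℤ) : ℝ) / 2 := by
    push_cast
    rw [Finset.sum_div]
    refine Finset.sum_congr rfl fun j _ => ?_
    rw [rho_add_one_zpow_neg_re_of_even (hev j)]
    split_ifs <;> norm_num
  rw [h2] at h1
  have h3 : ((∑ j, (if (6 : ℤ) ∣ κ j then (2 : ℤ) else -1) : ℤ) : ℝ) =
      ((2 * (Nat.card (MulAction.fixedBy X (ModularGroup.S * ModularGroup.T)) : ℤ) : ℤ) : ℝ) := by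
    push_cast at h1 ⊢
    linarith
  exact_mod_cast h3

end

end Fermat.Agent.S20
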