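import Fermat.Agent.S20.Defs

/-!
Package B of S20: the Serre derivative maps `VMF X k` to `VMF X (k + 2)`.
-/

set_option autoImplicit false

namespace Fermat.Agent.S20

open UpperHalfPlane ModularForm Derivative
open scoped MatrixGroups ModularForm Manifold

/-- Cauchy estimate, quantitative form. -/
theorem norm_normalizedDeriv_le {g : ℍ → ℂ} (hg : MDiff g) {M A : ℝ}
    (hMA : ∀ z : ℍ, A ≤ im z → ‖g z‖ ≤ M) (z : ℍ) (hz : max A 0 + 2 ≤ im z) :
    ‖normalizedDerivOfComplex g z‖ ≤ ‖(2 * Real.pi * Complex.I)⁻¹‖ * (M / 1) := by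
  rw [UpperHalfPlane.mdifferentiable_iff] at hg
  have hsub : Metric.closedBall (z : ℂ) 1 ⊆ upperHalfPlaneSet := by
    intro w hw
    have h1 : |(w - z).im| ≤ 1 :=
      (Complex.abs_im_le_norm _).trans (by simpa [dist_eq_norm] using hw)
    have h2 := abs_le.mp h1
    have h3 : (0 : ℝ) ≤ max A 0 := le_max_right _ _
    have h4 : z.im = (z : ℂ).im := rfl
    simp only [Complex.sub_im] at h2
    show 0 < w.im
    linarith [h2.1]
  have hbd : ∀ w ∈ Metric.sphere (z : ℂ) 1, ‖(g ∘ ofComplex) w‖ ≤ M := by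
    intro w hw
    have hw' : w ∈ Metric.closedBall (z : ℂ) 1 := Metric.sphere_subset_closedBall hw
    have hpos : 0 < w.im := hsub hw'
    have h1 : |(w - z).im| ≤ 1 :=
      (Complex.abs_im_le_norm _).trans (by simpa [dist_eq_norm] using hw')
    have h2 := abs_le.mp h1
    have h3 : A ≤ max A 0 := le_max_left _ _
    have h4 : z.im = (z : ℂ).im := rfl
    simp only [Complex.sub_im] at h2
    rw [Function.comp_apply, ofComplex_apply_of_im_pos hpos]
    apply hMA
    show A ≤ w.im
    linarith [h2.1]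
  have hc := Complex.norm_deriv_le_of_forall_mem_sphere_norm_le (c := (z : ℂ)) (R := 1)
    one_pos (hg.diffContOnCl_ball hsub) hbd
  rw [normalizedDerivOfComplex, norm_mul]
  exact mul_le_mul_of_nonneg_left hc (norm_nonneg _)

/-- Cauchy estimate: the normalised derivative of a holomorphic function bounded at `i∞` is
bounded at `i∞`. -/
theorem isBoundedAtImInfty_normalizedDeriv {g : ℍ → ℂ} (hg : MDiff g)
    (hb : IsBoundedAtImInfty g) : IsBoundedAtImInfty (normalizedDerivOfComplex g) := by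
  rw [UpperHalfPlane.isBoundedAtImInfty_iff] at hb ⊢
  obtain ⟨M, A, hMA⟩ := hb
  exact ⟨_, _, fun z hz => norm_normalizedDeriv_le hg hMA z hz⟩

/-- Cauchy estimate: the normalised derivative of a holomorphic function vanishing at `i∞`
vanishes at `i∞`. -/
theorem isZeroAtImInfty_normalizedDeriv {g : ℍ → ℂ} (hg : MDiff g)
    (hb : IsZeroAtImInfty g) : IsZeroAtImInfty (normalizedDerivOfComplex g) := by
  rw [UpperHalfPlane.isZeroAtImInfty_iff] at hb ⊢
  intro ε hε
  have hc : 0 < ‖(2 * Real.pi * Complex.I)⁻¹‖ := by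
    rw [norm_pos_iff]
    exact inv_ne_zero (by simp [Real.pi_ne_zero])
  obtain ⟨A, hA⟩ := hb (ε / ‖(2 * Real.pi * Complex.I)⁻¹‖) (div_pos hε hc)
  refine ⟨_, fun z hz => (norm_normalizedDeriv_le hg hA z hz).trans (le_of_eq ?_)⟩
  field_simp

/-- The Serre derivative of a holomorphic function vanishing at `i∞` vanishes at `i∞`. -/
theorem isZeroAtImInfty_serreDerivative {g : ℍ → ℂ} (k : ℂ) (hg : MDiff g)
    (hb : IsZeroAtImInfty g) : IsZeroAtImInfty (serreDerivative k g) := by
  have h1 := isZeroAtImInfty_normalizedDeriv hg hb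
  have h2 : IsZeroAtImInfty (fun z => k * 12⁻¹ * EisensteinSeries.E2 z * g z) := by
    have h3 : IsBoundedAtImInfty (fun _ : ℍ => k * 12⁻¹) :=
      Filter.const_boundedAtFilter atImInfty _
    have h4 := (h3.mul EisensteinSeries.isBoundedAtImInfty_E2)
    have h5 : IsZeroAtImInfty (fun z => g z * (k * 12⁻¹ * EisensteinSeries.E2 z)) :=
      Filter.ZeroAtFilter.mul_boundedAtFilter hb h4
    simpa [mul_comm] using h5
  have h6 := h1.add (Filter.ZeroAtFilter.neg h2)
  have h7 : serreDerivative k g = normalizedDerivOfComplex g +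
      -(fun z => k * 12⁻¹ * EisensteinSeries.E2 z * g z) := by
    ext z; simp [sub_eq_add_neg]
  rw [h7]; exact h6

/-- The Serre derivative of a holomorphic function bounded at `i∞` is bounded at `i∞`. -/
theorem isBoundedAtImInfty_serreDerivative {g : ℍ → ℂ} (k : ℂ) (hg : MDiff g)
    (hb : IsBoundedAtImInfty g) : IsBoundedAtImInfty (serreDerivative k g) := by
  have h1 := isBoundedAtImInfty_normalizedDeriv hg hb
  have h2 : IsBoundedAtImInfty (fun z => k * 12⁻¹ * EisensteinSeries.E2 z * g z) := by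
    have h3 : IsBoundedAtImInfty (fun _ : ℍ => k * 12⁻¹) :=
      Filter.const_boundedAtFilter atImInfty _
    exact (h3.mul EisensteinSeries.isBoundedAtImInfty_E2).mul hb
  exact h1.sub h2

variable {X : Type*} [MulAction SL(2, ℤ) X]

/-- Package B: the Serre derivative maps `VMF X k` to `VMF X (k + 2)`. -/
theorem serre_mem_VMF {k : ℤ} {G : X → ℍ → ℂ} (hG : G ∈ VMF X k) :
    (fun x => Derivative.serreDerivative k (G x)) ∈ VMF X (k + 2) := by
  obtain ⟨h1, h2, h3⟩ := hG
  refine ⟨fun x => serreDerivative_mdifferentiable _ (h1 x),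
    fun x => isBoundedAtImInfty_serreDerivative _ (h1 x) (h2 x), fun x g => ?_⟩
  rw [serreDerivative_slash_equivariant (h1 x), h3]

/-- The Serre derivative maps `VCF X k` to `VCF X (k + 2)`. -/
theorem serre_mem_VCF {k : ℤ} {G : X → ℍ → ℂ} (hG : G ∈ VCF X k) :
    (fun x => Derivative.serreDerivative k (G x)) ∈ VCF X (k + 2) := by
  obtain ⟨h1, h2, h3⟩ := hG
  refine ⟨fun x => serreDerivative_mdifferentiable _ (h1 x),
    fun x => isZeroAtImInfty_serreDerivative _ (h1 x) (h2 x), fun x g => ?_⟩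
  rw [serreDerivative_slash_equivariant (h1 x), h3]

/-- The level one version. -/
theorem serre_mem_M1 {k : ℤ} {r : ℍ → ℂ} (hr : r ∈ M1 k) :
    Derivative.serreDerivative k r ∈ M1 (k + 2) := by
  obtain ⟨h1, h2, h3⟩ := hr
  refine ⟨serreDerivative_mdifferentiable _ h1,
    isBoundedAtImInfty_serreDerivative _ h1 h2, fun g => ?_⟩
  rw [serreDerivative_slash_equivariant h1, h3]

end Fermat.Agent.S20
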