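import Mathlib
import Fermat.Agent.S20.CombIndex

set_option autoImplicit false

namespace Fermat.Agent.S20

open scoped MatrixGroups
open CongruenceSubgroup ModularCurve

theorem exists_add_mul_coprime {n m : ℕ} (hm : m ≠ 0) (x : ℕ) (hx : x.Coprime n) :
    ∃ k : ℕ, (x + k * n).Coprime m := by
  let ps : Finset ℕ := {p ∈ m.primeFactors | ¬p ∣ x}
  use ps.prod id
  apply Nat.coprime_of_dvd
  intro p pp hp hpn
  by_cases hpx : p ∣ x
  · have h := Nat.dvd_sub hp hpx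
    rw [add_comm, Nat.add_sub_cancel] at h
    rcases pp.dvd_mul.mp h with h | h
    · have ⟨q, hq, hq'⟩ := (pp.prime.dvd_finsetProd_iff id).mp h
      rw [Finset.mem_filter, Nat.mem_primeFactors,
        ← (Nat.prime_dvd_prime_iff_eq pp hq.1.1).mp hq'] at hq
      exact hq.2 hpx
    · exact Nat.Prime.not_coprime_iff_dvd.mpr ⟨p, pp, hpx, h⟩ hx
  · have pps : p ∈ ps := Finset.mem_filter.mpr ⟨Nat.mem_primeFactors.mpr ⟨pp, hpn, hm⟩, hpx⟩
    have h := Nat.dvd_sub hp ((Finset.dvd_prod_of_mem id pps).mul_right n)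
    rw [Nat.add_sub_cancel] at h
    contradiction

theorem T_zpow_mul_apply_zero_zero (n : ℤ) (g : SL(2, ℤ)) :
    (ModularGroup.T ^ n * g) 0 0 = g 0 0 + n * g 1 0 := by
  rw [Matrix.SpecialLinearGroup.coe_mul, ModularGroup.coe_T_zpow, Matrix.mul_apply,
    Fin.sum_univ_two]
  simp

theorem T_zpow_mul_apply_one_zero (n : ℤ) (g : SL(2, ℤ)) :
    (ModularGroup.T ^ n * g) 1 0 = g 1 0 := by
  rw [Matrix.SpecialLinearGroup.coe_mul, ModularGroup.coe_T_zpow, Matrix.mul_apply,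
    Fin.sum_univ_two]
  simp

theorem orbitRel_T_iff (N : ℕ) (g g' : SL(2, ℤ)) :
    MulAction.orbitRel (Subgroup.zpowers ModularGroup.T) (SL(2, ℤ) ⧸ Gamma0 N)
      (QuotientGroup.mk g) (QuotientGroup.mk g') ↔
    ∃ n : ℤ, (N : ℤ) ∣ (g' 0 0 + n * g' 1 0) * g 1 0 - g' 1 0 * g 0 0 := by
  rw [MulAction.orbitRel_apply, MulAction.mem_orbit_iff]
  constructor
  · rintro ⟨⟨x, hx⟩, h⟩
    obtain ⟨n, rfl⟩ := Subgroup.mem_zpowers_iff.1 hx
    refine ⟨n, ?_⟩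
    change ModularGroup.T ^ n • (QuotientGroup.mk g' : SL(2, ℤ) ⧸ Gamma0 N) = _ at h
    rw [MulAction.Quotient.smul_mk, smul_eq_mul, mk_eq_mk_iff,
      CharP.intCast_eq_zero_iff (ZMod N) N, T_zpow_mul_apply_zero_zero,
      T_zpow_mul_apply_one_zero] at h
    exact h
  · rintro ⟨n, h⟩
    refine ⟨⟨ModularGroup.T ^ n, Subgroup.zpow_mem_zpowers _ _⟩, ?_⟩
    change ModularGroup.T ^ n • (QuotientGroup.mk g' : SL(2, ℤ) ⧸ Gamma0 N) = _
    rw [MulAction.Quotient.smul_mk, smul_eq_mul, mk_eq_mk_iff,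
      CharP.intCast_eq_zero_iff (ZMod N) N, T_zpow_mul_apply_zero_zero,
      T_zpow_mul_apply_one_zero]
    exact h

theorem exists_cusp_rep {D e r : ℕ} (hD : D ≠ 0) (hr : e.Coprime r) :
    ∃ g : SL(2, ℤ), g 1 0 = D ∧ (e : ℤ) ∣ g 1 1 - r := by
  obtain ⟨k, hk⟩ := exists_add_mul_coprime (n := e) hD r hr.symm
  obtain ⟨u, v, huv⟩ := Nat.isCoprime_iff_coprime.2 hk
  refine ⟨⟨!![u, -v; (D : ℤ), ((r + k * e : ℕ) : ℤ)], ?_⟩, ?_, ?_⟩
  · rw [Matrix.det_fin_two_of]; linear_combination huv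
  · simp
  · simp

/-- two normalised representatives in the same `T`-orbit have the same invariants -/
theorem cusp_rep_inj {N D D' : ℕ} (hN : N ≠ 0) (hD : D ∣ N) (hD' : D' ∣ N) (g g' : SL(2, ℤ))
    (hg : g 1 0 = D) (hg' : g' 1 0 = D')
    (h : MulAction.orbitRel (Subgroup.zpowers ModularGroup.T) (SL(2, ℤ) ⧸ Gamma0 N)
      (QuotientGroup.mk g) (QuotientGroup.mk g')) :
    D = D' ∧ ((Nat.gcd D (N / D) : ℕ) : ℤ) ∣ g 1 1 - g' 1 1 := by
  rw [orbitRel_T_iff] at h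
  obtain ⟨n, hn⟩ := h
  rw [hg, hg'] at hn
  have hdet := sl2_det_eq g
  have hdet' := sl2_det_eq g'
  rw [hg] at hdet
  rw [hg'] at hdet'
  have hDN : (D : ℤ) ∣ N := by exact_mod_cast hD
  have hD'N : (D' : ℤ) ∣ N := by exact_mod_cast hD'
  have h1 : (D' : ℤ) ∣ D := by
    have h2 : (D' : ℤ) ∣ g' 0 0 * D := by
      have := hD'N.trans hn
      have e : g' 0 0 * D = ((g' 0 0 + n * D') * D - D' * g 0 0) - D' * (n * D - g 0 0) := by ring
      rw [e]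
      exact dvd_sub this (Dvd.intro _ rfl)
    have hc : IsCoprime (D' : ℤ) (g' 0 0) := ⟨-g' 0 1, g' 1 1, by linear_combination hdet'⟩
    exact hc.dvd_of_dvd_mul_left h2
  have h2 : (D : ℤ) ∣ D' := by
    have h3 : (D : ℤ) ∣ g 0 0 * D' := by
      have := hDN.trans hn
      have e : g 0 0 * D' = D * (g' 0 0 + n * D') - ((g' 0 0 + n * D') * D - D' * g 0 0) := by ring
      rw [e]
      exact dvd_sub (Dvd.intro _ rfl) this
    have hc : IsCoprime (D : ℤ) (g 0 0) := ⟨-g 0 1, g 1 1, by linear_combination hdet⟩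
    exact hc.dvd_of_dvd_mul_left h3
  have hDD : D = D' := Nat.dvd_antisymm (by exact_mod_cast h2) (by exact_mod_cast h1)
  subst hDD
  refine ⟨rfl, ?_⟩
  have hD0 : D ≠ 0 := by
    rintro rfl
    exact hN (Nat.eq_zero_of_zero_dvd hD)
  obtain ⟨m, rfl⟩ := hD
  rw [Nat.mul_div_cancel_left m (Nat.pos_of_ne_zero hD0)]
  have hm : (m : ℤ) ∣ g' 0 0 - g 0 0 + n * D := by
    have e : (g' 0 0 + n * D) * D - D * g 0 0 = D * (g' 0 0 - g 0 0 + n * D) := by ring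
    rw [e] at hn
    push_cast at hn
    exact (mul_dvd_mul_iff_left (by exact_mod_cast hD0)).1 hn
  have he1 : ((Nat.gcd D m : ℕ) : ℤ) ∣ D := by exact_mod_cast Nat.gcd_dvd_left D m
  have he2 : ((Nat.gcd D m : ℕ) : ℤ) ∣ m := by exact_mod_cast Nat.gcd_dvd_right D m
  have h3 : ((Nat.gcd D m : ℕ) : ℤ) ∣ g' 0 0 - g 0 0 := by
    have := dvd_sub (he2.trans hm) (he1.mul_left n)
    simpa using this
  have e : g 1 1 - g' 1 1 = g 1 1 * g' 1 1 * (g' 0 0 - g 0 0) +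
      D * (g 0 1 * g' 1 1 - g' 0 1 * g 1 1) := by
    linear_combination (g' 1 1) * hdet - (g 1 1) * hdet'
  rw [e]
  exact dvd_add (h3.mul_left _) (he1.mul_right _)

/-- every class is in the `T`-orbit of any normalised representative with the right invariants -/
theorem cusp_rep_surj {N : ℕ} (hN : N ≠ 0) (g g' : SL(2, ℤ))
    (hg' : g' 1 0 = (Int.gcd (g 1 0) N : ℕ))
    (h : ((Nat.gcd (Int.gcd (g 1 0) N) (N / Int.gcd (g 1 0) N) : ℕ) : ℤ) ∣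
      g' 1 1 - (g 1 0 / (Int.gcd (g 1 0) N : ℕ)) * g 1 1) :
    MulAction.orbitRel (Subgroup.zpowers ModularGroup.T) (SL(2, ℤ) ⧸ Gamma0 N)
      (QuotientGroup.mk g) (QuotientGroup.mk g') := by
  rw [orbitRel_T_iff]
  have hdet := sl2_det_eq g
  have hdet' := sl2_det_eq g'
  set D : ℕ := Int.gcd (g 1 0) N with hDdef
  have hD0 : D ≠ 0 := by
    rw [hDdef, Ne, Int.gcd_eq_zero_iff]
    rintro ⟨-, h0⟩
    exact hN (by exact_mod_cast h0)
  have hDN : D ∣ N := by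
    have : (D : ℤ) ∣ (N : ℤ) := Int.gcd_dvd_right _ _
    exact_mod_cast this
  have hDc : (D : ℤ) ∣ g 1 0 := Int.gcd_dvd_left _ _
  obtain ⟨m, hm⟩ := hDN
  obtain ⟨γ, hγ⟩ := hDc
  have hD0' : (D : ℤ) ≠ 0 := by exact_mod_cast hD0
  have hcop : IsCoprime γ (m : ℤ) := by
    rw [Int.isCoprime_iff_gcd_eq_one]
    have h1 : Int.gcd (g 1 0) N = D * Int.gcd γ m := by
      rw [hγ, hm]
      push_cast
      rw [Int.gcd_mul_left]
      simp
    rw [← hDdef] at h1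
    exact Nat.eq_of_mul_eq_mul_left (Nat.pos_of_ne_zero hD0) (by rw [← h1, mul_one])
  rw [hm, Nat.mul_div_cancel_left m (Nat.pos_of_ne_zero hD0), hγ,
    Int.mul_ediv_cancel_left _ hD0'] at h
  rw [hγ] at hdet
  rw [hg'] at hdet'
  rw [hg', hγ, hm]
  set e : ℕ := Nat.gcd D m with hedef
  have he1 : (e : ℤ) ∣ D := by exact_mod_cast Nat.gcd_dvd_left D m
  have hbez : (e : ℤ) = D * Nat.gcdA D m + m * Nat.gcdB D m := Nat.gcd_eq_gcd_ab D m
  obtain ⟨t, ht⟩ : (e : ℤ) ∣ g' 0 0 * γ - g 0 0 := by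
    have e1 : g' 0 0 * γ - g 0 0 = - (g 0 0 * g' 0 0 * (g' 1 1 - γ * g 1 1)) +
        D * (g 0 0 * g' 0 1 - g' 0 0 * γ * g 0 1 * γ) := by
      linear_combination (g 0 0) * hdet' - (g' 0 0 * γ) * hdet
    rw [e1]
    exact dvd_add ((h.mul_left _).neg_right) (he1.mul_right _)
  obtain ⟨γ', μ, hγ'⟩ := hcop
  refine ⟨-t * Nat.gcdA D m * γ', ?_⟩
  refine ⟨t * Nat.gcdB D m + t * Nat.gcdA D m * D * μ, ?_⟩
  push_cast
  linear_combination (D : ℤ) * ht + (D : ℤ) * t * hbez - (D : ℤ) ^ 2 * t * Nat.gcdA D m * hγ'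

theorem cusp_invariant_spec {N : ℕ} (hN : N ≠ 0) (g : SL(2, ℤ)) :
    ∃ r : ℕ, r < Nat.gcd (Int.gcd (g 1 0) N) (N / Int.gcd (g 1 0) N) ∧
      (Nat.gcd (Int.gcd (g 1 0) N) (N / Int.gcd (g 1 0) N)).Coprime r ∧
      ((Nat.gcd (Int.gcd (g 1 0) N) (N / Int.gcd (g 1 0) N) : ℕ) : ℤ) ∣
        (r : ℤ) - (g 1 0 / (Int.gcd (g 1 0) N : ℕ)) * g 1 1 := by
  have hdet := sl2_det_eq g
  set D : ℕ := Int.gcd (g 1 0) N with hDdef
  have hD0 : D ≠ 0 := by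
    rw [hDdef, Ne, Int.gcd_eq_zero_iff]
    rintro ⟨-, h0⟩
    exact hN (by exact_mod_cast h0)
  have hDN : D ∣ N := by
    have : (D : ℤ) ∣ (N : ℤ) := Int.gcd_dvd_right _ _
    exact_mod_cast this
  have hDc : (D : ℤ) ∣ g 1 0 := Int.gcd_dvd_left _ _
  obtain ⟨m, hm⟩ := hDN
  obtain ⟨γ, hγ⟩ := hDc
  have hD0' : (D : ℤ) ≠ 0 := by exact_mod_cast hD0
  have hcop : IsCoprime γ (m : ℤ) := by
    rw [Int.isCoprime_iff_gcd_eq_one]
    have h1 : Int.gcd (g 1 0) N = D * Int.gcd γ m := by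
      rw [hγ, hm]
      push_cast
      rw [Int.gcd_mul_left]
      simp
    rw [← hDdef] at h1
    exact Nat.eq_of_mul_eq_mul_left (Nat.pos_of_ne_zero hD0) (by rw [← h1, mul_one])
  rw [hm, Nat.mul_div_cancel_left m (Nat.pos_of_ne_zero hD0), hγ,
    Int.mul_ediv_cancel_left _ hD0']
  rw [hγ] at hdet
  set e : ℕ := Nat.gcd D m with hedef
  have he0 : 0 < e := Nat.gcd_pos_of_pos_left _ (Nat.pos_of_ne_zero hD0)
  have he0' : (0 : ℤ) < e := by exact_mod_cast he0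
  obtain ⟨s, hs⟩ : (e : ℤ) ∣ D := by exact_mod_cast Nat.gcd_dvd_left D m
  have he2 : (e : ℤ) ∣ m := by exact_mod_cast Nat.gcd_dvd_right D m
  have hc1 : IsCoprime γ (e : ℤ) := hcop.of_isCoprime_of_dvd_right he2
  have hc2 : IsCoprime (g 1 1) (e : ℤ) :=
    ⟨g 0 0, - g 0 1 * s * γ, by rw [hs] at hdet; linear_combination hdet⟩
  have hc : IsCoprime (γ * g 1 1) (e : ℤ) := hc1.mul_left hc2
  have hr : (((γ * g 1 1) % e).toNat : ℤ) = (γ * g 1 1) % e :=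
    Int.toNat_of_nonneg (Int.emod_nonneg _ he0'.ne')
  refine ⟨((γ * g 1 1) % e).toNat, ?_, ?_, ?_⟩
  · have := Int.emod_lt_of_pos (γ * g 1 1) he0'
    rw [← hr] at this
    exact_mod_cast this
  · rw [← Nat.isCoprime_iff_coprime, hr, Int.emod_def]
    have := (hc.add_mul_left_left (-((γ * g 1 1) / e))).symm
    have e1 : γ * g 1 1 - e * (γ * g 1 1 / e) = γ * g 1 1 + e * -(γ * g 1 1 / e) := by ring
    rw [e1]
    exact this
  · rw [hr, Int.emod_def]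
    exact ⟨-((γ * g 1 1) / e), by ring⟩

/-- the index set for the cusps of `Γ₀(N)` -/
def cuspIndex (N : ℕ) : Finset (Σ _ : ℕ, ℕ) :=
  N.divisors.sigma fun D =>
    (Finset.range (Nat.gcd D (N / D))).filter fun r => (Nat.gcd D (N / D)).Coprime r

theorem card_cuspIndex (N : ℕ) : (cuspIndex N).card = cuspCount N := by
  rw [cuspIndex, Finset.card_sigma]
  rfl

theorem mem_cuspIndex {N : ℕ} {x : Σ _ : ℕ, ℕ} : x ∈ cuspIndex N ↔
    (x.1 ∣ N ∧ N ≠ 0) ∧ x.2 < Nat.gcd x.1 (N / x.1) ∧ (Nat.gcd x.1 (N / x.1)).Coprime x.2 := by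
  simp [cuspIndex, Finset.mem_sigma]

theorem card_orbits_T (N : ℕ) [NeZero N] :
    Nat.card (MulAction.orbitRel.Quotient (Subgroup.zpowers ModularGroup.T)
      (SL(2, ℤ) ⧸ Gamma0 N)) = cuspCount N := by
  have hN : N ≠ 0 := NeZero.ne N
  rw [← card_cuspIndex, ← Nat.card_eq_finsetCard, eq_comm]
  have hrep : ∀ x : cuspIndex N, ∃ g : SL(2, ℤ), g 1 0 = (x.1.1 : ℕ) ∧
      ((Nat.gcd x.1.1 (N / x.1.1) : ℕ) : ℤ) ∣ g 1 1 - (x.1.2 : ℕ) := by
    intro x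
    have hx := mem_cuspIndex.1 x.2
    have hD0 : x.1.1 ≠ 0 := by
      intro h0
      rw [h0] at hx
      exact hN (Nat.eq_zero_of_zero_dvd hx.1.1)
    exact exists_cusp_rep hD0 hx.2.2
  choose rep hrep1 hrep2 using hrep
  refine Nat.card_congr (Equiv.ofBijective
    (fun x => Quotient.mk'' (QuotientGroup.mk (rep x))) ⟨?_, ?_⟩)
  · intro x y hxy
    have hx := mem_cuspIndex.1 x.2
    have hy := mem_cuspIndex.1 y.2
    have hrel := Quotient.eq''.1 hxy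
    obtain ⟨h1, h2⟩ := cusp_rep_inj hN hx.1.1 hy.1.1 (rep x) (rep y) (hrep1 x) (hrep1 y) hrel
    obtain ⟨⟨D, r⟩, hxm⟩ := x
    obtain ⟨⟨D', r'⟩, hym⟩ := y
    simp only at h1 h2 hx hy
    subst h1
    have h3 := hrep2 ⟨⟨D, r⟩, hxm⟩
    have h4 := hrep2 ⟨⟨D, r'⟩, hym⟩
    simp only at h3 h4
    have h5 : ((Nat.gcd D (N / D) : ℕ) : ℤ) ∣ (r : ℤ) - r' := by
      have := dvd_sub (dvd_sub h2 h3) (h4.neg_right)
      have e1 : (r : ℤ) - r' = (rep ⟨⟨D, r⟩, hxm⟩ 1 1 - rep ⟨⟨D, r'⟩, hym⟩ 1 1 -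
          (rep ⟨⟨D, r⟩, hxm⟩ 1 1 - r)) - -(rep ⟨⟨D, r'⟩, hym⟩ 1 1 - r') := by ring
      rw [e1]
      exact this
    have h6 : r = r' := by
      have h7 : (r : ℤ) ≡ r' [ZMOD (Nat.gcd D (N / D) : ℕ)] := (Int.modEq_iff_dvd.2 h5).symm
      have h8 : r ≡ r' [MOD Nat.gcd D (N / D)] := (Int.natCast_modEq_iff).1 h7
      exact Nat.ModEq.eq_of_lt_of_lt h8 hx.2.1 hy.2.1
    subst h6
    rfl
  · intro ω
    induction ω using Quotient.inductionOn' with | _ q => ?_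
    induction q using QuotientGroup.induction_on with | _ g => ?_
    obtain ⟨r, hr1, hr2, hr3⟩ := cusp_invariant_spec hN g
    have hDN : Int.gcd (g 1 0) N ∣ N := by
      have : ((Int.gcd (g 1 0) N : ℕ) : ℤ) ∣ (N : ℤ) := Int.gcd_dvd_right _ _
      exact_mod_cast this
    have hmem : (⟨Int.gcd (g 1 0) N, r⟩ : Σ _ : ℕ, ℕ) ∈ cuspIndex N :=
      mem_cuspIndex.2 ⟨⟨hDN, hN⟩, hr1, hr2⟩
    refine ⟨⟨_, hmem⟩, ?_⟩
    apply Quotient.sound'
    apply Setoid.symm'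
    refine cusp_rep_surj hN g _ (hrep1 ⟨_, hmem⟩) ?_
    have := dvd_add (hrep2 ⟨_, hmem⟩) hr3
    simp only at this
    have e1 : rep ⟨_, hmem⟩ 1 1 - (g 1 0 / (Int.gcd (g 1 0) N : ℕ)) * g 1 1 =
        (rep ⟨_, hmem⟩ 1 1 - r) + ((r : ℤ) - (g 1 0 / (Int.gcd (g 1 0) N : ℕ)) * g 1 1) := by ring
    rw [e1]
    exact this

end Fermat.Agent.S20
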