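import Fermat.Agent.S20.Defs

/-!
Bridge between Mathlib's `ModularForm Γ k`, `CuspForm Γ k` (for a finite index subgroup
`Γ ≤ SL(2,ℤ)`) and the vector valued forms `VMF (SL(2,ℤ) ⧸ Γ) k`, `VCF (SL(2,ℤ) ⧸ Γ) k`.
-/

set_option autoImplicit false

namespace Fermat.Agent.S20

open UpperHalfPlane ModularForm Matrix.SpecialLinearGroup
open scoped MatrixGroups ModularForm Manifold

noncomputable section

variable (Γ : Subgroup SL(2, ℤ)) (k : ℤ)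

/-- The family of translates `f ∣[k] g⁻¹` indexed by the cosets `g Γ`. -/
def cosetFun (f : ℍ → ℂ) (hf : ∀ γ ∈ Γ, f ∣[k] γ = f) (q : SL(2, ℤ) ⧸ Γ) : ℍ → ℂ :=
  Quotient.liftOn' q (fun g => f ∣[k] g⁻¹) (by
    intro a b hab
    have h : a⁻¹ * b ∈ Γ := QuotientGroup.leftRel_apply.mp hab
    have h2 : b⁻¹ = (a⁻¹ * b)⁻¹ * a⁻¹ := by group
    show f ∣[k] a⁻¹ = f ∣[k] b⁻¹
    rw [h2, SlashAction.slash_mul, hf _ (inv_mem h)])

variable {Γ k}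

@[simp] lemma cosetFun_mk (f : ℍ → ℂ) (hf : ∀ γ ∈ Γ, f ∣[k] γ = f) (g : SL(2, ℤ)) :
    cosetFun Γ k f hf (g : SL(2, ℤ) ⧸ Γ) = f ∣[k] g⁻¹ := rfl

lemma cosetFun_slash (f : ℍ → ℂ) (hf : ∀ γ ∈ Γ, f ∣[k] γ = f) (q : SL(2, ℤ) ⧸ Γ)
    (h : SL(2, ℤ)) : cosetFun Γ k f hf q ∣[k] h = cosetFun Γ k f hf (h⁻¹ • q) := by
  induction q using QuotientGroup.induction_on with
  | H g =>
    rw [MulAction.Quotient.smul_coe, cosetFun_mk, cosetFun_mk, ← SlashAction.slash_mul]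
    congr 1
    simp [smul_eq_mul, mul_inv_rev]

lemma slash_eq_of_mem_map {F : Type*} [FunLike F ℍ ℂ]
    [SlashInvariantFormClass F (Γ : Subgroup (GL (Fin 2) ℝ)) k] (f : F) :
    ∀ γ ∈ Γ, (f : ℍ → ℂ) ∣[k] γ = f := fun γ hγ => by
  rw [SL_slash]
  exact SlashInvariantFormClass.slash_action_eq f _ (Subgroup.mem_map_of_mem _ hγ)

variable (Γ k)

/-- `CuspForm Γ k → VCF (SL(2,ℤ) ⧸ Γ) k`. -/
def cuspToVCF [Γ.FiniteIndex] :
    CuspForm (Γ : Subgroup (GL (Fin 2) ℝ)) k →ₗ[ℂ] VCF (SL(2, ℤ) ⧸ Γ) k where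
  toFun f := ⟨cosetFun Γ k f (slash_eq_of_mem_map f), by
    refine ⟨fun q => ?_, fun q => ?_, fun q g => cosetFun_slash _ _ q g⟩
    · induction q using QuotientGroup.induction_on with
      | H g => exact (CuspFormClass.holo f).slash k _
    · induction q using QuotientGroup.induction_on with
      | H g => exact CuspFormClass.zero_at_infty_slash f g⁻¹⟩
  map_add' f g := by
    apply Subtype.ext
    funext q
    induction q using QuotientGroup.induction_on with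
    | H a => simp [SlashAction.add_slash]
  map_smul' c f := by
    apply Subtype.ext
    funext q
    induction q using QuotientGroup.induction_on with
    | H a => simp [ModularForm.SL_smul_slash]

/-- `ModularForm Γ k → VMF (SL(2,ℤ) ⧸ Γ) k`. -/
def modToVMF [Γ.FiniteIndex] :
    ModularForm (Γ : Subgroup (GL (Fin 2) ℝ)) k →ₗ[ℂ] VMF (SL(2, ℤ) ⧸ Γ) k where
  toFun f := ⟨cosetFun Γ k f (slash_eq_of_mem_map f), by
    refine ⟨fun q => ?_, fun q => ?_, fun q g => cosetFun_slash _ _ q g⟩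
    · induction q using QuotientGroup.induction_on with
      | H g => exact (ModularFormClass.holo f).slash k _
    · induction q using QuotientGroup.induction_on with
      | H g => exact ModularFormClass.bdd_at_infty_slash f g⁻¹⟩
  map_add' f g := by
    apply Subtype.ext
    funext q
    induction q using QuotientGroup.induction_on with
    | H a => simp [SlashAction.add_slash]
  map_smul' c f := by
    apply Subtype.ext
    funext q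
    induction q using QuotientGroup.induction_on with
    | H a => simp [ModularForm.SL_smul_slash]

variable {Γ k}

lemma slash_base_eq {G : (SL(2, ℤ) ⧸ Γ) → ℍ → ℂ}
    (hG : ∀ (x : SL(2, ℤ) ⧸ Γ) (g : SL(2, ℤ)), G x ∣[k] g = G (g⁻¹ • x)) (g : SL(2, ℤ)) :
    G ((1 : SL(2, ℤ)) : SL(2, ℤ) ⧸ Γ) ∣[k] g = G ((g⁻¹ : SL(2, ℤ)) : SL(2, ℤ) ⧸ Γ) := by
  rw [hG, MulAction.Quotient.smul_coe, smul_eq_mul, mul_one]

lemma slash_base_eq_self {G : (SL(2, ℤ) ⧸ Γ) → ℍ → ℂ}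
    (hG : ∀ (x : SL(2, ℤ) ⧸ Γ) (g : SL(2, ℤ)), G x ∣[k] g = G (g⁻¹ • x))
    (γ : GL (Fin 2) ℝ) (hγ : γ ∈ (Γ : Subgroup (GL (Fin 2) ℝ))) :
    G ((1 : SL(2, ℤ)) : SL(2, ℤ) ⧸ Γ) ∣[k] γ = G ((1 : SL(2, ℤ)) : SL(2, ℤ) ⧸ Γ) := by
  obtain ⟨g, hg, rfl⟩ := hγ
  have := slash_base_eq hG g
  rw [SL_slash] at this
  rw [show (mapGL ℝ) g = ((g : SL(2, ℤ)) : GL (Fin 2) ℝ) from rfl, this]
  congr 1
  rw [QuotientGroup.eq]
  simpa using hg

variable (Γ k)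

/-- `VCF (SL(2,ℤ) ⧸ Γ) k → CuspForm Γ k`, evaluation at the base coset. -/
def vcfToCusp [Γ.FiniteIndex] (G : VCF (SL(2, ℤ) ⧸ Γ) k) :
    CuspForm (Γ : Subgroup (GL (Fin 2) ℝ)) k where
  toFun := G.1 ((1 : SL(2, ℤ)) : SL(2, ℤ) ⧸ Γ)
  slash_action_eq' γ hγ := slash_base_eq_self G.2.2.2 γ hγ
  holo' := G.2.1 _
  zero_at_cusps' {c} hc := by
    rw [Subgroup.IsArithmetic.isCusp_iff_isCusp_SL2Z] at hc
    rw [OnePoint.isZeroAt_iff_forall_SL2Z hc]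
    intro γ _
    rw [slash_base_eq G.2.2.2]
    exact G.2.2.1 _

/-- `VMF (SL(2,ℤ) ⧸ Γ) k → ModularForm Γ k`, evaluation at the base coset. -/
def vmfToMod [Γ.FiniteIndex] (G : VMF (SL(2, ℤ) ⧸ Γ) k) :
    ModularForm (Γ : Subgroup (GL (Fin 2) ℝ)) k where
  toFun := G.1 ((1 : SL(2, ℤ)) : SL(2, ℤ) ⧸ Γ)
  slash_action_eq' γ hγ := slash_base_eq_self G.2.2.2 γ hγ
  holo' := G.2.1 _
  bdd_at_cusps' {c} hc := by
    rw [Subgroup.IsArithmetic.isCusp_iff_isCusp_SL2Z] at hc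
    rw [OnePoint.isBoundedAt_iff_forall_SL2Z hc]
    intro γ _
    rw [slash_base_eq G.2.2.2]
    exact G.2.2.1 _

/-- The bridge for cusp forms. -/
def cuspEquivVCF [Γ.FiniteIndex] :
    CuspForm (Γ : Subgroup (GL (Fin 2) ℝ)) k ≃ₗ[ℂ] VCF (SL(2, ℤ) ⧸ Γ) k :=
  { cuspToVCF Γ k with
    invFun := vcfToCusp Γ k
    left_inv := fun f => by
      apply DFunLike.coe_injective
      show cosetFun Γ k f (slash_eq_of_mem_map f) ((1 : SL(2, ℤ)) : SL(2, ℤ) ⧸ Γ) = f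
      rw [cosetFun_mk, inv_one, SlashAction.slash_one]
    right_inv := fun G => by
      apply Subtype.ext
      funext q
      induction q using QuotientGroup.induction_on with
      | H g =>
        show cosetFun Γ k (G.1 ((1 : SL(2, ℤ)) : SL(2, ℤ) ⧸ Γ))
          (slash_eq_of_mem_map (vcfToCusp Γ k G)) (g : SL(2, ℤ) ⧸ Γ) = G.1 g
        rw [cosetFun_mk, slash_base_eq G.2.2.2, inv_inv] }

/-- The bridge for modular forms. -/
def modEquivVMF [Γ.FiniteIndex] :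
    ModularForm (Γ : Subgroup (GL (Fin 2) ℝ)) k ≃ₗ[ℂ] VMF (SL(2, ℤ) ⧸ Γ) k :=
  { modToVMF Γ k with
    invFun := vmfToMod Γ k
    left_inv := fun f => by
      apply DFunLike.coe_injective
      show cosetFun Γ k f (slash_eq_of_mem_map f) ((1 : SL(2, ℤ)) : SL(2, ℤ) ⧸ Γ) = f
      rw [cosetFun_mk, inv_one, SlashAction.slash_one]
    right_inv := fun G => by
      apply Subtype.ext
      funext q
      induction q using QuotientGroup.induction_on with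
      | H g =>
        show cosetFun Γ k (G.1 ((1 : SL(2, ℤ)) : SL(2, ℤ) ⧸ Γ))
          (slash_eq_of_mem_map (vmfToMod Γ k G)) (g : SL(2, ℤ) ⧸ Γ) = G.1 g
        rw [cosetFun_mk, slash_base_eq G.2.2.2, inv_inv] }

@[simp] lemma cuspEquivVCF_apply_mk [Γ.FiniteIndex]
    (f : CuspForm (Γ : Subgroup (GL (Fin 2) ℝ)) k) (g : SL(2, ℤ)) :
    (cuspEquivVCF Γ k f).1 (g : SL(2, ℤ) ⧸ Γ) = (f : ℍ → ℂ) ∣[k] g⁻¹ := rfl

@[simp] lemma modEquivVMF_apply_mk [Γ.FiniteIndex]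
    (f : ModularForm (Γ : Subgroup (GL (Fin 2) ℝ)) k) (g : SL(2, ℤ)) :
    (modEquivVMF Γ k f).1 (g : SL(2, ℤ) ⧸ Γ) = (f : ℍ → ℂ) ∣[k] g⁻¹ := rfl

@[simp] lemma coe_cuspEquivVCF_symm [Γ.FiniteIndex] (G : VCF (SL(2, ℤ) ⧸ Γ) k) :
    ⇑((cuspEquivVCF Γ k).symm G) = G.1 ((1 : SL(2, ℤ)) : SL(2, ℤ) ⧸ Γ) := rfl

@[simp] lemma coe_modEquivVMF_symm [Γ.FiniteIndex] (G : VMF (SL(2, ℤ) ⧸ Γ) k) :
    ⇑((modEquivVMF Γ k).symm G) = G.1 ((1 : SL(2, ℤ)) : SL(2, ℤ) ⧸ Γ) := rfl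

theorem finrank_cuspForm_eq [Γ.FiniteIndex] :
    Module.finrank ℂ (CuspForm (Γ : Subgroup (GL (Fin 2) ℝ)) k) =
      Module.finrank ℂ (VCF (SL(2, ℤ) ⧸ Γ) k) :=
  (cuspEquivVCF Γ k).finrank_eq

theorem finrank_modularForm_eq [Γ.FiniteIndex] :
    Module.finrank ℂ (ModularForm (Γ : Subgroup (GL (Fin 2) ℝ)) k) =
      Module.finrank ℂ (VMF (SL(2, ℤ) ⧸ Γ) k) :=
  (modEquivVMF Γ k).finrank_eq

/-- If `-1 ∈ Γ` then `-1` acts trivially on `SL(2,ℤ) ⧸ Γ`. -/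
theorem neg_one_smul_coset (h : (-1 : SL(2, ℤ)) ∈ Γ) (q : SL(2, ℤ) ⧸ Γ) :
    (-1 : SL(2, ℤ)) • q = q := by
  induction q using QuotientGroup.induction_on with
  | H g =>
    rw [MulAction.Quotient.smul_coe, QuotientGroup.eq, smul_eq_mul]
    have : ((-1 : SL(2, ℤ)) * g)⁻¹ * g = -1 := by
      rw [mul_inv_rev, mul_assoc]
      have h1 : ((-1 : SL(2, ℤ)))⁻¹ * g = g * (-1) := by
        have : ((-1 : SL(2, ℤ)))⁻¹ = -1 := by
          rw [inv_eq_iff_mul_eq_one]; simp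
        rw [this]; simp
      rw [h1, ← mul_assoc, inv_mul_cancel, one_mul]
    rw [this]; exact h

instance isPretransitive_coset : MulAction.IsPretransitive SL(2, ℤ) (SL(2, ℤ) ⧸ Γ) :=
  inferInstance

end

section Gamma0

open CongruenceSubgroup

variable (N : ℕ)

theorem neg_one_mem_Gamma0 : (-1 : SL(2, ℤ)) ∈ Gamma0 N := by
  simp [Gamma0_mem]

theorem neg_one_smul_Gamma0 (q : SL(2, ℤ) ⧸ Gamma0 N) : (-1 : SL(2, ℤ)) • q = q :=
  neg_one_smul_coset _ (neg_one_mem_Gamma0 N) q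

instance finite_XN [NeZero N] : Finite (SL(2, ℤ) ⧸ Gamma0 N) :=
  Subgroup.finite_quotient_of_finiteIndex

theorem nonempty_cuspForm_equiv_VCF [NeZero N] (k : ℤ) :
    Nonempty (CuspForm (Gamma0 N : Subgroup (GL (Fin 2) ℝ)) k ≃ₗ[ℂ] VCF (SL(2, ℤ) ⧸ Gamma0 N) k) :=
  ⟨cuspEquivVCF _ k⟩

theorem nonempty_modularForm_equiv_VMF [NeZero N] (k : ℤ) :
    Nonempty (ModularForm (Gamma0 N : Subgroup (GL (Fin 2) ℝ)) k ≃ₗ[ℂ]
      VMF (SL(2, ℤ) ⧸ Gamma0 N) k) :=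
  ⟨modEquivVMF _ k⟩

theorem finrank_cuspForm_Gamma0 [NeZero N] (k : ℤ) :
    Module.finrank ℂ (CuspForm (Gamma0 N : Subgroup (GL (Fin 2) ℝ)) k) =
      Module.finrank ℂ (VCF (SL(2, ℤ) ⧸ Gamma0 N) k) :=
  finrank_cuspForm_eq _ k

end Gamma0

end Fermat.Agent.S20
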