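import Fermat.Agent.S20.Basic

/-!
Package C-d of S20: the duality pairing between vector valued modular forms and vector valued
cusp forms, with values in level one cusp forms.
-/

set_option autoImplicit false

namespace Fermat.Agent.S20

open UpperHalfPlane ModularForm Filter Topology
open scoped MatrixGroups ModularForm Manifold

noncomputable section

/-- Level one cusp forms of weight `k`, as a space of functions. -/
def S1 (k : ℤ) : Submodule ℂ (ℍ → ℂ) where
  carrier := {r | MDiff r ∧ IsZeroAtImInfty r ∧ ∀ g : SL(2, ℤ), r ∣[k] g = r}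
  add_mem' := by
    rintro G H ⟨h1, h2, h3⟩ ⟨h1', h2', h3'⟩
    refine ⟨h1.add h1', h2.add h2', fun g => ?_⟩
    simp only [SlashAction.add_slash, h3, h3']
  zero_mem' := by
    refine ⟨mdifferentiable_const, Filter.zero_zeroAtFilter _, fun g => ?_⟩
    simp only [SlashAction.zero_slash]
  smul_mem' := by
    rintro c G ⟨h1, h2, h3⟩
    refine ⟨h1.const_smul c, h2.smul c, fun g => ?_⟩
    simp only [ModularForm.SL_smul_slash, h3]

lemma mem_S1 {k : ℤ} {r : ℍ → ℂ} : r ∈ S1 k ↔
    MDiff r ∧ IsZeroAtImInfty r ∧ ∀ g : SL(2, ℤ), r ∣[k] g = r := Iff.rfl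

lemma coe_mem_S1 {k : ℤ} (f : CuspForm 𝒮ℒ k) : (f : ℍ → ℂ) ∈ S1 k := by
  refine ⟨f.holo', CuspFormClass.zero_at_infty f, fun g => ?_⟩
  rw [SL_slash]
  exact f.slash_action_eq' _ ⟨g, rfl⟩

/-- Build a level one cusp form from an element of `S1 k`. -/
def ofS1 {k : ℤ} (r : ℍ → ℂ) (hr : r ∈ S1 k) : CuspForm 𝒮ℒ k where
  toFun := r
  slash_action_eq' := by
    rintro _ ⟨g, rfl⟩
    exact hr.2.2 g
  holo' := hr.1
  zero_at_cusps' {c} hc := by
    rw [OnePoint.isZeroAt_iff_forall_SL2Z hc]
    intro γ _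
    rw [hr.2.2 γ]
    exact hr.2.1

/-- `S1 k` is linearly equivalent to Mathlib's `CuspForm 𝒮ℒ k`. -/
def S1equiv (k : ℤ) : CuspForm 𝒮ℒ k ≃ₗ[ℂ] S1 k where
  toFun f := ⟨f, coe_mem_S1 f⟩
  map_add' _ _ := rfl
  map_smul' _ _ := rfl
  invFun r := ofS1 r.1 r.2
  left_inv _ := rfl
  right_inv _ := rfl

lemma finrank_S1 (k : ℤ) : Module.finrank ℂ (S1 k) = δ (k - 12) := by
  rw [← (S1equiv k).finrank_eq, (CuspForm.discriminantEquiv (k := k)).finrank_eq, δ]

instance (k : ℤ) : FiniteDimensional ℂ (S1 k) :=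
  ((CuspForm.discriminantEquiv (k := k)).symm.trans (S1equiv k)).finiteDimensional

lemma S1_congr {a b : ℤ} (h : a = b) {r : ℍ → ℂ} (hr : r ∈ S1 a) : r ∈ S1 b := h ▸ hr

lemma S1_le_M1 (k : ℤ) : S1 k ≤ M1 k := fun _ hr => ⟨hr.1, hr.2.1.isBigO_one ℝ, hr.2.2⟩

variable {X : Type} [Fintype X] [MulAction SL(2, ℤ) X]

lemma pairing_mem_S1 {a b : ℤ} {F H : X → ℍ → ℂ} (hF : F ∈ VMF X a) (hH : H ∈ VCF X b) :
    (∑ x, F x * H x) ∈ S1 (a + b) := by
  refine ⟨.sum fun x _ => (hF.1 x).mul (hH.1 x), ?_, fun g => ?_⟩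
  · have h : ∀ x, IsZeroAtImInfty (F x * H x) := fun x => by
      have := (hF.2.1 x).mul_isLittleO ((Asymptotics.isLittleO_one_iff ℝ).mpr (hH.2.1 x))
      simp only [mul_one] at this
      exact (Asymptotics.isLittleO_one_iff ℝ).mp this
    have h2 : Tendsto (fun z => ∑ x, (F x * H x) z) atImInfty (𝓝 (∑ _x : X, (0 : ℂ))) :=
      tendsto_finsetSum _ fun x _ => h x
    simp only [Finset.sum_const_zero] at h2
    have h3 : (∑ x, F x * H x) = fun z => ∑ x, (F x * H x) z := by
      ext z; simp [Finset.sum_apply]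
    rw [h3]
    exact h2
  · rw [SlashAction.sum_slash]
    simp only [mul_slash_SL2, hF.2.2, hH.2.2]
    exact Equiv.sum_comp (MulAction.toPerm (g⁻¹ : SL(2, ℤ))) (fun x => F x * H x)

/-- The determinant of a matrix of holomorphic functions is holomorphic. -/
lemma mdiff_det {n : Type} [Fintype n] [DecidableEq n] (A : n → n → ℍ → ℂ)
    (hA : ∀ i j, MDiff (A i j)) : MDiff (fun z => (Matrix.of fun i j => A i j z).det) := by
  have h : (fun z => (Matrix.of fun i j => A i j z).det) =
      ∑ σ : Equiv.Perm n, (((Equiv.Perm.sign σ : ℤˣ) : ℤ) : ℂ) • ∏ i, A (σ i) i := by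
    ext z
    simp [Matrix.det_apply, Finset.sum_apply, Finset.prod_apply, Units.smul_def]
  rw [h]
  exact .sum fun σ _ => (MDifferentiable.prod fun i _ => hA (σ i) i).const_smul _

variable [DecidableEq X]

/-- Pointwise injectivity of the pairing with a fundamental system. -/
lemma eq_zero_of_pairing_eq_zero {κ : X → ℤ} {F : X → X → ℍ → ℂ} (h : IsFundSystem κ F)
    (z : ℍ) {v : X → ℂ} (h0 : ∀ j, ∑ x, F j x z * v x = 0) : v = 0 := by
  have hdet : ((fundMatrix F z).transpose).det ≠ 0 := by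
    rw [Matrix.det_transpose]; exact h.det_ne_zero z
  apply Matrix.eq_zero_of_mulVec_eq_zero hdet
  ext j
  simpa [Matrix.mulVec, dotProduct] using h0 j

theorem VCF_injective_pairing {κ : X → ℤ} {F : X → X → ℍ → ℂ} (h : IsFundSystem κ F)
    {H : X → ℍ → ℂ} (h0 : ∀ j, ∑ x, F j x * H x = 0) : H = 0 := by
  ext x z
  have := eq_zero_of_pairing_eq_zero h z (v := fun x => H x z) (fun j => by
    simpa [Finset.sum_apply] using congrFun (h0 j) z)
  exact congrFun this x

theorem exists_dual {κ : X → ℤ} {F : X → X → ℍ → ℂ} (h : IsFundSystem κ F) (k : ℤ)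
    (b : X → ℍ → ℂ) (hb : ∀ j, b j ∈ S1 (k + κ j)) :
    ∃ H : X → ℍ → ℂ, (∀ x, MDiff (H x)) ∧ (∀ x (g : SL(2, ℤ)), H x ∣[k] g = H (g⁻¹ • x)) ∧
      ∀ j, ∑ x, F j x * H x = b j := by
  let d : ℍ → ℂ := fun z => ((fundMatrix F z).transpose).det
  have hd0 : ∀ z, d z ≠ 0 := fun z => by
    simp only [d, Matrix.det_transpose]; exact h.det_ne_zero z
  let num : X → ℍ → ℂ := fun x z => (((fundMatrix F z).transpose).updateCol x (fun j => b j z)).det
  let H : X → ℍ → ℂ := fun x => num x / d
  have hdM : MDiff d := by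
    have := mdiff_det (fun j x => F j x) (fun j x => (h.mem j).1 x)
    convert this using 3
    ext i j
    simp
  have hnumM : ∀ x, MDiff (num x) := by
    intro x
    have := mdiff_det (fun j y => if y = x then b j else F j y) (fun j y => by
      split_ifs
      · exact (hb j).1
      · exact (h.mem j).1 y)
    convert this using 3 with z
    ext j y
    by_cases hy : y = x
    · subst hy; simp
    · simp [hy]
  have hsol : ∀ j, ∑ x, F j x * H x = b j := by
    intro j
    ext z
    have h1 := Matrix.mulVec_cramer ((fundMatrix F z).transpose) (fun j => b j z)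
    have h2 := congrFun h1 j
    simp only [Matrix.mulVec, dotProduct, Matrix.transpose_apply, fundMatrix_apply,
      Matrix.cramer_apply, Pi.smul_apply, smul_eq_mul] at h2
    simp only [Finset.sum_apply, Pi.mul_apply, H, Pi.div_apply, num]
    have h3 : ∑ x, F j x z * ((((fundMatrix F z).transpose).updateCol x (fun j => b j z)).det / d z)
        = (∑ x, F j x z * (((fundMatrix F z).transpose).updateCol x (fun j => b j z)).det) / d z := by
      rw [Finset.sum_div]
      exact Finset.sum_congr rfl fun x _ => by ring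
    rw [h3, h2]
    exact mul_div_cancel_left₀ _ (hd0 z)
  refine ⟨H, fun x => (hnumM x).div hdM hd0, ?_, hsol⟩
  intro x g
  let H' : X → ℍ → ℂ := fun y => H (g • y) ∣[k] g
  have hH' : ∀ j, ∑ y, F j y * H' y = b j := by
    intro j
    have h1 : b j ∣[κ j + k] g = b j := by
      rw [add_comm]; exact (hb j).2.2 g
    rw [← hsol j, SlashAction.sum_slash] at h1
    simp only [mul_slash_SL2, (h.mem j).2.2] at h1
    rw [← hsol j, ← h1]
    exact (Equiv.sum_comp (MulAction.toPerm (g : SL(2, ℤ)))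
      (fun y => F j (g⁻¹ • y) * (H y ∣[k] g))).symm.trans
        (Finset.sum_congr rfl fun y _ => by simp [H'])  |>.symm
  have hEq : H' - H = 0 := VCF_injective_pairing h (fun j => by
    have : ∑ y, F j y * (H' - H) y = ∑ y, F j y * H' y - ∑ y, F j y * H y := by
      rw [← Finset.sum_sub_distrib]
      exact Finset.sum_congr rfl fun y _ => by rw [Pi.sub_apply, mul_sub]
    rw [this, hH' j, hsol j, sub_self])
  have hEq' : H' = H := sub_eq_zero.mp hEq
  have := congrFun hEq' (g⁻¹ • x)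
  simpa [H'] using this

end

end Fermat.Agent.S20
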