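import Fermat.Agent.S20.Cusp2
import Fermat.Agent.S20.CuspDual

set_option autoImplicit false

namespace Fermat.Agent.S20

open Complex Filter Function Topology ModularForm EisensteinSeries
open UpperHalfPlane hiding I
open scoped Real Manifold MatrixGroups

local notation "𝕢" => Periodic.qParam
local notation "T" => ModularGroup.T

noncomputable section

variable {X : Type} [MulAction SL(2, ℤ) X] [Fintype X] [DecidableEq X]

/-- the matrix `C(z) = E(z)⁻¹ Φ(z)`. -/
def LopMatrix (F : X → X → ℍ → ℂ) (z : ℍ) : Matrix X X ℂ :=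
  Matrix.of fun x j => Lop (wd X) (F j x) z

lemma tendsto_LopMatrix {κ : X → ℤ} {F : X → X → ℍ → ℂ} (hF : ∀ j, F j ∈ VMF X (κ j)) :
    Tendsto (LopMatrix F) atImInfty (𝓝 (leadMatrix F)) := by
  refine tendsto_pi_nhds.mpr fun x => tendsto_pi_nhds.mpr fun j => ?_
  exact (VMF_good (hF j) x).tendsto_Lop wd_pos

lemma S1_isBigO_q {w : ℤ} {b : ℍ → ℂ} (hb : b ∈ S1 w) :
    b =O[atImInfty] fun z : ℍ => 𝕢 1 z := by
  have h1 := hb.2.1.exp_decay_atImInfty (h := 1) one_pos (M1_periodic (S1_le_M1 w hb)) hb.1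
    (S1_le_M1 w hb).2.1
  refine h1.trans (Asymptotics.IsBigO.of_bound 1 ?_)
  filter_upwards with z
  rw [Periodic.norm_qParam]
  simp

theorem isZeroAtImInfty_of_dual {κ : X → ℤ} {F : X → X → ℍ → ℂ} (h : IsFundSystem κ F)
    (hC : (leadMatrix F).det ≠ 0) {k : ℤ} {b H : X → ℍ → ℂ} (hb : ∀ j, b j ∈ S1 (k + κ j))
    (hH : ∀ j, ∑ x, F j x * H x = b j) (y : X) : IsZeroAtImInfty (H y) := by
  have hCt := tendsto_LopMatrix h.mem
  -- the inverse transpose converges
  have hCT : ((leadMatrix F).transpose).det ≠ 0 := by rwa [Matrix.det_transpose]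
  have hinv : Tendsto (fun z => ((LopMatrix F z).transpose)⁻¹) atImInfty
      (𝓝 ((leadMatrix F).transpose)⁻¹) := by
    have h1 : ContinuousAt Inv.inv ((leadMatrix F).transpose) := by
      apply continuousAt_matrix_inv
      rw [Ring.inverse_eq_inv']
      exact continuousAt_inv₀ hCT
    have h2 : Tendsto (fun z => (LopMatrix F z).transpose) atImInfty
        (𝓝 (leadMatrix F).transpose) :=
      ((continuous_id.matrix_transpose).tendsto _).comp hCt
    exact h1.tendsto.comp h2
  have hdet : ∀ᶠ z in atImInfty, ((LopMatrix F z).transpose).det ≠ 0 := by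
    have h2 : Tendsto (fun z => ((LopMatrix F z).transpose).det) atImInfty
        (𝓝 ((leadMatrix F).transpose).det) :=
      (((continuous_id.matrix_transpose).matrix_det).tendsto _).comp hCt
    exact h2.eventually_ne hCT
  -- the auxiliary vector `u`
  set u : ℍ → X → ℂ := fun z => ((LopMatrix F z).transpose)⁻¹.mulVec (fun j => b j z) with hu
  have hubdd : ∀ x, IsBoundedAtImInfty (fun z => u z x / 𝕢 1 z) := by
    intro x
    have h1 : (fun z => u z x) =O[atImInfty] fun z : ℍ => 𝕢 1 z := by
      have h2 : ∀ j ∈ Finset.univ, (fun z => ((LopMatrix F z).transpose)⁻¹ x j * b j z)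
          =O[atImInfty] fun z : ℍ => 𝕢 1 z := by
        intro j _
        have h3 : Tendsto (fun z => ((LopMatrix F z).transpose)⁻¹ x j) atImInfty
            (𝓝 (((leadMatrix F).transpose)⁻¹ x j)) :=
          (tendsto_pi_nhds.mp ((tendsto_pi_nhds.mp hinv) x)) j
        have h4 := (h3.isBigO_one ℂ).mul (S1_isBigO_q (hb j))
        simpa using h4
      have h5 := Asymptotics.IsBigO.sum h2
      refine h5.congr_left fun z => ?_
      simp [hu, Matrix.mulVec, dotProduct, Finset.sum_apply]
    exact (Asymptotics.div_isBoundedUnder_of_isBigO h1).isBigO_one ℝ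
  -- the candidate
  set H2 : X → ℍ → ℂ := fun y z =>
    ∑ l ∈ Finset.range (wd X), kap (wd X) ((l : ℝ) +ᵥ z) * u z ((T ^ l) • y) with hH2
  have hH2zero : IsZeroAtImInfty (H2 y) := by
    have h1 : ∀ l ∈ Finset.range (wd X), Tendsto (fun z : ℍ =>
        kap (wd X) ((l : ℝ) +ᵥ z) * u z ((T ^ l) • y)) atImInfty (𝓝 0) := by
      intro l _
      have := isZeroAtImInfty_mul_bdd (q_mul_kap_isZero (h := wd X) wd_pos l)
        (hubdd ((T ^ l) • y))
      refine this.congr fun z => ?_
      have hq : 𝕢 1 (z : ℂ) ≠ 0 := Periodic.qParam_ne_zero _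
      field_simp
    have h2 := tendsto_finsetSum _ h1
    simp only [Finset.sum_const_zero] at h2
    exact h2
  have hpair : ∀ᶠ z in atImInfty, ∀ j, ∑ x, F j x z * H2 x z = b j z := by
    filter_upwards [hdet] with z hz j
    have e1 : ∑ x, F j x z * H2 x z = ∑ l ∈ Finset.range (wd X),
        kap (wd X) ((l : ℝ) +ᵥ z) * ∑ x, F j x z * u z ((T ^ l) • x) := by
      simp only [hH2, Finset.mul_sum]
      rw [Finset.sum_comm]
      refine Finset.sum_congr rfl fun l _ => Finset.sum_congr rfl fun x _ => ?_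
      ring
    have e2 : ∀ l : ℕ, ∑ x, F j x z * u z ((T ^ l) • x) =
        ∑ x, F j ((T ^ l)⁻¹ • x) z * u z x := by
      intro l
      rw [← Equiv.sum_comp (MulAction.toPerm (T ^ l))
        (fun x => F j ((T ^ l)⁻¹ • x) z * u z x)]
      refine Finset.sum_congr rfl fun x _ => ?_
      simp
    have e3 : ∑ l ∈ Finset.range (wd X),
        kap (wd X) ((l : ℝ) +ᵥ z) * ∑ x, F j ((T ^ l)⁻¹ • x) z * u z x =
        ∑ x, Lop (wd X) (F j x) z * u z x := by
      simp only [Finset.mul_sum]
      rw [Finset.sum_comm]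
      refine Finset.sum_congr rfl fun x _ => ?_
      rw [Lop_eq, Finset.sum_mul]
      refine Finset.sum_congr rfl fun l _ => ?_
      rw [VMF_vadd_nat (h.mem j)]
      ring
    have e4 : ∑ x, Lop (wd X) (F j x) z * u z x =
        ((LopMatrix F z).transpose.mulVec (u z)) j := by
      simp [Matrix.mulVec, dotProduct, LopMatrix]
    rw [e1, Finset.sum_congr rfl (fun l _ => by rw [e2 l]), e3, e4, hu]
    simp only [Matrix.mulVec_mulVec]
    rw [Matrix.mul_nonsing_inv _ (Ne.isUnit hz), Matrix.one_mulVec]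
  have heq : ∀ᶠ z in atImInfty, H2 y z = H y z := by
    filter_upwards [hpair] with z hz
    have h1 := eq_zero_of_pairing_eq_zero h z (v := fun x => H2 x z - H x z) (fun j => by
      have h2 := congrFun (hH j) z
      simp only [Finset.sum_apply, Pi.mul_apply] at h2
      simp only [mul_sub, Finset.sum_sub_distrib]
      rw [hz j, h2, sub_self])
    have := congrFun h1 y
    simpa [sub_eq_zero] using this
  exact hH2zero.congr' heq

end

end Fermat.Agent.S20
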