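import Fermat.Agent.S20.CuspDual

set_option autoImplicit false

namespace Fermat.Agent.S20

open UpperHalfPlane ModularForm
open scoped MatrixGroups ModularForm Manifold

noncomputable section

variable {X : Type} [Fintype X] [DecidableEq X] [MulAction SL(2, ℤ) X]

/-- The trace pairing with a fundamental system, as a linear map on cusp forms. -/
def pairMap {κ : X → ℤ} {F : X → X → ℍ → ℂ} (mem : ∀ j, F j ∈ VMF X (κ j)) (k : ℤ) :
    VCF X k →ₗ[ℂ] (∀ j, S1 (k + κ j)) where
  toFun H := fun j => ⟨∑ x, F j x * H.1 x, S1_congr (by ring) (pairing_mem_S1 (mem j) H.2)⟩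
  map_add' H H' := by
    funext j
    apply Subtype.ext
    simp [mul_add, Finset.sum_add_distrib]
  map_smul' c H := by
    funext j
    apply Subtype.ext
    simp [Finset.smul_sum]

/-- `VCF X k ≃ ∏ S1 (k + κ j)`, given that dual families vanish at `i∞`. -/
theorem finrank_VCF_eq_of_zero {κ : X → ℤ} {F : X → X → ℍ → ℂ} (h : IsFundSystem κ F) (k : ℤ)
    (hzero : ∀ b H : X → ℍ → ℂ, (∀ j, b j ∈ S1 (k + κ j)) → (∀ j, ∑ x, F j x * H x = b j) →
      ∀ x, IsZeroAtImInfty (H x)) :
    Module.finrank ℂ (VCF X k) = ∑ j, δ (k + κ j - 12) := by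
  have hbij : Function.Bijective (pairMap h.mem k) := by
    constructor
    · rw [← LinearMap.ker_eq_bot, LinearMap.ker_eq_bot']
      intro H hH
      apply Subtype.ext
      exact VCF_injective_pairing h fun j => congrArg Subtype.val (congrFun hH j)
    · intro b
      obtain ⟨H, h1, h2, h3⟩ := exists_dual h k (fun j => (b j).1) (fun j => (b j).2)
      refine ⟨⟨H, h1, hzero _ H (fun j => (b j).2) h3, h2⟩, ?_⟩
      funext j
      exact Subtype.ext (h3 j)
  rw [(LinearEquiv.ofBijective _ hbij).finrank_eq, Module.finrank_pi_fintype]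
  simp [finrank_S1]

end

end Fermat.Agent.S20
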