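import Fermat.Agent.S20.Basic

/-!
Package C-c of S20: the space of `T`-invariant vectors in the permutation representation
`X → ℂ` has dimension the number of `T`-orbits on `X`.
-/

set_option autoImplicit false

namespace Fermat.Agent.S20

open scoped MatrixGroups

noncomputable section

/-- The `T`-invariant vectors of the permutation representation on `X`. -/
def TInv (X : Type) [MulAction SL(2, ℤ) X] : Submodule ℂ (X → ℂ) where
  carrier := {v | ∀ x, v (ModularGroup.T⁻¹ • x) = v x}
  add_mem' := by
    intro v w hv hw x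
    simp only [Pi.add_apply, hv x, hw x]
  zero_mem' := by
    intro x
    rfl
  smul_mem' := by
    intro c v hv x
    simp only [Pi.smul_apply, hv x]

variable {X : Type} [MulAction SL(2, ℤ) X]

lemma mem_TInv {v : X → ℂ} : v ∈ TInv X ↔ ∀ x, v (ModularGroup.T⁻¹ • x) = v x := Iff.rfl

lemma TInv_T_smul {v : X → ℂ} (hv : v ∈ TInv X) (x : X) : v (ModularGroup.T • x) = v x := by
  have := hv (ModularGroup.T • x)
  rw [inv_smul_smul] at this
  exact this.symm

lemma TInv_pow_smul {v : X → ℂ} (hv : v ∈ TInv X) (n : ℕ) (x : X) :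
    v (ModularGroup.T ^ n • x) = v x := by
  induction n with
  | zero => simp
  | succ n ih => rw [pow_succ', mul_smul, TInv_T_smul hv, ih]

lemma TInv_zpow_smul {v : X → ℂ} (hv : v ∈ TInv X) (n : ℤ) (x : X) :
    v (ModularGroup.T ^ n • x) = v x := by
  obtain ⟨m, rfl | rfl⟩ := n.eq_nat_or_neg
  · rw [zpow_natCast, TInv_pow_smul hv]
  · rw [zpow_neg, zpow_natCast]
    have := TInv_pow_smul hv m ((ModularGroup.T ^ m)⁻¹ • x)
    rw [smul_inv_smul] at this
    exact this.symm

lemma TInv_of_orbitRel {v : X → ℂ} (hv : v ∈ TInv X) {x y : X}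
    (h : MulAction.orbitRel (Subgroup.zpowers ModularGroup.T) X x y) : v x = v y := by
  rw [MulAction.orbitRel_apply] at h
  obtain ⟨⟨g, n, rfl⟩, rfl⟩ := h
  exact TInv_zpow_smul hv n y

/-- `T`-invariant vectors are the functions on the set of `T`-orbits. -/
def TInvEquiv (X : Type) [MulAction SL(2, ℤ) X] :
    TInv X ≃ₗ[ℂ] (MulAction.orbitRel.Quotient (Subgroup.zpowers ModularGroup.T) X → ℂ) where
  toFun v := fun q => Quotient.lift (s := MulAction.orbitRel (Subgroup.zpowers ModularGroup.T) X)
    v.1 (fun _ _ h => TInv_of_orbitRel v.2 h) q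
  map_add' v w := by
    funext q
    induction q using Quotient.inductionOn'
    rfl
  map_smul' c v := by
    funext q
    induction q using Quotient.inductionOn'
    rfl
  invFun f := ⟨fun x => f (Quotient.mk'' x), fun x => by
    show f _ = f _
    congr 1
    apply Quotient.sound'
    show MulAction.orbitRel (Subgroup.zpowers ModularGroup.T) X _ _
    rw [MulAction.orbitRel_apply]
    exact ⟨⟨ModularGroup.T⁻¹, (Subgroup.zpowers ModularGroup.T).inv_mem
      (Subgroup.mem_zpowers _)⟩, rfl⟩⟩
  left_inv v := by
    ext x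
    rfl
  right_inv f := by
    funext q
    induction q using Quotient.inductionOn'
    rfl

theorem finrank_TInv [Finite X] : Module.finrank ℂ (TInv X) =
    Nat.card (MulAction.orbitRel.Quotient (Subgroup.zpowers ModularGroup.T) X) := by
  classical
  haveI : Finite (MulAction.orbitRel.Quotient (Subgroup.zpowers ModularGroup.T) X) :=
    Quotient.finite _
  haveI := Fintype.ofFinite (MulAction.orbitRel.Quotient (Subgroup.zpowers ModularGroup.T) X)
  rw [(TInvEquiv X).finrank_eq, Module.finrank_fintype_fun_eq_card, Nat.card_eq_fintype_card]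

end

end Fermat.Agent.S20
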