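import Mathlib

set_option autoImplicit false

namespace Fermat.Agent.S20

open Complex Filter Function Topology
open UpperHalfPlane hiding I
open scoped Real Manifold

local notation "𝕢" => Periodic.qParam

lemma periodic_comp_ofComplex_of_vadd {f : ℍ → ℂ} {h : ℝ} (hf : ∀ z : ℍ, f (h +ᵥ z) = f z) :
    Periodic (f ∘ ofComplex) h := by
  intro w
  by_cases hw : 0 < im w
  · have : 0 < im (w + h) := by simp [hw]
    simp only [comp_apply, ofComplex_apply_of_im_pos this, ofComplex_apply_of_im_pos hw]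
    rw [← hf ⟨w, hw⟩]
    congr 1
    ext
    simp [add_comm]
  · push Not at hw
    have : im (w + h) ≤ 0 := by simpa using hw
    simp [ofComplex_apply_of_im_nonpos this, ofComplex_apply_of_im_nonpos hw]

lemma mdiff_of_differentiable {g : ℂ → ℂ} (hg : Differentiable ℂ g) :
    MDiff (fun z : ℍ => g z) := by
  rw [UpperHalfPlane.mdifferentiable_iff]
  refine hg.differentiableOn.congr ?_
  intro z hz
  simp [ofComplex_apply_of_im_pos hz]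

lemma tendsto_of_periodic_of_isZero {ψ : ℍ → ℂ} (hol : MDiff ψ)
    (hper : ∀ z : ℍ, ψ ((1 : ℝ) +ᵥ z) = ψ z)
    (hz : IsZeroAtImInfty (fun z : ℍ => 𝕢 1 z * ψ z)) :
    ∃ ℓ, Tendsto ψ atImInfty (𝓝 ℓ) := by
  set f : ℍ → ℂ := fun z : ℍ => 𝕢 1 z * ψ z with hf
  have hfhol : MDiff f := (mdiff_of_differentiable (Periodic.differentiable_qParam)).mul hol
  have hfper : Periodic (f ∘ ofComplex) 1 := by
    have : ∀ z : ℍ, f (((1 : ℝ)) +ᵥ z) = f z := by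
      intro z
      simp only [hf, hper]
      congr 1
      simp only [Periodic.qParam, coe_vadd]
      rw [← Complex.exp_periodic (2 * π * I * z / (1 : ℝ))]
      congr 1
      push_cast
      ring
    exact_mod_cast periodic_comp_ofComplex_of_vadd this
  have hd : DifferentiableAt ℂ (cuspFunction 1 f) 0 :=
    differentiableAt_cuspFunction one_pos hfper hfhol hz.isBoundedAtImInfty (by simp)
  have h0 : cuspFunction 1 f 0 = 0 :=
    Periodic.cuspFunction_zero_of_zero_at_inf one_pos hz.zero_at_infty_comp_ofComplex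
  have hc : ContinuousAt (dslope (cuspFunction 1 f) 0) 0 := continuousAt_dslope_same.mpr hd
  refine ⟨dslope (cuspFunction 1 f) 0 0, ?_⟩
  have h1 := hc.tendsto.comp (qParam_tendsto_atImInfty one_pos)
  refine h1.congr ?_
  intro z
  have hq : 𝕢 1 (z : ℂ) ≠ 0 := Periodic.qParam_ne_zero _
  simp only [comp_apply]
  rw [dslope_of_ne _ hq, slope_def_field, h0, eq_cuspFunction z one_ne_zero hfper]
  simp only [hf, sub_zero]
  field_simp


/-! ### Translation, trace from period `h` to period `1` -/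

lemma mdiff_vadd {φ : ℍ → ℂ} (hφ : MDiff φ) (a : ℝ) : MDiff (fun z : ℍ => φ (a +ᵥ z)) := by
  rw [UpperHalfPlane.mdifferentiable_iff] at hφ ⊢
  have h1 : DifferentiableOn ℂ (fun w : ℂ => (φ ∘ ofComplex) (a + w)) {z | 0 < z.im} := by
    refine hφ.comp (by fun_prop) ?_
    intro w hw
    simpa using hw
  refine h1.congr ?_
  intro w hw
  have hw' : 0 < ((a : ℂ) + w).im := by simpa using hw
  simp only [comp_apply, ofComplex_apply_of_im_pos hw, ofComplex_apply_of_im_pos hw']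
  congr 1

lemma tendsto_vadd_atImInfty (a : ℝ) : Tendsto (fun z : ℍ => a +ᵥ z) atImInfty atImInfty := by
  rw [atImInfty, tendsto_comap_iff]
  have : (UpperHalfPlane.im ∘ fun z : ℍ => a +ᵥ z) = UpperHalfPlane.im := by
    ext z; simp
  rw [this]
  exact tendsto_comap

lemma isBoundedAtImInfty_vadd {φ : ℍ → ℂ} (hφ : IsBoundedAtImInfty φ) (a : ℝ) :
    IsBoundedAtImInfty (fun z : ℍ => φ (a +ᵥ z)) :=
  hφ.comp_tendsto (tendsto_vadd_atImInfty a)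

/-- sum over the translates `z, z+1, …, z+h-1`. -/
noncomputable def trh (h : ℕ) (ψ : ℍ → ℂ) (z : ℍ) : ℂ :=
  ∑ j ∈ Finset.range h, ψ ((j : ℝ) +ᵥ z)

lemma trh_vadd_one {h : ℕ} {ψ : ℍ → ℂ} (hψ : ∀ z : ℍ, ψ ((h : ℝ) +ᵥ z) = ψ z) (z : ℍ) :
    trh h ψ ((1 : ℝ) +ᵥ z) = trh h ψ z := by
  have h1 : ∀ j : ℕ, ψ ((j : ℝ) +ᵥ ((1 : ℝ) +ᵥ z)) = ψ (((j + 1 : ℕ) : ℝ) +ᵥ z) := by
    intro j
    rw [← add_vadd]
    push_cast
    rfl
  have h2 := Finset.sum_range_succ (fun j : ℕ => ψ ((j : ℝ) +ᵥ z)) h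
  have h3 := Finset.sum_range_succ' (fun j : ℕ => ψ ((j : ℝ) +ᵥ z)) h
  simp only [trh, h1]
  rw [h2, hψ] at h3
  simpa using h3.symm


/-! ### The parameter `q_h` -/

lemma qh_add (h : ℝ) (a b : ℂ) : 𝕢 h (a + b) = 𝕢 h a * 𝕢 h b := by
  simp only [Periodic.qParam, ← Complex.exp_add]
  congr 1
  ring

lemma qh_vadd (h : ℝ) (a : ℝ) (z : ℍ) : 𝕢 h ((a +ᵥ z : ℍ) : ℂ) = 𝕢 h a * 𝕢 h z := by
  rw [coe_vadd, qh_add]

lemma qh_natCast (h : ℝ) (j : ℕ) : 𝕢 h (j : ℂ) = 𝕢 h 1 ^ j := by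
  simp only [Periodic.qParam, ← Complex.exp_nat_mul]
  congr 1
  ring

lemma qh_pow_self {h : ℕ} (hh : 0 < h) (z : ℂ) : 𝕢 (h : ℝ) z ^ h = 𝕢 1 z := by
  have : (h : ℂ) ≠ 0 := by exact_mod_cast hh.ne'
  simp only [Periodic.qParam, ← Complex.exp_nat_mul]
  congr 1
  push_cast
  field_simp

lemma qh_one_isPrimitiveRoot {h : ℕ} (hh : 0 < h) : IsPrimitiveRoot (𝕢 (h : ℝ) 1) h := by
  have := Complex.isPrimitiveRoot_exp h hh.ne'
  simpa [Periodic.qParam] using this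

lemma qh_self {h : ℕ} (hh : 0 < h) : 𝕢 (h : ℝ) (h : ℂ) = 1 := by
  rw [qh_natCast]
  exact (qh_one_isPrimitiveRoot hh).pow_eq_one

/-- orthogonality of the characters of `ℤ/h`. -/
lemma sum_zeta_pow {h : ℕ} (hh : 0 < h) {ζ : ℂ} (hζ : IsPrimitiveRoot ζ h) {n m : ℕ}
    (hn : n < h) (hm : m < h) :
    ∑ j ∈ Finset.range h, (ζ ^ n) ^ j * ((ζ ^ m) ^ j)⁻¹ = if n = m then (h : ℂ) else 0 := by
  have hζ0 : ζ ≠ 0 := hζ.ne_zero hh.ne'
  split_ifs with hnm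
  · subst hnm
    have : ∀ j ∈ Finset.range h, (ζ ^ n) ^ j * ((ζ ^ n) ^ j)⁻¹ = 1 := by
      intro j _
      exact mul_inv_cancel₀ (pow_ne_zero _ (pow_ne_zero _ hζ0))
    rw [Finset.sum_congr rfl this]
    simp
  · set w : ℂ := ζ ^ n * (ζ ^ m)⁻¹ with hw
    have h1 : ∀ j ∈ Finset.range h, (ζ ^ n) ^ j * ((ζ ^ m) ^ j)⁻¹ = w ^ j := by
      intro j _
      rw [hw, mul_pow, inv_pow]
    rw [Finset.sum_congr rfl h1]
    have hw1 : w ≠ 1 := by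
      intro h1
      apply hnm
      have : ζ ^ n = ζ ^ m := by
        rw [hw] at h1
        field_simp at h1
        exact h1
      exact hζ.pow_inj hn hm this
    have hwh : w ^ h = 1 := by
      rw [hw, mul_pow, inv_pow, ← pow_mul, ← pow_mul, mul_comm n, mul_comm m, pow_mul, pow_mul,
        hζ.pow_eq_one]
      simp
    rw [geom_sum_eq hw1, hwh]
    simp


/-! ### Fourier components -/

/-- the `n`-th Fourier component of an `h`-periodic function, divided by `q_h ^ n`. -/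
noncomputable def tw (h n : ℕ) (φ : ℍ → ℂ) (z : ℍ) : ℂ :=
  (h : ℂ)⁻¹ * trh h (fun w : ℍ => (𝕢 h w ^ n)⁻¹ * φ w) z

variable {h : ℕ} {φ : ℍ → ℂ}

lemma tw_vadd_one (hh : 0 < h) (hφ : ∀ z : ℍ, φ ((h : ℝ) +ᵥ z) = φ z) (n : ℕ) (z : ℍ) :
    tw h n φ ((1 : ℝ) +ᵥ z) = tw h n φ z := by
  unfold tw
  rw [trh_vadd_one]
  intro z
  rw [hφ, qh_vadd]
  have := qh_self hh
  push_cast at this ⊢
  rw [this, one_mul]

lemma mdiff_qh_pow_inv (h : ℝ) (n : ℕ) : MDiff (fun w : ℍ => (𝕢 h w ^ n)⁻¹) :=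
  mdiff_of_differentiable (g := fun w : ℂ => (𝕢 h w ^ n)⁻¹)
    ((Periodic.differentiable_qParam.pow n).inv
      (fun w => pow_ne_zero _ (Periodic.qParam_ne_zero w)))

lemma tw_mdiff (hφ : MDiff φ) (n : ℕ) : MDiff (tw h n φ) := by
  have h1 : MDiff (fun w : ℍ => (𝕢 h w ^ n)⁻¹ * φ w) := (mdiff_qh_pow_inv h n).mul hφ
  have h2 : MDiff (trh h (fun w : ℍ => (𝕢 h w ^ n)⁻¹ * φ w)) := by
    have : trh h (fun w : ℍ => (𝕢 h w ^ n)⁻¹ * φ w) =
        ∑ j ∈ Finset.range h,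
          (fun z : ℍ => (fun w : ℍ => (𝕢 h w ^ n)⁻¹ * φ w) ((j : ℝ) +ᵥ z) : ℍ → ℂ) := by
      ext z
      simp [trh]
    rw [this]
    exact MDifferentiable.sum (fun j _ => mdiff_vadd h1 j)
  exact mdifferentiable_const.mul h2

lemma tw_eq (n : ℕ) (z : ℍ) : tw h n φ z = (𝕢 h z ^ n)⁻¹ *
    ((h : ℂ)⁻¹ * ∑ j ∈ Finset.range h, ((𝕢 h 1 ^ n) ^ j)⁻¹ * φ ((j : ℝ) +ᵥ z)) := by
  have h1 : ∀ j ∈ Finset.range h, (𝕢 h ((((j : ℝ) +ᵥ z : ℍ)) : ℂ) ^ n)⁻¹ * φ ((j : ℝ) +ᵥ z) =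
      (𝕢 h z ^ n)⁻¹ * (((𝕢 h 1 ^ n) ^ j)⁻¹ * φ ((j : ℝ) +ᵥ z)) := by
    intro j _
    have := qh_natCast h j
    rw [qh_vadd]
    push_cast
    rw [this, mul_pow, mul_inv, ← pow_mul, ← pow_mul, mul_comm j n]
    ring
  unfold tw trh
  rw [Finset.sum_congr rfl h1, ← Finset.mul_sum]
  ring


lemma isZeroAtImInfty_mul_bdd {a b : ℍ → ℂ} (ha : IsZeroAtImInfty a) (hb : IsBoundedAtImInfty b) :
    IsZeroAtImInfty (fun z => a z * b z) := by
  have h1 : a =o[atImInfty] (1 : ℍ → ℝ) := by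
    exact (Asymptotics.isLittleO_one_iff (F := ℝ)).mpr ha
  have h2 : (fun z => a z * b z) =o[atImInfty] (fun z => (1 : ℍ → ℝ) z * (1 : ℍ → ℝ) z) :=
    h1.mul_isBigO hb
  simp only [Pi.one_apply, mul_one] at h2
  exact (Asymptotics.isLittleO_one_iff (F := ℝ)).mp h2

lemma isBoundedAtImInfty_sum {ι : Type*} (s : Finset ι) {f : ι → ℍ → ℂ}
    (hf : ∀ i ∈ s, IsBoundedAtImInfty (f i)) : IsBoundedAtImInfty (fun z => ∑ i ∈ s, f i z) := by
  classical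
  induction s using Finset.induction_on with
  | empty => exact Filter.const_boundedAtFilter atImInfty (0 : ℂ)
  | insert a s ha ih =>
    have h1 := (hf a (Finset.mem_insert_self a s)).add
      (ih (fun i hi => hf i (Finset.mem_insert_of_mem hi)))
    refine h1.congr' ?_ (by rfl)
    filter_upwards with z
    simp [Finset.sum_insert ha]

lemma q_mul_tw_isZero (hh : 0 < h) (hφ : IsBoundedAtImInfty φ) {n : ℕ} (hn : n < h) :
    IsZeroAtImInfty (fun z : ℍ => 𝕢 1 z * tw h n φ z) := by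
  have h1 : ∀ z : ℍ, 𝕢 1 z * tw h n φ z = 𝕢 h z ^ (h - n) *
      ((h : ℂ)⁻¹ * ∑ j ∈ Finset.range h, ((𝕢 h 1 ^ n) ^ j)⁻¹ * φ ((j : ℝ) +ᵥ z)) := by
    intro z
    have hq : 𝕢 h (z : ℂ) ≠ 0 := Periodic.qParam_ne_zero _
    rw [tw_eq, ← qh_pow_self hh, ← mul_assoc]
    congr 1
    have h5 : 𝕢 h (z : ℂ) ^ h = 𝕢 h (z : ℂ) ^ (h - n) * 𝕢 h (z : ℂ) ^ n := by
      rw [← pow_add, Nat.sub_add_cancel hn.le]
    rw [h5]
    field_simp
  have h2 : IsZeroAtImInfty (fun z : ℍ => 𝕢 h z ^ (h - n)) := by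
    have := (qParam_tendsto_atImInfty (h := (h : ℝ)) (by exact_mod_cast hh)).pow (h - n)
    rwa [zero_pow (by omega)] at this
  have h3 : IsBoundedAtImInfty (fun z : ℍ =>
      ((h : ℂ)⁻¹ * ∑ j ∈ Finset.range h, ((𝕢 h 1 ^ n) ^ j)⁻¹ * φ ((j : ℝ) +ᵥ z))) := by
    refine Asymptotics.IsBigO.const_mul_left ?_ _
    refine isBoundedAtImInfty_sum _ (fun j _ => ?_)
    exact Asymptotics.IsBigO.const_mul_left (isBoundedAtImInfty_vadd hφ j) _
  have := isZeroAtImInfty_mul_bdd h2 h3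
  refine this.congr ?_
  intro z
  exact (h1 z).symm

/-- The class of functions to which the analysis at the cusp applies. -/
structure Good (h : ℕ) (φ : ℍ → ℂ) : Prop where
  holo : MDiff φ
  bdd : IsBoundedAtImInfty φ
  per : ∀ z : ℍ, φ ((h : ℝ) +ᵥ z) = φ z

lemma Good.exists_tendsto_tw (hh : 0 < h) (hφ : Good h φ) {n : ℕ} (hn : n < h) :
    ∃ ℓ, Tendsto (tw h n φ) atImInfty (𝓝 ℓ) :=
  tendsto_of_periodic_of_isZero (tw_mdiff hφ.holo n) (tw_vadd_one hh hφ.per n)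
    (q_mul_tw_isZero hh hφ.bdd hn)

/-- the `n`-th Fourier coefficient. -/
noncomputable def tc (h n : ℕ) (φ : ℍ → ℂ) : ℂ := limUnder atImInfty (tw h n φ)

lemma Good.tendsto_tw (hh : 0 < h) (hφ : Good h φ) {n : ℕ} (hn : n < h) :
    Tendsto (tw h n φ) atImInfty (𝓝 (tc h n φ)) := by
  obtain ⟨ℓ, hℓ⟩ := hφ.exists_tendsto_tw hh hn
  rw [tc, hℓ.limUnder_eq]
  exact hℓ


lemma sum_qh_pow_mul_tw (hh : 0 < h) (φ : ℍ → ℂ) (z : ℍ) :
    ∑ n ∈ Finset.range h, 𝕢 h z ^ n * tw h n φ z = φ z := by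
  have hq : 𝕢 h (z : ℂ) ≠ 0 := Periodic.qParam_ne_zero _
  have hζ := qh_one_isPrimitiveRoot hh
  have h1 : ∀ n ∈ Finset.range h, 𝕢 h z ^ n * tw h n φ z =
      (h : ℂ)⁻¹ * ∑ j ∈ Finset.range h, ((𝕢 h 1 ^ n) ^ j)⁻¹ * φ ((j : ℝ) +ᵥ z) := by
    intro n _
    rw [tw_eq, ← mul_assoc, mul_inv_cancel₀ (pow_ne_zero _ hq), one_mul]
  rw [Finset.sum_congr rfl h1, ← Finset.mul_sum, Finset.sum_comm]
  have h2 : ∀ j ∈ Finset.range h, ∑ n ∈ Finset.range h, ((𝕢 h 1 ^ n) ^ j)⁻¹ * φ ((j : ℝ) +ᵥ z) =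
      (if 0 = j then (h : ℂ) else 0) * φ ((j : ℝ) +ᵥ z) := by
    intro j hj
    rw [← Finset.sum_mul, ← sum_zeta_pow hh hζ hh (Finset.mem_range.mp hj)]
    congr 1
    refine Finset.sum_congr rfl fun n _ => ?_
    rw [pow_zero, one_pow, one_mul, pow_right_comm]
  rw [Finset.sum_congr rfl h2]
  simp only [ite_mul, zero_mul]
  rw [Finset.sum_ite_eq (Finset.range h) 0, if_pos (Finset.mem_range.mpr hh)]
  have hh' : (h : ℂ) ≠ 0 := by exact_mod_cast hh.ne'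
  simp only [Nat.cast_zero, zero_vadd]
  field_simp

lemma vadd_natCast_of_periodic {a : ℍ → ℂ} (ha : ∀ z : ℍ, a ((1 : ℝ) +ᵥ z) = a z) (j : ℕ)
    (z : ℍ) : a ((j : ℝ) +ᵥ z) = a z := by
  induction j with
  | zero => simp
  | succ j ih =>
    rw [← ih]
    push_cast
    rw [add_comm, add_vadd, ha]

lemma tw_mul_of_periodic {a : ℍ → ℂ} (ha : ∀ z : ℍ, a ((1 : ℝ) +ᵥ z) = a z) (n : ℕ)
    (φ : ℍ → ℂ) (z : ℍ) : tw h n (fun w => a w * φ w) z = a z * tw h n φ z := by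
  unfold tw trh
  have h1 : ∀ j ∈ Finset.range h,
      (𝕢 h (((j : ℝ) +ᵥ z : ℍ) : ℂ) ^ n)⁻¹ * (a ((j : ℝ) +ᵥ z) * φ ((j : ℝ) +ᵥ z)) =
      a z * ((𝕢 h (((j : ℝ) +ᵥ z : ℍ) : ℂ) ^ n)⁻¹ * φ ((j : ℝ) +ᵥ z)) := by
    intro j _
    rw [vadd_natCast_of_periodic ha]
    ring
  rw [Finset.sum_congr rfl h1, ← Finset.mul_sum]
  ring

lemma tw_add (n : ℕ) (φ ψ : ℍ → ℂ) (z : ℍ) :
    tw h n (fun w => φ w + ψ w) z = tw h n φ z + tw h n ψ z := by
  unfold tw trh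
  rw [← mul_add, ← Finset.sum_add_distrib]
  congr 1
  refine Finset.sum_congr rfl fun j _ => ?_
  ring

lemma tw_sum {ι : Type*} (s : Finset ι) (n : ℕ) (φ : ι → ℍ → ℂ) (z : ℍ) :
    tw h n (fun w => ∑ i ∈ s, φ i w) z = ∑ i ∈ s, tw h n (φ i) z := by
  unfold tw trh
  rw [← Finset.mul_sum, Finset.sum_comm]
  congr 1
  refine Finset.sum_congr rfl fun j _ => ?_
  simp only [Finset.mul_sum]

lemma tw_shift (hh : 0 < h) (hφ : ∀ z : ℍ, φ ((h : ℝ) +ᵥ z) = φ z) (n : ℕ) (z : ℍ) :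
    tw h n (fun w => φ ((1 : ℝ) +ᵥ w)) z = 𝕢 h 1 ^ n * tw h n φ z := by
  have hq1 : 𝕢 h (1 : ℂ) ≠ 0 := Periodic.qParam_ne_zero _
  rw [← tw_vadd_one hh hφ n z]
  unfold tw trh
  have h1 : ∀ j ∈ Finset.range h,
      (𝕢 h (((j : ℝ) +ᵥ z : ℍ) : ℂ) ^ n)⁻¹ * φ ((1 : ℝ) +ᵥ ((j : ℝ) +ᵥ z)) =
      𝕢 h 1 ^ n * ((𝕢 h (((j : ℝ) +ᵥ ((1 : ℝ) +ᵥ z) : ℍ) : ℂ) ^ n)⁻¹ *
        φ ((j : ℝ) +ᵥ ((1 : ℝ) +ᵥ z))) := by
    intro j _
    have e1 : ((j : ℝ) +ᵥ ((1 : ℝ) +ᵥ z)) = ((1 : ℝ) +ᵥ ((j : ℝ) +ᵥ z)) := by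
      rw [← add_vadd, ← add_vadd, add_comm]
    rw [e1, qh_vadd h 1 ((j : ℝ) +ᵥ z)]
    push_cast
    rw [mul_pow, mul_inv, ← mul_assoc, ← mul_assoc, mul_inv_cancel₀ (pow_ne_zero _ hq1), one_mul]
  rw [Finset.sum_congr rfl h1, ← Finset.mul_sum]
  ring


lemma tc_eq_of_tendsto {n : ℕ} {ℓ : ℂ} (hℓ : Tendsto (tw h n φ) atImInfty (𝓝 ℓ)) :
    tc h n φ = ℓ := hℓ.limUnder_eq

lemma Good.tendsto_self (hh : 0 < h) (hφ : Good h φ) : Tendsto φ atImInfty (𝓝 (tc h 0 φ)) := by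
  have h1 : Tendsto (fun z : ℍ => ∑ n ∈ Finset.range h, 𝕢 h z ^ n * tw h n φ z) atImInfty
      (𝓝 (∑ n ∈ Finset.range h, (0 : ℂ) ^ n * tc h n φ)) := by
    refine tendsto_finsetSum _ fun n hn => ?_
    exact ((qParam_tendsto_atImInfty (h := (h : ℝ)) (by exact_mod_cast hh)).pow n).mul
      (hφ.tendsto_tw hh (Finset.mem_range.mp hn))
  have h2 : ∑ n ∈ Finset.range h, (0 : ℂ) ^ n * tc h n φ = tc h 0 φ := by
    rw [Finset.sum_eq_single 0]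
    · simp
    · intro n _ hn
      simp [hn]
    · intro h0
      exact absurd (Finset.mem_range.mpr hh) h0
  rw [h2] at h1
  refine h1.congr fun z => ?_
  exact sum_qh_pow_mul_tw hh φ z

lemma Good.isBigO_exp (hh : 0 < h) (hφ : Good h φ) (h0 : ∀ n < h, tc h n φ = 0) :
    φ =O[atImInfty] fun z : ℍ => Real.exp (-2 * π * z.im) := by
  have h1 : ∀ n ∈ Finset.range h, (fun z : ℍ => 𝕢 h z ^ n * tw h n φ z) =O[atImInfty]
      fun z : ℍ => Real.exp (-2 * π * z.im) := by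
    intro n hn
    have hn' := Finset.mem_range.mp hn
    have hz : IsZeroAtImInfty (tw h n φ) := by
      have := hφ.tendsto_tw hh hn'
      rwa [h0 n hn'] at this
    have h2 := hz.exp_decay_atImInfty (h := 1) one_pos
      (by exact_mod_cast periodic_comp_ofComplex_of_vadd (tw_vadd_one hh hφ.per n))
      (tw_mdiff hφ.holo n) hz.isBoundedAtImInfty
    have h3 : (fun z : ℍ => 𝕢 h z ^ n) =O[atImInfty] (fun _ : ℍ => (1 : ℝ)) := by
      refine Asymptotics.IsBigO.of_bound 1 ?_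
      filter_upwards with z
      rw [norm_pow]
      have := (Periodic.norm_qParam_lt_one (h := (h : ℝ)) (by exact_mod_cast hh) z.im_pos).le
      simpa using pow_le_one₀ (norm_nonneg _) this
    have h4 := h3.mul h2
    simpa using h4
  have h5 := Asymptotics.IsBigO.sum h1
  refine h5.congr_left fun z => ?_
  rw [Finset.sum_apply]
  exact sum_qh_pow_mul_tw hh φ z

lemma Good.shift (hφ : Good h φ) : Good h (fun w => φ ((1 : ℝ) +ᵥ w)) where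
  holo := mdiff_vadd hφ.holo 1
  bdd := isBoundedAtImInfty_vadd hφ.bdd 1
  per z := by
    rw [← add_vadd, add_comm, add_vadd, hφ.per]

lemma Good.tc_shift (hh : 0 < h) (hφ : Good h φ) {n : ℕ} (hn : n < h) :
    tc h n (fun w => φ ((1 : ℝ) +ᵥ w)) = 𝕢 h 1 ^ n * tc h n φ := by
  apply tc_eq_of_tendsto
  have := (hφ.tendsto_tw hh hn).const_mul (𝕢 h 1 ^ n)
  refine this.congr fun z => ?_
  exact (tw_shift hh hφ.per n z).symm

lemma Good.tc_mul (hh : 0 < h) (hφ : Good h φ) {n : ℕ} (hn : n < h) {a : ℍ → ℂ}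
    (ha : ∀ z : ℍ, a ((1 : ℝ) +ᵥ z) = a z) {a₀ : ℂ} (ha₀ : Tendsto a atImInfty (𝓝 a₀)) :
    tc h n (fun w => a w * φ w) = a₀ * tc h n φ := by
  apply tc_eq_of_tendsto
  have := ha₀.mul (hφ.tendsto_tw hh hn)
  refine this.congr fun z => ?_
  exact (tw_mul_of_periodic ha n φ z).symm

lemma tc_sum (hh : 0 < h) {ι : Type*} (s : Finset ι) {φ : ι → ℍ → ℂ}
    (hφ : ∀ i ∈ s, Good h (φ i)) {n : ℕ} (hn : n < h) :
    tc h n (fun w => ∑ i ∈ s, φ i w) = ∑ i ∈ s, tc h n (φ i) := by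
  apply tc_eq_of_tendsto
  have : Tendsto (fun z => ∑ i ∈ s, tw h n (φ i) z) atImInfty (𝓝 (∑ i ∈ s, tc h n (φ i))) :=
    tendsto_finsetSum _ fun i hi => (hφ i hi).tendsto_tw hh hn
  refine this.congr fun z => ?_
  exact (tw_sum s n φ z).symm


/-! ### The operator `Lop` and the leading value `ld` -/

/-- sum of all normalised Fourier components. -/
noncomputable def Lop (h : ℕ) (φ : ℍ → ℂ) (z : ℍ) : ℂ := ∑ n ∈ Finset.range h, tw h n φ z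

/-- sum of the first `h` Fourier coefficients. -/
noncomputable def ld (h : ℕ) (φ : ℍ → ℂ) : ℂ := ∑ n ∈ Finset.range h, tc h n φ

lemma Good.tendsto_Lop (hh : 0 < h) (hφ : Good h φ) :
    Tendsto (Lop h φ) atImInfty (𝓝 (ld h φ)) :=
  tendsto_finsetSum _ fun _ hn => hφ.tendsto_tw hh (Finset.mem_range.mp hn)

/-- the kernel of `Lop`. -/
noncomputable def kap (h : ℕ) (w : ℍ) : ℂ := (h : ℂ)⁻¹ * ∑ n ∈ Finset.range h, (𝕢 h w ^ n)⁻¹

lemma Lop_eq (φ : ℍ → ℂ) (z : ℍ) :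
    Lop h φ z = ∑ j ∈ Finset.range h, kap h ((j : ℝ) +ᵥ z) * φ ((j : ℝ) +ᵥ z) := by
  unfold Lop tw trh kap
  rw [← Finset.mul_sum, Finset.sum_comm, Finset.mul_sum]
  refine Finset.sum_congr rfl fun j _ => ?_
  rw [← Finset.sum_mul]
  ring

lemma q_mul_kap_isZero (hh : 0 < h) (a : ℝ) :
    IsZeroAtImInfty (fun z : ℍ => 𝕢 1 z * kap h (a +ᵥ z)) := by
  have h1 : ∀ z : ℍ, 𝕢 1 z * kap h (a +ᵥ z) =
      ∑ n ∈ Finset.range h, 𝕢 h z ^ (h - n) * ((h : ℂ)⁻¹ * (𝕢 h a ^ n)⁻¹) := by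
    intro z
    have hq : 𝕢 h (z : ℂ) ≠ 0 := Periodic.qParam_ne_zero _
    unfold kap
    rw [mul_left_comm, Finset.mul_sum, Finset.mul_sum]
    refine Finset.sum_congr rfl fun n hn => ?_
    have hn' := Finset.mem_range.mp hn
    have h5 : 𝕢 h (z : ℂ) ^ h = 𝕢 h (z : ℂ) ^ (h - n) * 𝕢 h (z : ℂ) ^ n := by
      rw [← pow_add, Nat.sub_add_cancel hn'.le]
    rw [← qh_pow_self hh, h5, qh_vadd, mul_pow, mul_inv]
    field_simp
  have h2 : Tendsto (fun z : ℍ =>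
      ∑ n ∈ Finset.range h, 𝕢 h z ^ (h - n) * ((h : ℂ)⁻¹ * (𝕢 h a ^ n)⁻¹)) atImInfty
      (𝓝 (∑ n ∈ Finset.range h, 0 * ((h : ℂ)⁻¹ * (𝕢 h a ^ n)⁻¹))) := by
    refine tendsto_finsetSum _ fun n hn => ?_
    have hn' := Finset.mem_range.mp hn
    have := (qParam_tendsto_atImInfty (h := (h : ℝ)) (by exact_mod_cast hh)).pow (h - n)
    rw [zero_pow (by omega)] at this
    exact this.mul_const _
  simp only [zero_mul, Finset.sum_const_zero] at h2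
  exact h2.congr fun z => (h1 z).symm

lemma Good.shift_nat (hφ : Good h φ) (j : ℕ) : Good h (fun w => φ ((j : ℝ) +ᵥ w)) where
  holo := mdiff_vadd hφ.holo j
  bdd := isBoundedAtImInfty_vadd hφ.bdd j
  per z := by
    rw [← add_vadd, add_comm, add_vadd, hφ.per]

lemma Good.tc_shift_nat (hh : 0 < h) (hφ : Good h φ) {n : ℕ} (hn : n < h) (j : ℕ) :
    tc h n (fun w => φ ((j : ℝ) +ᵥ w)) = (𝕢 h 1 ^ n) ^ j * tc h n φ := by
  induction j with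
  | zero => simp
  | succ j ih =>
    have h1 := (hφ.shift_nat j).tc_shift hh hn
    have h2 : (fun w : ℍ => φ (((j + 1 : ℕ) : ℝ) +ᵥ w)) =
        (fun w : ℍ => (fun w' : ℍ => φ ((j : ℝ) +ᵥ w')) ((1 : ℝ) +ᵥ w)) := by
      ext w
      simp only
      rw [← add_vadd]
      push_cast
      rfl
    rw [h2, h1, ih, pow_succ]
    ring

/-- Fourier inversion: the coefficients are recovered from the leading values of the translates. -/
lemma Good.tc_eq_sum_ld (hh : 0 < h) (hφ : Good h φ) {m : ℕ} (hm : m < h) :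
    tc h m φ = (h : ℂ)⁻¹ * ∑ j ∈ Finset.range h,
      ((𝕢 h 1 ^ m) ^ j)⁻¹ * ld h (fun w => φ ((j : ℝ) +ᵥ w)) := by
  have hζ := qh_one_isPrimitiveRoot hh
  have h1 : ∀ j ∈ Finset.range h, ((𝕢 h 1 ^ m) ^ j)⁻¹ * ld h (fun w => φ ((j : ℝ) +ᵥ w)) =
      ∑ n ∈ Finset.range h, ((𝕢 h 1 ^ n) ^ j * ((𝕢 h 1 ^ m) ^ j)⁻¹) * tc h n φ := by
    intro j _
    unfold ld
    rw [Finset.mul_sum]
    refine Finset.sum_congr rfl fun n hn => ?_
    rw [hφ.tc_shift_nat hh (Finset.mem_range.mp hn)]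
    ring
  rw [Finset.sum_congr rfl h1, Finset.sum_comm]
  have h2 : ∀ n ∈ Finset.range h,
      ∑ j ∈ Finset.range h, ((𝕢 h 1 ^ n) ^ j * ((𝕢 h 1 ^ m) ^ j)⁻¹) * tc h n φ =
      (if n = m then (h : ℂ) else 0) * tc h n φ := by
    intro n hn
    rw [← Finset.sum_mul, sum_zeta_pow hh hζ (Finset.mem_range.mp hn) hm]
  rw [Finset.sum_congr rfl h2]
  simp only [ite_mul, zero_mul]
  rw [Finset.sum_ite_eq' (Finset.range h) m, if_pos (Finset.mem_range.mpr hm)]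
  have hh' : (h : ℂ) ≠ 0 := by exact_mod_cast hh.ne'
  field_simp

lemma Good.ld_mul (hh : 0 < h) (hφ : Good h φ) {a : ℍ → ℂ}
    (ha : ∀ z : ℍ, a ((1 : ℝ) +ᵥ z) = a z) {a₀ : ℂ} (ha₀ : Tendsto a atImInfty (𝓝 a₀)) :
    ld h (fun w => a w * φ w) = a₀ * ld h φ := by
  unfold ld
  rw [Finset.mul_sum]
  exact Finset.sum_congr rfl fun n hn => hφ.tc_mul hh (Finset.mem_range.mp hn) ha ha₀

lemma ld_sum (hh : 0 < h) {ι : Type*} (s : Finset ι) {φ : ι → ℍ → ℂ}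
    (hφ : ∀ i ∈ s, Good h (φ i)) :
    ld h (fun w => ∑ i ∈ s, φ i w) = ∑ i ∈ s, ld h (φ i) := by
  unfold ld
  rw [Finset.sum_comm]
  exact Finset.sum_congr rfl fun n hn => tc_sum hh s hφ (Finset.mem_range.mp hn)

lemma Lop_mul_of_periodic {a : ℍ → ℂ} (ha : ∀ z : ℍ, a ((1 : ℝ) +ᵥ z) = a z)
    (φ : ℍ → ℂ) (z : ℍ) : Lop h (fun w => a w * φ w) z = a z * Lop h φ z := by
  unfold Lop
  rw [Finset.mul_sum]
  exact Finset.sum_congr rfl fun n _ => tw_mul_of_periodic ha n φ z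

lemma Lop_sum {ι : Type*} (s : Finset ι) (φ : ι → ℍ → ℂ) (z : ℍ) :
    Lop h (fun w => ∑ i ∈ s, φ i w) z = ∑ i ∈ s, Lop h (φ i) z := by
  unfold Lop
  rw [Finset.sum_comm]
  exact Finset.sum_congr rfl fun n _ => tw_sum s n φ z

end Fermat.Agent.S20
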