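import Fermat.Agent.S20.Basic

/-!
Dimension of `VMF X k` from a fundamental system.
-/

set_option autoImplicit false

namespace Fermat.Agent.S20

open UpperHalfPlane ModularForm
open scoped MatrixGroups ModularForm Manifold

noncomputable section

variable {X : Type} [Fintype X] [DecidableEq X] [MulAction SL(2, ℤ) X]

/-- The `R`-linear combination map `(r_j) ↦ ∑ r_j F_j`. -/
def combMap {κ : X → ℤ} {F : X → X → ℍ → ℂ} (mem : ∀ j, F j ∈ VMF X (κ j)) (k : ℤ) :
    (∀ j, M1 (k - κ j)) →ₗ[ℂ] VMF X k where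
  toFun r := ⟨∑ j, fmul (r j : ℍ → ℂ) (F j), Submodule.sum_mem _ fun j _ =>
    VMF_congr (by ring) (fmul_mem_VMF (r j).2 (mem j))⟩
  map_add' r s := by
    apply Subtype.ext
    simp [add_fmul, Finset.sum_add_distrib]
  map_smul' c r := by
    apply Subtype.ext
    ext x z
    simp [Finset.sum_apply, Finset.mul_sum, mul_assoc]

lemma combMap_apply {κ : X → ℤ} {F : X → X → ℍ → ℂ} (mem : ∀ j, F j ∈ VMF X (κ j)) (k : ℤ)
    (r : ∀ j, M1 (k - κ j)) (x : X) (z : ℍ) :
    (combMap mem k r).1 x z = ∑ j, (r j : ℍ → ℂ) z * F j x z := by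
  simp [combMap, Finset.sum_apply]

lemma combMap_apply_eq_mulVec {κ : X → ℤ} {F : X → X → ℍ → ℂ} (mem : ∀ j, F j ∈ VMF X (κ j))
    (k : ℤ) (r : ∀ j, M1 (k - κ j)) (z : ℍ) :
    (fun x => (combMap mem k r).1 x z) = (fundMatrix F z).mulVec fun j => (r j : ℍ → ℂ) z := by
  funext x
  rw [combMap_apply]
  simp [Matrix.mulVec, dotProduct, mul_comm]

/-- `VMF X k ≃ ∏ M1 (k - κ j)` for a fundamental system. -/
def combEquiv {κ : X → ℤ} {F : X → X → ℍ → ℂ} (h : IsFundSystem κ F) (k : ℤ) :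
    (∀ j, M1 (k - κ j)) ≃ₗ[ℂ] VMF X k :=
  LinearEquiv.ofBijective (combMap h.mem k) ⟨by
    rw [← LinearMap.ker_eq_bot, LinearMap.ker_eq_bot']
    intro r hr
    funext j
    apply Subtype.ext
    funext z
    have h1 := combMap_apply_eq_mulVec h.mem k r z
    rw [hr] at h1
    have h2 : (fundMatrix F z).mulVec (fun j => (r j : ℍ → ℂ) z) = 0 := by
      rw [← h1]; rfl
    have h3 := Matrix.eq_zero_of_mulVec_eq_zero (h.det_ne_zero z) h2
    exact congrFun h3 j, by
    intro G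
    obtain ⟨r, hr, hG⟩ := h.gen k G.1 G.2
    exact ⟨fun j => ⟨r j, hr j⟩, Subtype.ext hG.symm⟩⟩

theorem finrank_VMF_eq {κ : X → ℤ} {F : X → X → ℍ → ℂ} (h : IsFundSystem κ F) (k : ℤ) :
    Module.finrank ℂ (VMF X k) = ∑ j, δ (k - κ j) := by
  rw [← (combEquiv h k).finrank_eq, Module.finrank_pi_fintype]
  simp [finrank_M1]

theorem finiteDimensional_VMF_of_isFundSystem {κ : X → ℤ} {F : X → X → ℍ → ℂ}
    (h : IsFundSystem κ F) (k : ℤ) : FiniteDimensional ℂ (VMF X k) :=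
  (combEquiv h k).finiteDimensional

end

end Fermat.Agent.S20
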