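import Fermat.Agent.S20.Defs

/-!
Package I of S20: the final numerical identity.
-/

set_option autoImplicit false

namespace Fermat.Agent.S20

open UpperHalfPlane ModularForm
open scoped MatrixGroups ModularForm Manifold

/-- Explicit formula for `δ k = dim M_k(SL(2,ℤ))`, as an integer. -/
theorem δ_eq (k : ℤ) : (δ k : ℤ) =
    if k < 0 then 0 else if k % 2 = 1 then 0 else if k % 12 = 2 then k / 12 else k / 12 + 1 := by
  unfold δ
  split_ifs with h1 h2 h3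
  · rw [Module.finrank, levelOne_neg_weight_rank_zero h1]; simp
  · rw [Module.finrank, levelOne_odd_weight_rank_zero (Int.odd_iff.mpr h2)]; simp
  · lift k to ℕ using (not_lt.mp h1)
    have hev : Even k := by
      rw [Nat.even_iff]; omega
    rw [Module.finrank, dimension_level_one k hev, if_pos (by unfold Nat.ModEq; omega)]
    simp
  · lift k to ℕ using (not_lt.mp h1)
    have hev : Even k := by
      rw [Nat.even_iff]; omega
    rw [Module.finrank, dimension_level_one k hev, if_neg (by unfold Nat.ModEq; omega)]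
    rw [Cardinal.toNat_natCast]
    push_cast; rfl

/-- `Re (i^(-κ))` for even `κ`. -/
def aTwo (κ : ℤ) : ℤ := if κ % 4 = 0 then 1 else -1

/-- `2 Re (ζ₆^(-κ))` for even `κ`. -/
def bThree (κ : ℤ) : ℤ := if κ % 6 = 0 then 2 else -1

/-- The key identity for one generator of even weight `κ`. -/
theorem δ_identity (κ : ℤ) (hκ : κ % 2 = 0) (m : ℤ) (hm : |κ| + 12 ≤ 12 * m) :
    12 * ((δ (κ - 10) : ℤ) - δ (-κ)) + 6 * ((δ (12 * m - κ) : ℤ) - δ (12 * m + κ - 12)) =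
      1 - 3 * aTwo κ - 2 * bThree κ := by
  have h1 := abs_le.mp (show |κ| ≤ 12 * m - 12 by linarith)
  clear hm
  obtain ⟨q, r, hr, rfl⟩ : ∃ q r : ℤ, (r = 0 ∨ r = 2 ∨ r = 4 ∨ r = 6 ∨ r = 8 ∨ r = 10) ∧
      κ = 12 * q + r := ⟨κ / 12, κ % 12, by omega, by omega⟩
  simp only [δ_eq, aTwo, bThree]
  rcases hr with rfl | rfl | rfl | rfl | rfl | rfl <;> split_ifs <;> omega

theorem I_zpow_neg_re (κ : ℤ) (hκ : κ % 2 = 0) : (Complex.I ^ (-κ)).re = aTwo κ := by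
  obtain ⟨n, rfl⟩ : ∃ n, κ = 2 * n := ⟨κ / 2, by omega⟩
  have h1 : Complex.I ^ (-(2 * n)) = (-1 : ℂ) ^ n := by
    rw [show -(2 * n) = 2 * (-n) by ring, zpow_mul]
    have : Complex.I ^ (2 : ℤ) = -1 := by
      rw [show (2 : ℤ) = ((2 : ℕ) : ℤ) by rfl, zpow_natCast, Complex.I_sq]
    rw [this, zpow_neg, ← inv_zpow]
    norm_num
  rw [h1]
  unfold aTwo
  rcases Int.even_or_odd n with hn | hn
  · rw [hn.neg_one_zpow, if_pos (by obtain ⟨r, rfl⟩ := hn; omega)]; simp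
  · rw [hn.neg_one_zpow, if_neg (by obtain ⟨r, rfl⟩ := hn; omega)]; simp

theorem re_of_sixth_root {ζ : ℂ} (hζ : ζ ^ 2 - ζ + 1 = 0) : ζ.re = 1 / 2 := by
  have h1 := congrArg Complex.re hζ
  have h2 := congrArg Complex.im hζ
  simp only [pow_two, Complex.add_re, Complex.sub_re, Complex.mul_re, Complex.one_re,
    Complex.zero_re, Complex.add_im, Complex.sub_im, Complex.mul_im, Complex.one_im,
    Complex.zero_im] at h1 h2
  have h3 : ζ.im * (2 * ζ.re - 1) = 0 := by linarith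
  rcases mul_eq_zero.mp h3 with h | h
  · rw [h] at h1
    nlinarith [sq_nonneg (ζ.re - 1 / 2)]
  · linarith

theorem sixth_root_zpow_neg_re {ζ : ℂ} (hζ : ζ ^ 2 - ζ + 1 = 0) (κ : ℤ) (hκ : κ % 2 = 0) :
    2 * (ζ ^ (-κ)).re = bThree κ := by
  have hre := re_of_sixth_root hζ
  have h2 : ζ ^ 2 = ζ - 1 := by linear_combination hζ
  have h3 : ζ ^ 3 = -1 := by
    linear_combination (ζ + 1) * hζ
  have h6 : ζ ^ 6 = 1 := by
    calc ζ ^ 6 = (ζ ^ 3) ^ 2 := by ring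
      _ = 1 := by rw [h3]; ring
  have h0 : ζ ≠ 0 := by
    rintro rfl
    norm_num at hζ
  have h6' : ζ ^ (6 : ℤ) = 1 := by
    rw [show (6 : ℤ) = ((6 : ℕ) : ℤ) by rfl, zpow_natCast, h6]
  obtain ⟨q, r, hr, hqr⟩ : ∃ q r : ℤ, (r = 0 ∨ r = 2 ∨ r = 4) ∧ -κ = 6 * q + r :=
    ⟨(-κ) / 6, (-κ) % 6, by omega, by omega⟩
  rw [hqr, zpow_add₀ h0, zpow_mul, h6', one_zpow, one_mul]
  unfold bThree
  rcases hr with rfl | rfl | rfl
  · rw [if_pos (by omega)]; simp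
  · rw [if_neg (by omega), show (2 : ℤ) = ((2 : ℕ) : ℤ) by rfl, zpow_natCast, h2]
    simp [hre]; norm_num
  · rw [if_neg (by omega), show (4 : ℤ) = ((4 : ℕ) : ℤ) by rfl, zpow_natCast,
      show ζ ^ 4 = -ζ by
        calc ζ ^ 4 = ζ ^ 3 * ζ := by ring
          _ = -ζ := by rw [h3]; ring]
    simp [hre]

/-- Package I: the numerical identity giving the genus formula. `ζ` is any root of
`ζ² - ζ + 1` (a primitive sixth root of unity, e.g. `ρ + 1 = exp (π i / 3)`). -/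
theorem numerics {X : Type*} [Fintype X] (κ : X → ℤ) (hκ : ∀ j, Even (κ j))
    (s₂ c ν₂ ν₃ : ℕ) {ζ : ℂ} (hζ : ζ ^ 2 - ζ + 1 = 0)
    (h0 : ∑ j, δ (-κ j) = 1)
    (h2 : s₂ = ∑ j, δ (κ j - 10))
    (hc : ∃ K₀ : ℤ, ∀ K ≥ K₀, Even K → ∑ j, δ (K - κ j) = ∑ j, δ (K + κ j - 12) + c)
    (he2 : ∑ j, Complex.I ^ (-κ j) = (ν₂ : ℂ))
    (he3 : ∑ j, ζ ^ (-κ j) = (ν₃ : ℂ)) :
    (s₂ : ℚ) = 1 + (Fintype.card X : ℚ) / 12 - (ν₂ : ℚ) / 4 - (ν₃ : ℚ) / 3 - (c : ℚ) / 2 := by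
  have hκ' : ∀ j, κ j % 2 = 0 := fun j => Int.even_iff.mp (hκ j)
  obtain ⟨K₀, hK₀⟩ := hc
  -- choose `m` large
  obtain ⟨B, hB⟩ : ∃ B : ℤ, ∀ j, |κ j| ≤ B := by
    refine ⟨∑ j, |κ j|, fun j => ?_⟩
    exact Finset.single_le_sum (f := fun j => |κ j|) (fun i _ => abs_nonneg _) (Finset.mem_univ j)
  set m : ℤ := |K₀| + B + 12 with hm
  have hB0 : 0 ≤ B ∨ IsEmpty X := by
    by_cases hX : IsEmpty X
    · exact Or.inr hX
    · rw [not_isEmpty_iff] at hX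
      obtain ⟨j⟩ := hX
      exact Or.inl ((abs_nonneg _).trans (hB j))
  have hmK : ∀ j, |κ j| + 12 ≤ 12 * m := by
    intro j
    have := hB j
    have h3 := abs_nonneg K₀
    have h4 := abs_nonneg (κ j)
    omega
  have hsum : ∑ j, (12 * ((δ (κ j - 10) : ℤ) - δ (-κ j)) +
      6 * ((δ (12 * m - κ j) : ℤ) - δ (12 * m + κ j - 12))) =
      ∑ j, (1 - 3 * aTwo (κ j) - 2 * bThree (κ j)) :=
    Finset.sum_congr rfl fun j _ => δ_identity (κ j) (hκ' j) m (hmK j)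
  have ha : (∑ j, aTwo (κ j) : ℤ) = ν₂ := by
    have h := congrArg Complex.re he2
    rw [Complex.re_sum] at h
    simp only [I_zpow_neg_re _ (hκ' _), Complex.natCast_re] at h
    exact_mod_cast h
  have hb : (∑ j, bThree (κ j) : ℤ) = 2 * ν₃ := by
    have h := congrArg Complex.re he3
    rw [Complex.re_sum] at h
    have h' : (∑ j, (bThree (κ j) : ℝ)) = 2 * (ν₃ : ℝ) := by
      rw [← Complex.natCast_re, ← h, Finset.mul_sum]
      exact Finset.sum_congr rfl fun j _ => (sixth_root_zpow_neg_re hζ _ (hκ' j)).symm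
    exact_mod_cast h'
  have hcK : (∑ j, (δ (12 * m - κ j) : ℤ)) = ∑ j, (δ (12 * m + κ j - 12) : ℤ) + c := by
    rcases hB0 with hB0 | hX
    · have := hK₀ (12 * m) (by have := le_abs_self K₀; have := abs_nonneg K₀; omega)
        ⟨6 * m, by ring⟩
      exact_mod_cast this
    · exfalso
      simp at h0
  have h0' : (∑ j, (δ (-κ j) : ℤ)) = 1 := by exact_mod_cast h0
  have h2' : (s₂ : ℤ) = ∑ j, (δ (κ j - 10) : ℤ) := by exact_mod_cast h2
  simp only [Finset.sum_add_distrib, Finset.sum_sub_distrib, ← Finset.mul_sum, Finset.sum_const,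
    Finset.card_univ, nsmul_eq_mul, mul_one] at hsum
  rw [ha, hb, hcK, h0', ← h2'] at hsum
  have hfin : (12 * ((s₂ : ℚ) - 1) + 6 * (c : ℚ)) = (Fintype.card X : ℚ) - 3 * ν₂ - 2 * (2 * ν₃) := by
    have : (12 * ((s₂ : ℤ) - 1) + 6 * (c : ℤ)) = (Fintype.card X : ℤ) - 3 * ν₂ - 2 * (2 * ν₃) := by
      linarith
    exact_mod_cast this
  linarith

end Fermat.Agent.S20
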