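import Fermat.Agent.S20.Basic
import Fermat.Agent.S20.CuspScalar
import Fermat.Agent.S20.CuspOrbits
import Fermat.Agent.S20.FundDim
import Fermat.Agent.S20.Numerics

/-!
Package C of S20, part (V): the leading term map of vector valued modular forms at the cusp,
its kernel, its surjectivity in large even weight, and the value at infinity.
-/

set_option autoImplicit false

namespace Fermat.Agent.S20.CV

open UpperHalfPlane ModularForm Filter Topology
open scoped MatrixGroups ModularForm Manifold Real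

noncomputable section

/-- The order of `T` acting on `X`. -/
def per (X : Type) [MulAction SL(2, ℤ) X] : ℕ :=
  orderOf (MulAction.toPermHom SL(2, ℤ) X ModularGroup.T)

variable {X : Type} [MulAction SL(2, ℤ) X]

lemma per_pos [Finite X] : 0 < per X := orderOf_pos _

lemma T_pow_per_smul (x : X) : ModularGroup.T ^ per X • x = x := by
  have h := pow_orderOf_eq_one (MulAction.toPermHom SL(2, ℤ) X ModularGroup.T)
  rw [← map_pow] at h
  exact DFunLike.congr_fun h x

lemma VMF_vadd_one {k : ℤ} {G : X → ℍ → ℂ} (hG : G ∈ VMF X k) (x : X) (z : ℍ) :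
    G x ((1 : ℝ) +ᵥ z) = G (ModularGroup.T⁻¹ • x) z := by
  have h := congrFun (hG.2.2 x ModularGroup.T) z
  rw [SL_slash_apply, modular_T_smul] at h
  rw [← h]
  simp [denom, ModularGroup.T]

lemma VMF_vadd_nat {k : ℤ} {G : X → ℍ → ℂ} (hG : G ∈ VMF X k) (j : ℕ) (x : X) (z : ℍ) :
    G x ((j : ℝ) +ᵥ z) = G ((ModularGroup.T ^ j)⁻¹ • x) z := by
  induction j generalizing x with
  | zero => simp
  | succ j ih =>
    have : (((j + 1 : ℕ) : ℝ) +ᵥ z) = (1 : ℝ) +ᵥ ((j : ℝ) +ᵥ z) := by
      rw [← add_vadd]; push_cast; rw [add_comm]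
    rw [this, VMF_vadd_one hG, ih, ← mul_smul, ← mul_inv_rev, ← pow_succ']

lemma VMF_good {k : ℤ} {G : X → ℍ → ℂ} (hG : G ∈ VMF X k) (x : X) : Good (per X) (G x) where
  holo := hG.1 x
  bdd := hG.2.1 x
  per z := by
    rw [VMF_vadd_nat hG]
    congr 1
    rw [inv_smul_eq_iff, T_pow_per_smul]

/-! ### Linearity of `Lop` and `ld` -/

lemma Lop_add (h : ℕ) (φ ψ : ℍ → ℂ) (z : ℍ) : Lop h (φ + ψ) z = Lop h φ z + Lop h ψ z := by
  unfold Lop
  rw [← Finset.sum_add_distrib]
  exact Finset.sum_congr rfl fun n _ => tw_add n φ ψ z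

lemma Lop_smul (h : ℕ) (c : ℂ) (φ : ℍ → ℂ) (z : ℍ) : Lop h (c • φ) z = c * Lop h φ z :=
  Lop_mul_of_periodic (a := fun _ => c) (fun _ => rfl) φ z

section FiniteX

variable [Finite X]

/-- The leading term map. -/
def lead (X : Type) [MulAction SL(2, ℤ) X] [Finite X] (k : ℤ) : VMF X k →ₗ[ℂ] (X → ℂ) where
  toFun G := fun x => ld (per X) (G.1 x)
  map_add' G H := by
    funext x
    refine tendsto_nhds_unique ((VMF_good (G + H).2 x).tendsto_Lop per_pos) ?_
    refine (((VMF_good G.2 x).tendsto_Lop per_pos).add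
      ((VMF_good H.2 x).tendsto_Lop per_pos)).congr fun z => ?_
    exact (Lop_add _ _ _ z).symm
  map_smul' c G := by
    funext x
    refine tendsto_nhds_unique ((VMF_good (c • G).2 x).tendsto_Lop per_pos) ?_
    refine (((VMF_good G.2 x).tendsto_Lop per_pos).const_mul c).congr fun z => ?_
    exact (Lop_smul _ c _ z).symm

lemma lead_apply {k : ℤ} (G : VMF X k) (x : X) : lead X k G x = ld (per X) (G.1 x) := rfl

lemma tc_eq_sum_lead {k : ℤ} (G : VMF X k) (x : X) {m : ℕ} (hm : m < per X) :
    tc (per X) m (G.1 x) = (per X : ℂ)⁻¹ * ∑ j ∈ Finset.range (per X),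
      ((Function.Periodic.qParam (per X) 1 ^ m) ^ j)⁻¹ *
        lead X k G ((ModularGroup.T ^ j)⁻¹ • x) := by
  rw [(VMF_good G.2 x).tc_eq_sum_ld per_pos hm]
  congr 1
  refine Finset.sum_congr rfl fun j _ => ?_
  rw [lead_apply]
  congr 2
  funext w
  exact VMF_vadd_nat G.2 j x w

lemma isBigO_exp_of_lead_eq_zero {k : ℤ} (G : VMF X k) (h0 : lead X k G = 0) (x : X) :
    G.1 x =O[atImInfty] fun z : ℍ => Real.exp (-2 * π * z.im) := by
  refine (VMF_good G.2 x).isBigO_exp per_pos fun n hn => ?_
  rw [tc_eq_sum_lead G x hn, h0]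
  simp

lemma isBounded_div_Delta {f : ℍ → ℂ}
    (hf : f =O[atImInfty] fun z : ℍ => Real.exp (-2 * π * z.im)) :
    IsBoundedAtImInfty (f / discriminant) := by
  have h1 : f =O[atImInfty] discriminant := hf.trans exp_isBigO_discriminant
  have h2 := h1.mul (Asymptotics.isBigO_refl (fun z => (discriminant z)⁻¹) atImInfty)
  show (f / discriminant) =O[atImInfty] (1 : ℍ → ℝ)
  have h3 : (fun z => discriminant z * (discriminant z)⁻¹) =O[atImInfty] (1 : ℍ → ℝ) := by
    refine Asymptotics.IsBigO.of_bound 1 (Eventually.of_forall fun z => ?_)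
    simp [mul_inv_cancel₀ (discriminant_ne_zero z)]
  exact (h2.trans h3).congr_left fun z => by simp [div_eq_mul_inv]

/-- Multiplication by `Δ`. -/
def mulDelta (X : Type) [MulAction SL(2, ℤ) X] (k : ℤ) : VMF X (k - 12) →ₗ[ℂ] VMF X k where
  toFun G := ⟨fmul discriminant G.1, VMF_congr (by ring) (fmul_mem_VMF Delta_mem G.2)⟩
  map_add' G H := by
    ext x z
    simp [mul_add]
  map_smul' c G := by
    ext x z
    simp [mul_left_comm]

omit [Finite X] in
lemma mulDelta_injective (k : ℤ) : Function.Injective (mulDelta X k) := by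
  intro G H h
  ext x z
  have := congrFun (congrFun (congrArg Subtype.val h) x) z
  simpa [mulDelta, discriminant_ne_zero z] using this

lemma Delta_vadd_one (z : ℍ) : discriminant ((1 : ℝ) +ᵥ z) = discriminant z := by
  have h := congrFun discriminant_T_invariant z
  rw [SL_slash_apply, modular_T_smul] at h
  rw [← h]
  simp [denom, ModularGroup.T]

lemma range_mulDelta (k : ℤ) : LinearMap.range (mulDelta X k) = LinearMap.ker (lead X k) := by
  apply le_antisymm
  · rintro _ ⟨G, rfl⟩
    rw [LinearMap.mem_ker]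
    funext x
    rw [lead_apply]
    have := (VMF_good G.2 x).ld_mul per_pos Delta_vadd_one discriminant_isZeroAtImInfty
    rw [zero_mul] at this
    exact this
  · intro G hG
    rw [LinearMap.mem_ker] at hG
    refine ⟨⟨fun x => G.1 x / discriminant, div_Delta_mem_VMF G.2 fun x =>
      isBounded_div_Delta (isBigO_exp_of_lead_eq_zero G hG x)⟩, ?_⟩
    ext x z
    simp [mulDelta, mul_div_cancel₀ _ (discriminant_ne_zero z)]

/-! ### Surjectivity of the leading term map in large even weight -/

lemma δ_sub_twelve {k : ℤ} (hk : Even k) (h12 : 12 ≤ k) : δ k = δ (k - 12) + 1 := by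
  have h1 := δ_eq k
  have h2 := δ_eq (k - 12)
  have h3 : k % 2 = 0 := Int.even_iff.mp hk
  have : (δ k : ℤ) = δ (k - 12) + 1 := by
    rw [h1, h2]
    split_ifs <;> omega
  exact_mod_cast this

/-! ### The value at infinity -/

/-- The value at infinity. -/
def val (X : Type) [MulAction SL(2, ℤ) X] [Finite X] (k : ℤ) : VMF X k →ₗ[ℂ] TInv X where
  toFun G := ⟨fun x => tc (per X) 0 (G.1 x), fun x => by
    refine tendsto_nhds_unique ((VMF_good G.2 _).tendsto_self per_pos) ?_
    refine (((VMF_good G.2 x).tendsto_self per_pos).comp (tendsto_vadd_atImInfty 1)).congr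
      fun z => ?_
    exact VMF_vadd_one G.2 x z⟩
  map_add' G H := by
    ext x
    refine tendsto_nhds_unique ((VMF_good (G + H).2 x).tendsto_self per_pos) ?_
    exact ((VMF_good G.2 x).tendsto_self per_pos).add ((VMF_good H.2 x).tendsto_self per_pos)
  map_smul' c G := by
    ext x
    refine tendsto_nhds_unique ((VMF_good (c • G).2 x).tendsto_self per_pos) ?_
    exact ((VMF_good G.2 x).tendsto_self per_pos).const_mul c

lemma val_apply {k : ℤ} (G : VMF X k) (x : X) : (val X k G).1 x = tc (per X) 0 (G.1 x) := rfl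

lemma tendsto_val {k : ℤ} (G : VMF X k) (x : X) :
    Tendsto (G.1 x) atImInfty (𝓝 ((val X k G).1 x)) :=
  (VMF_good G.2 x).tendsto_self per_pos

lemma ker_val (k : ℤ) :
    LinearMap.ker (val X k) = Submodule.comap (VMF X k).subtype (VCF X k) := by
  ext G
  rw [LinearMap.mem_ker, Submodule.mem_comap]
  constructor
  · intro h0
    refine ⟨G.2.1, fun x => ?_, G.2.2.2⟩
    have := tendsto_val G x
    rw [h0] at this
    exact this
  · intro hG
    ext x
    exact tendsto_nhds_unique (tendsto_val G x) (hG.2.1 x)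

lemma finrank_ker_val (k : ℤ) :
    Module.finrank ℂ (LinearMap.ker (val X k)) = Module.finrank ℂ (VCF X k) := by
  rw [ker_val]
  exact (Submodule.comapSubtypeEquivOfLe (VCF_le_VMF k)).finrank_eq

lemma val_eq_of_lead_mem_TInv {k : ℤ} (G : VMF X k) (hG : lead X k G ∈ TInv X) :
    (val X k G).1 = lead X k G := by
  funext x
  rw [val_apply, tc_eq_sum_lead G x per_pos]
  have h1 : ∀ j ∈ Finset.range (per X),
      ((Function.Periodic.qParam (per X) 1 ^ 0) ^ j)⁻¹ *
        lead X k G ((ModularGroup.T ^ j)⁻¹ • x) = lead X k G x := by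
    intro j _
    have := TInv_zpow_smul hG (-(j : ℤ)) x
    rw [zpow_neg, zpow_natCast] at this
    rw [this]
    simp
  rw [Finset.sum_congr rfl h1]
  have : (per X : ℂ) ≠ 0 := by exact_mod_cast (per_pos (X := X)).ne'
  simp only [Finset.sum_const, Finset.card_range, nsmul_eq_mul]
  field_simp

end FiniteX

theorem lead_surjective [Fintype X] [DecidableEq X] {κ : X → ℤ} {F : X → X → ℍ → ℂ}
    (h : IsFundSystem κ F) (hκ : ∀ j, Even (κ j)) {K : ℤ} (hKe : Even K)
    (hK : ∀ j, κ j + 12 ≤ K) : Function.Surjective (lead X K) := by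
  haveI := finiteDimensional_VMF_of_isFundSystem h K
  rw [← LinearMap.range_eq_top]
  apply Submodule.eq_top_of_finrank_eq
  have h1 := LinearMap.finrank_range_add_finrank_ker (lead X K)
  rw [← range_mulDelta, LinearMap.finrank_range_of_inj (mulDelta_injective K),
    finrank_VMF_eq h, finrank_VMF_eq h] at h1
  have h2 : ∑ j, δ (K - κ j) = ∑ j, δ (K - 12 - κ j) + Fintype.card X := by
    rw [Finset.card_univ.symm, Finset.card_eq_sum_ones, ← Finset.sum_add_distrib]
    refine Finset.sum_congr rfl fun j _ => ?_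
    rw [δ_sub_twelve (hKe.sub (hκ j)) (by have := hK j; omega)]
    congr 2
    ring
  rw [Module.finrank_fintype_fun_eq_card]
  omega

theorem val_surjective [Fintype X] [DecidableEq X] {κ : X → ℤ} {F : X → X → ℍ → ℂ}
    (h : IsFundSystem κ F) (hκ : ∀ j, Even (κ j)) {K : ℤ} (hKe : Even K)
    (hK : ∀ j, κ j + 12 ≤ K) : Function.Surjective (val X K) := by
  intro v
  obtain ⟨G, hG⟩ := lead_surjective h hκ hKe hK v.1
  refine ⟨G, Subtype.ext ?_⟩
  rw [val_eq_of_lead_mem_TInv G (hG ▸ v.2), hG]

end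

end Fermat.Agent.S20.CV

namespace Fermat.Agent.S20

open UpperHalfPlane
open scoped MatrixGroups

/-- In large even weight, the codimension of the cusp forms is the number of cusps. -/
theorem finrank_VMF_eq_VCF_add' {X : Type} [Fintype X] [DecidableEq X] [MulAction SL(2, ℤ) X]
    {κ : X → ℤ} {F : X → X → ℍ → ℂ}
    (h : IsFundSystem κ F) (hκ : ∀ j, Even (κ j)) (K : ℤ) (hKe : Even K)
    (hK : ∀ j, κ j + 12 ≤ K) :
    Module.finrank ℂ (VMF X K) = Module.finrank ℂ (VCF X K) + Module.finrank ℂ (TInv X) := by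
  haveI := finiteDimensional_VMF_of_isFundSystem h K
  have h1 := LinearMap.finrank_range_add_finrank_ker (CV.val X K)
  rw [LinearMap.range_eq_top.mpr (CV.val_surjective h hκ hKe hK), finrank_top,
    CV.finrank_ker_val] at h1
  omega

end Fermat.Agent.S20
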