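import Fermat.Agent.S20.KoszulDefs

set_option autoImplicit false

namespace Fermat.Agent.S20

open UpperHalfPlane ModularForm EisensteinSeries
open scoped MatrixGroups ModularForm Manifold

noncomputable section

section LinAlg

variable {X : Type} [MulAction SL(2, ℤ) X]

/-- The map `(A, B) ↦ E₄ A + E₆ B`. -/
def koszulMap (X : Type) [MulAction SL(2, ℤ) X] (k : ℤ) :
    (VMF X (k - 4) × VMF X (k - 6)) →ₗ[ℂ] (X → ℍ → ℂ) :=
  (fmulₗ E₄ ∘ₗ (VMF X (k - 4)).subtype).coprod (fmulₗ E₆ ∘ₗ (VMF X (k - 6)).subtype)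

lemma koszulMap_apply (k : ℤ) (p : VMF X (k - 4) × VMF X (k - 6)) :
    koszulMap X k p = fmul E₄ (p.1 : X → ℍ → ℂ) + fmul E₆ (p.2 : X → ℍ → ℂ) := rfl

lemma range_koszulMap (k : ℤ) : LinearMap.range (koszulMap X k) = decomposable X k := by
  rw [koszulMap, LinearMap.range_coprod, LinearMap.range_comp, LinearMap.range_comp,
    Submodule.range_subtype, Submodule.range_subtype, decomposable]

/-- The map `C ↦ (E₆ C, - E₄ C)`. -/
def koszulSyz (X : Type) [MulAction SL(2, ℤ) X] (k : ℤ) :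
    VMF X (k - 10) →ₗ[ℂ] (VMF X (k - 4) × VMF X (k - 6)) :=
  LinearMap.prod
    ((fmulₗ E₆ ∘ₗ (VMF X (k - 10)).subtype).codRestrict (VMF X (k - 4)) (fun C =>
      VMF_congr (by ring) (fmul_mem_VMF E6_mem C.2)))
    ((-(fmulₗ E₄ ∘ₗ (VMF X (k - 10)).subtype)).codRestrict (VMF X (k - 6)) (fun C =>
      neg_mem (VMF_congr (by ring) (fmul_mem_VMF E4_mem C.2))))

lemma koszulSyz_fst (k : ℤ) (C : VMF X (k - 10)) :
    ((koszulSyz X k C).1 : X → ℍ → ℂ) = fmul E₆ (C : X → ℍ → ℂ) := rfl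

lemma koszulSyz_snd (k : ℤ) (C : VMF X (k - 10)) :
    ((koszulSyz X k C).2 : X → ℍ → ℂ) = - fmul E₄ (C : X → ℍ → ℂ) := rfl

lemma koszulSyz_injective (k : ℤ) : Function.Injective (koszulSyz X k) := by
  rw [← LinearMap.ker_eq_bot, LinearMap.ker_eq_bot']
  intro C hC
  have h1 : fmul E₆ (C : X → ℍ → ℂ) = 0 := by
    rw [← koszulSyz_fst, hC]; rfl
  have h2 : - fmul E₄ (C : X → ℍ → ℂ) = 0 := by
    rw [← koszulSyz_snd, hC]; rfl
  apply Subtype.ext
  funext x z
  have e6 : E₆ z * (C : X → ℍ → ℂ) x z = 0 := by simpa using congrFun (congrFun h1 x) z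
  have e4 : E₄ z * (C : X → ℍ → ℂ) x z = 0 := by simpa using congrFun (congrFun h2 x) z
  by_contra hne
  have hne' : (C : X → ℍ → ℂ) x z ≠ 0 := hne
  have a6 : E₆ z = 0 := (mul_eq_zero.mp e6).resolve_right hne'
  have a4 : E₄ z = 0 := (mul_eq_zero.mp e4).resolve_right hne'
  have := Delta_eq z
  rw [a4, a6] at this
  have hD := discriminant_ne_zero z
  apply hD
  simpa using this

lemma range_koszulSyz (k : ℤ) : LinearMap.range (koszulSyz X k) = LinearMap.ker (koszulMap X k) := by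
  apply le_antisymm
  · rintro _ ⟨C, rfl⟩
    rw [LinearMap.mem_ker, koszulMap_apply, koszulSyz_fst, koszulSyz_snd]
    funext x z
    simp only [Pi.add_apply, Pi.neg_apply, fmul_apply, Pi.zero_apply]
    ring
  · rintro ⟨A, B⟩ hAB
    rw [LinearMap.mem_ker, koszulMap_apply] at hAB
    obtain ⟨C, hC, hA, hB⟩ := koszul_exact A.2 B.2 hAB
    refine ⟨⟨C, hC⟩, ?_⟩
    apply Prod.ext
    · apply Subtype.ext
      rw [koszulSyz_fst]
      exact hA.symm
    · apply Subtype.ext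
      rw [koszulSyz_snd]
      exact hB.symm

lemma finrank_decomposable_add (hfin : ∀ k, FiniteDimensional ℂ (VMF X k)) (k : ℤ) :
    Module.finrank ℂ (decomposable X k) + Module.finrank ℂ (VMF X (k - 10)) =
      Module.finrank ℂ (VMF X (k - 4)) + Module.finrank ℂ (VMF X (k - 6)) := by
  have := hfin (k - 4)
  have := hfin (k - 6)
  have h := LinearMap.finrank_range_add_finrank_ker (koszulMap X k)
  rw [range_koszulMap, ← range_koszulSyz, LinearMap.finrank_range_of_inj (koszulSyz_injective k),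
    Module.finrank_prod] at h
  exact h

lemma mgen_eq (hfin : ∀ k, FiniteDimensional ℂ (VMF X k)) (k : ℤ) :
    (mgen X k : ℤ) = (Module.finrank ℂ (VMF X k) : ℤ) - Module.finrank ℂ (VMF X (k - 4))
      - Module.finrank ℂ (VMF X (k - 6)) + Module.finrank ℂ (VMF X (k - 10)) := by
  have := hfin k
  have hle : Module.finrank ℂ (decomposable X k) ≤ Module.finrank ℂ (VMF X k) :=
    Submodule.finrank_mono (decomposable_le X k)
  have h := finrank_decomposable_add hfin k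
  rw [mgen]
  omega

end LinAlg

section Arith

lemma sum_range_koszul (d m : ℤ → ℤ)
    (hm : ∀ k, m k = d k - d (k - 4) - d (k - 6) + d (k - 10))
    (hneg : ∀ k, k < 0 → d k = 0) (K : ℕ) :
    ∑ k ∈ Finset.range (K + 1), m (k : ℤ) =
      d K + d (K - 1) + d (K - 2) + d (K - 3) - d (K - 6) - d (K - 7) - d (K - 8) - d (K - 9) := by
  induction K with
  | zero =>
    simp only [zero_add, Finset.range_one, Finset.sum_singleton, Nat.cast_zero, hm]
    rw [hneg (0 - 4) (by norm_num), hneg (0 - 6) (by norm_num), hneg (0 - 10) (by norm_num),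
      hneg (0 - 1) (by norm_num), hneg (0 - 2) (by norm_num), hneg (0 - 3) (by norm_num),
      hneg (0 - 7) (by norm_num), hneg (0 - 8) (by norm_num), hneg (0 - 9) (by norm_num)]
    ring
  | succ K ih =>
    rw [Finset.sum_range_succ, ih, hm]
    have e0 : ((K + 1 : ℕ) : ℤ) = (K : ℤ) + 1 := by push_cast; ring
    rw [e0]
    have e1 : (K : ℤ) + 1 - 1 = K := by ring
    have e2 : (K : ℤ) + 1 - 2 = K - 1 := by ring
    have e3 : (K : ℤ) + 1 - 3 = K - 2 := by ring
    have e4 : (K : ℤ) + 1 - 4 = K - 3 := by ring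
    have e6 : (K : ℤ) + 1 - 6 = K - 5 := by ring
    have e7 : (K : ℤ) + 1 - 7 = K - 6 := by ring
    have e8 : (K : ℤ) + 1 - 8 = K - 7 := by ring
    have e9 : (K : ℤ) + 1 - 9 = K - 8 := by ring
    have e10 : (K : ℤ) + 1 - 10 = K - 9 := by ring
    rw [e1, e2, e3, e4, e6, e7, e8, e9, e10]
    ring

lemma pair_le (d : ℤ → ℤ) (μ : ℤ) (hμ : 0 ≤ μ) (hC1 : ∀ k, d k ≤ d (k - 12) + μ)
    (hodd : ∀ k, Odd k → d k = 0) (a : ℤ) :
    (d a - d (a - 12)) + (d (a - 1) - d (a - 13)) ≤ μ := by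
  rcases Int.even_or_odd a with ha | ha
  · have h1 : Odd (a - 1) := ha.sub_odd odd_one
    have h2 : Odd (a - 13) := ha.sub_odd (by decide)
    rw [hodd _ h1, hodd _ h2]
    have := hC1 a
    linarith
  · have h2 : Odd (a - 12) := ha.sub_even (by decide)
    rw [hodd _ ha, hodd _ h2]
    have := hC1 (a - 1)
    have e : a - 1 - 12 = a - 13 := by ring
    rw [e] at this
    linarith

lemma sum_range_koszul_le (d m : ℤ → ℤ) (μ : ℤ) (hμ : 0 ≤ μ)
    (hm : ∀ k, m k = d k - d (k - 4) - d (k - 6) + d (k - 10))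
    (hm0 : ∀ k, 0 ≤ m k)
    (hneg : ∀ k, k < 0 → d k = 0) (hC1 : ∀ k, d k ≤ d (k - 12) + μ)
    (hodd : ∀ k, Odd k → d k = 0) (K : ℕ) :
    ∑ k ∈ Finset.range (K + 1), m (k : ℤ) ≤ μ := by
  have h1 := sum_range_koszul d m hm hneg K
  have h2 := sum_range_koszul d m hm hneg (K + 6)
  have hmono : ∑ k ∈ Finset.range (K + 1), m (k : ℤ) ≤ ∑ k ∈ Finset.range (K + 6 + 1), m (k : ℤ) := by
    apply Finset.sum_le_sum_of_subset_of_nonneg
    · intro x hx
      simp only [Finset.mem_range] at hx ⊢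
      omega
    · intro i _ _
      exact hm0 _
  have p1 := pair_le d μ hμ hC1 hodd ((K : ℤ) + 6)
  have p2 := pair_le d μ hμ hC1 hodd ((K : ℤ) + 4)
  have e0 : ((K + 6 : ℕ) : ℤ) = (K : ℤ) + 6 := by push_cast; ring
  rw [e0] at h2
  have a1 : (K : ℤ) + 6 - 1 = K + 5 := by ring
  have a2 : (K : ℤ) + 6 - 2 = K + 4 := by ring
  have a3 : (K : ℤ) + 6 - 3 = K + 3 := by ring
  have a6 : (K : ℤ) + 6 - 6 = K := by ring
  have a7 : (K : ℤ) + 6 - 7 = K - 1 := by ring
  have a8 : (K : ℤ) + 6 - 8 = K - 2 := by ring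
  have a9 : (K : ℤ) + 6 - 9 = K - 3 := by ring
  have a12 : (K : ℤ) + 6 - 12 = K - 6 := by ring
  have a13 : (K : ℤ) + 6 - 13 = K - 7 := by ring
  have b1 : (K : ℤ) + 4 - 1 = K + 3 := by ring
  have b12 : (K : ℤ) + 4 - 12 = K - 8 := by ring
  have b13 : (K : ℤ) + 4 - 13 = K - 9 := by ring
  rw [a1, a2, a3, a6, a7, a8, a9] at h2
  rw [a1, a12, a13] at p1
  rw [b1, b12, b13] at p2
  linarith

end Arith

theorem exists_bound_generators {X : Type} [Fintype X] [MulAction SL(2, ℤ) X]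
    (hfin : ∀ k, FiniteDimensional ℂ (VMF X k))
    (hC1 : ∀ k, Module.finrank ℂ (VMF X k) ≤ Module.finrank ℂ (VMF X (k - 12)) + Fintype.card X)
    (hneg : ∀ k : ℤ, k < 0 → VMF X k = ⊥) (hodd : ∀ k : ℤ, Odd k → VMF X k = ⊥) :
    ∃ K0 : ℕ, (∀ k : ℤ, (K0 : ℤ) < k → mgen X k = 0) ∧
      ∑ k ∈ Finset.range (K0 + 1), mgen X (k : ℤ) ≤ Fintype.card X := by
  classical
  set M : ℕ → ℕ := fun K => ∑ k ∈ Finset.range (K + 1), mgen X (k : ℤ) with hM
  have hbound : ∀ K, M K ≤ Fintype.card X := by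
    intro K
    have h := sum_range_koszul_le (fun k => (Module.finrank ℂ (VMF X k) : ℤ))
      (fun k => (mgen X k : ℤ)) (Fintype.card X : ℤ) (by positivity)
      (fun k => mgen_eq hfin k) (fun k => by positivity)
      (fun k hk => by simp [hneg k hk])
      (fun k => by exact_mod_cast hC1 k)
      (fun k hk => by simp [hodd k hk]) K
    have h' : ((M K : ℕ) : ℤ) ≤ (Fintype.card X : ℤ) := by
      simpa [hM] using h
    exact_mod_cast h'
  have hmono : Monotone M := by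
    intro a b hab
    apply Finset.sum_le_sum_of_subset
    intro x hx
    simp only [Finset.mem_range] at hx ⊢
    omega
  have hbdd : BddAbove (Set.range M) := ⟨Fintype.card X, by rintro _ ⟨K, rfl⟩; exact hbound K⟩
  obtain ⟨K0, hK0⟩ := Nat.sSup_mem (Set.range_nonempty M) hbdd
  have hmax : ∀ K, M K ≤ M K0 := fun K => hK0 ▸ le_csSup hbdd ⟨K, rfl⟩
  refine ⟨K0, ?_, hbound K0⟩
  intro k hk
  obtain ⟨n, rfl⟩ : ∃ n : ℕ, k = (n : ℤ) := ⟨k.toNat, by omega⟩
  have hn : K0 < n := by exact_mod_cast hk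
  obtain ⟨n', rfl⟩ : ∃ n', n = n' + 1 := ⟨n - 1, by omega⟩
  have h1 : M (n' + 1) = M n' + mgen X ((n' + 1 : ℕ) : ℤ) := by
    simp only [hM]
    rw [Finset.sum_range_succ]
  have h2 : M K0 ≤ M n' := hmono (by omega)
  have h3 := hmax (n' + 1)
  omega

end

end Fermat.Agent.S20
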