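import Fermat.Agent.S20.FundSystem
import Fermat.Agent.S20.KoszulCount
import Fermat.Agent.S20.FundDim
import Fermat.Agent.S20.Elliptic
import Fermat.Agent.S20.Numerics

set_option autoImplicit false

namespace Fermat.Agent.S20

open UpperHalfPlane ModularForm EisensteinSeries
open scoped MatrixGroups ModularForm Manifold

noncomputable section

variable {X : Type} [Fintype X] [DecidableEq X] [MulAction SL(2, ℤ) X]

/-- Existence of a fundamental system. -/
theorem exists_isFundSystem [MulAction.IsPretransitive SL(2, ℤ) X]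
    (hneg1 : ∀ x : X, (-1 : SL(2, ℤ)) • x = x)
    (hsep : ∃ (w : ℤ) (H : X → ℍ → ℂ), H ∈ VMF X w ∧ Function.Injective H)
    (hfin : ∀ k, FiniteDimensional ℂ (VMF X k))
    (hC1 : ∀ k, Module.finrank ℂ (VMF X k) ≤ Module.finrank ℂ (VMF X (k - 12)) + Fintype.card X) :
    ∃ (κ : X → ℤ) (F : X → X → ℍ → ℂ), IsFundSystem κ F := by
  have hneg : ∀ k : ℤ, k < 0 → VMF X k = ⊥ := fun k hk =>
    (Submodule.eq_bot_iff _).mpr fun G hG => VMF_eq_zero_of_neg hk hG
  have hodd : ∀ k : ℤ, Odd k → VMF X k = ⊥ := fun k hk =>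
    (Submodule.eq_bot_iff _).mpr fun G hG => VMF_eq_zero_of_odd hneg1 hk hG
  exact exists_isFundSystem_of_bound hfin hneg (exists_bound_generators hfin hC1 hneg hodd) hsep

omit [Fintype X] [DecidableEq X] [MulAction SL(2, ℤ) X] in
/-- The numerical identity (version of `numerics` with the cusp relation only in even weights). -/
theorem numerics' {X : Type*} [Fintype X] (κ : X → ℤ) (hκ : ∀ j, Even (κ j))
    (s₂ c ν₂ ν₃ : ℕ) {ζ : ℂ} (hζ : ζ ^ 2 - ζ + 1 = 0)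
    (h0 : ∑ j, δ (-κ j) = 1)
    (h2 : s₂ = ∑ j, δ (κ j - 10))
    (hc : ∃ K₀ : ℤ, ∀ K ≥ K₀, Even K → ∑ j, δ (K - κ j) = ∑ j, δ (K + κ j - 12) + c)
    (he2 : ∑ j, Complex.I ^ (-κ j) = (ν₂ : ℂ))
    (he3 : ∑ j, ζ ^ (-κ j) = (ν₃ : ℂ)) :
    (s₂ : ℚ) = 1 + (Fintype.card X : ℚ) / 12 - (ν₂ : ℚ) / 4 - (ν₃ : ℚ) / 3 - (c : ℚ) / 2 := by
  have hκ' : ∀ j, κ j % 2 = 0 := fun j => Int.even_iff.mp (hκ j)
  obtain ⟨K₀, hK₀⟩ := hc
  -- choose `m` large
  obtain ⟨B, hB⟩ : ∃ B : ℤ, ∀ j, |κ j| ≤ B := by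
    refine ⟨∑ j, |κ j|, fun j => ?_⟩
    exact Finset.single_le_sum (f := fun j => |κ j|) (fun i _ => abs_nonneg _) (Finset.mem_univ j)
  set m : ℤ := |K₀| + B + 12 with hm
  have hB0 : 0 ≤ B ∨ IsEmpty X := by
    by_cases hX : IsEmpty X
    · exact Or.inr hX
    · rw [not_isEmpty_iff] at hX
      obtain ⟨j⟩ := hX
      exact Or.inl ((abs_nonneg _).trans (hB j))
  have hmK : ∀ j, |κ j| + 12 ≤ 12 * m := by
    intro j
    have := hB j
    have h3 := abs_nonneg K₀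
    have h4 := abs_nonneg (κ j)
    omega
  have hsum : ∑ j, (12 * ((δ (κ j - 10) : ℤ) - δ (-κ j)) +
      6 * ((δ (12 * m - κ j) : ℤ) - δ (12 * m + κ j - 12))) =
      ∑ j, (1 - 3 * aTwo (κ j) - 2 * bThree (κ j)) :=
    Finset.sum_congr rfl fun j _ => δ_identity (κ j) (hκ' j) m (hmK j)
  have ha : (∑ j, aTwo (κ j) : ℤ) = ν₂ := by
    have h := congrArg Complex.re he2
    rw [Complex.re_sum] at h
    simp only [I_zpow_neg_re _ (hκ' _), Complex.natCast_re] at h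
    exact_mod_cast h
  have hb : (∑ j, bThree (κ j) : ℤ) = 2 * ν₃ := by
    have h := congrArg Complex.re he3
    rw [Complex.re_sum] at h
    have h' : (∑ j, (bThree (κ j) : ℝ)) = 2 * (ν₃ : ℝ) := by
      rw [← Complex.natCast_re, ← h, Finset.mul_sum]
      exact Finset.sum_congr rfl fun j _ => (sixth_root_zpow_neg_re hζ _ (hκ' j)).symm
    exact_mod_cast h'
  have hcK : (∑ j, (δ (12 * m - κ j) : ℤ)) = ∑ j, (δ (12 * m + κ j - 12) : ℤ) + c := by
    rcases hB0 with hB0 | hX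
    · have := hK₀ (12 * m) (by have := le_abs_self K₀; have := abs_nonneg K₀; omega)
        ⟨6 * m, by ring⟩
      exact_mod_cast this
    · exfalso
      simp at h0
  have h0' : (∑ j, (δ (-κ j) : ℤ)) = 1 := by exact_mod_cast h0
  have h2' : (s₂ : ℤ) = ∑ j, (δ (κ j - 10) : ℤ) := by exact_mod_cast h2
  simp only [Finset.sum_add_distrib, Finset.sum_sub_distrib, ← Finset.mul_sum, Finset.sum_const,
    Finset.card_univ, nsmul_eq_mul, mul_one] at hsum
  rw [ha, hb, hcK, h0', ← h2'] at hsum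
  have hfin : (12 * ((s₂ : ℚ) - 1) + 6 * (c : ℚ)) = (Fintype.card X : ℚ) - 3 * ν₂ - 2 * (2 * ν₃) := by
    have : (12 * ((s₂ : ℤ) - 1) + 6 * (c : ℤ)) = (Fintype.card X : ℤ) - 3 * ν₂ - 2 * (2 * ν₃) := by
      linarith
    exact_mod_cast this
  linarith


/-- The abstract dimension formula, from a fundamental system and the two cusp statements. -/
theorem dim_formula_of_isFundSystem [Nonempty X] [MulAction.IsPretransitive SL(2, ℤ) X]
    (hneg1 : ∀ x : X, (-1 : SL(2, ℤ)) • x = x)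
    {κ : X → ℤ} {F : X → X → ℍ → ℂ} (h : IsFundSystem κ F)
    (hVCF : ∀ k : ℤ, Module.finrank ℂ (VCF X k) = ∑ j, δ (k + κ j - 12))
    (hcusp : ∃ K₀ : ℤ, ∀ K ≥ K₀, Even K → Module.finrank ℂ (VMF X K) = Module.finrank ℂ (VCF X K) +
      Nat.card (MulAction.orbitRel.Quotient (Subgroup.zpowers ModularGroup.T) X)) :
    (Module.finrank ℂ (VCF X 2) : ℚ) = 1 + (Fintype.card X : ℚ) / 12
      - (Nat.card (MulAction.fixedBy X ModularGroup.S) : ℚ) / 4
      - (Nat.card (MulAction.fixedBy X (ModularGroup.S * ModularGroup.T)) : ℚ) / 3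
      - (Nat.card (MulAction.orbitRel.Quotient (Subgroup.zpowers ModularGroup.T) X) : ℚ) / 2 := by
  refine numerics' κ (h.even hneg1) _ _ _ _ (ζ := (rhoPt : ℂ) + 1) ?_ ?_ ?_ ?_
    (sum_I_zpow_eq_card_fixedBy_S h) (sum_rho_zpow_eq_card_fixedBy_ST h)
  · linear_combination rhoPt_sq
  · have := finrank_VMF_eq h 0
    rw [finrank_VMF_zero] at this
    simpa using this.symm
  · rw [hVCF 2]
    exact Finset.sum_congr rfl fun j _ => by congr 1; ring
  · obtain ⟨K₀, hK₀⟩ := hcusp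
    refine ⟨K₀, fun K hK hKe => ?_⟩
    rw [← finrank_VMF_eq h K, ← hVCF K]
    exact hK₀ K hK hKe

end

end Fermat.Agent.S20
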