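import Fermat.Agent.S20.Defs

/-!
S20, package G2: a vector valued modular form on `SL(2,ℤ) ⧸ Γ₀(N)` with pairwise distinct
components, built from `E₄ ∣ diag(N,1)`.
-/

set_option autoImplicit false

namespace Fermat.Agent.S20

open UpperHalfPlane ModularForm EisensteinSeries Filter Topology
open scoped MatrixGroups ModularForm Manifold

noncomputable section

lemma tendsto_E4 : Tendsto (E₄ : ℍ → ℂ) atImInfty (𝓝 1) := by
  have hper : (1 : ℝ) ∈ (𝒮ℒ : Subgroup (GL (Fin 2) ℝ)).strictPeriods := one_mem_strictPeriods_SL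
  have han := ModularFormClass.analyticAt_cuspFunction_zero (E₄) one_pos hper
  have hp := SlashInvariantFormClass.periodic_comp_ofComplex (E₄) hper
  have h0 : cuspFunction 1 (E₄ : ℍ → ℂ) 0 = 1 := by
    rw [cuspFunction_apply_zero one_pos han hp, ← qExpansion_coeff_zero one_pos han hp]
    exact E_qExpansion_coeff_zero _ ⟨2, rfl⟩
  have : (cuspFunction 1 (E₄ : ℍ → ℂ) ∘ fun τ : ℍ ↦ Function.Periodic.qParam 1 τ : ℍ → ℂ) = E₄ := by
    funext τ
    simpa using eq_cuspFunction τ one_ne_zero hp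
  have h2 := han.continuousAt.tendsto.comp (qParam_tendsto_atImInfty one_pos)
  rw [this, h0] at h2
  exact h2

/-- upper triangular matrix in `GL(2,ℝ)`. -/
def upT (a b d : ℝ) (had : a * d ≠ 0) : GL (Fin 2) ℝ :=
  Matrix.GeneralLinearGroup.mkOfDetNeZero !![a, b; 0, d]
    (by rwa [Matrix.det_fin_two_of, mul_zero, sub_zero])

lemma tendsto_slash_upT {f : ℍ → ℂ} {L : ℂ} (hf : Tendsto f atImInfty (𝓝 L)) (k : ℤ)
    {a b d : ℝ} (ha : 0 < a) (hd : 0 < d) :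
    Tendsto (f ∣[k] upT a b d (mul_pos ha hd).ne') atImInfty
      (𝓝 (L * ((a * d : ℝ) : ℂ) ^ (k - 1) * ((d : ℝ) : ℂ) ^ (-k))) := by
  have h1 : Tendsto (fun τ : ℍ => upT a b d (mul_pos ha hd).ne' • τ) atImInfty atImInfty :=
    tendsto_smul_atImInfty (by simp [upT])
  have hdet : (upT a b d (mul_pos ha hd).ne').det.val = a * d := by
    simp [upT, Matrix.GeneralLinearGroup.mkOfDetNeZero, Matrix.det_fin_two_of]
  have h2 : (f ∣[k] upT a b d (mul_pos ha hd).ne') = fun τ : ℍ =>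
      f (upT a b d (mul_pos ha hd).ne' • τ) * ((a * d : ℝ) : ℂ) ^ (k - 1) * ((d : ℝ) : ℂ) ^ (-k) := by
    funext τ
    rw [ModularForm.slash_apply, hdet]
    have hσ : σ (upT a b d (mul_pos ha hd).ne') = .refl ℝ ℂ := by
      rw [UpperHalfPlane.σ, if_pos (by rw [hdet]; exact mul_pos ha hd)]
    rw [hσ, abs_of_pos (mul_pos ha hd)]
    simp [UpperHalfPlane.denom, upT]
  rw [h2]
  exact ((hf.comp h1).mul_const _).mul_const _

lemma hermite_int (N : ℤ) (hN : 0 < N) (γ : SL(2, ℤ)) :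
    ∃ (γ' : SL(2, ℤ)) (a b d : ℤ), 0 < a ∧ 0 < d ∧ a * d = N ∧ a ∣ γ 1 0 ∧
      N * γ 0 0 = γ' 0 0 * a ∧ N * γ 0 1 = γ' 0 0 * b + γ' 0 1 * d ∧
      γ 1 0 = γ' 1 0 * a ∧ γ 1 1 = γ' 1 0 * b + γ' 1 1 * d := by
  have hdet : γ 0 0 * γ 1 1 - γ 0 1 * γ 1 0 = 1 := by
    have := γ.det_coe
    rwa [Matrix.det_fin_two] at this
  set A := γ 0 0
  set B := γ 0 1
  set C := γ 1 0
  set D := γ 1 1
  set g : ℤ := (Int.gcd (N * A) C : ℤ) with hg
  have hgNA : g ∣ N * A := Int.gcd_dvd_left _ _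
  have hgC : g ∣ C := Int.gcd_dvd_right _ _
  have hgN : g ∣ N := by
    have : N = (N * A) * D - C * (N * B) := by linear_combination (-N) * hdet
    rw [this]
    exact dvd_sub (hgNA.mul_right _) (hgC.mul_right _)
  have hg0 : g ≠ 0 := fun h => hN.ne' (by simpa [h] using hgN)
  have hgpos : 0 < g := lt_of_le_of_ne (by positivity) hg0.symm
  obtain ⟨x, hx⟩ := hgNA
  obtain ⟨y, hy⟩ := hgC
  obtain ⟨d, hd⟩ := hgN
  have hcop : IsCoprime x y := by
    obtain ⟨r, s, hrs⟩ : ∃ r s : ℤ, g = (N * A) * r + C * s := ⟨_, _, Int.gcd_eq_gcd_ab _ _⟩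
    refine ⟨r, s, ?_⟩
    apply mul_left_cancel₀ hg0
    rw [hx, hy] at hrs
    linear_combination -hrs
  obtain ⟨γ', h00, h10⟩ := hcop.exists_SL2_col 0
  have hdet' : γ' 0 0 * γ' 1 1 - γ' 0 1 * γ' 1 0 = 1 := by
    have := γ'.det_coe
    rwa [Matrix.det_fin_two] at this
  rw [h00, h10] at hdet'
  have hdpos : 0 < d := by
    by_contra h
    have h' : d ≤ 0 := not_lt.mp h
    have : g * d ≤ 0 := mul_nonpos_of_nonneg_of_nonpos hgpos.le h'
    omega
  have key : y * N * B - x * D + d = 0 := by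
    apply mul_left_cancel₀ hg0
    have e1 : g * (y * N * B - x * D + d) = (g * y) * N * B - (g * x) * D + g * d := by ring
    rw [e1, ← hx, ← hy, ← hd]
    linear_combination (-N) * hdet
  refine ⟨γ', g, γ' 1 1 * N * B - γ' 0 1 * D, d, hgpos, hdpos, hd.symm, ⟨y, hy⟩, ?_, ?_, ?_, ?_⟩
  · rw [h00, hx]; ring
  · rw [h00]; linear_combination (-N * B) * hdet' - (γ' 0 1) * key
  · rw [h10, hy]; ring
  · rw [h10]; linear_combination (-D) * hdet' - (γ' 1 1) * key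

lemma hermite (N : ℕ) (hN : 0 < N) (γ : SL(2, ℤ)) :
    ∃ (γ' : SL(2, ℤ)) (a b d : ℤ) (ha : 0 < (a : ℝ)) (hd : 0 < (d : ℝ)), a * d = N ∧ a ∣ γ 1 0 ∧
      upT N 0 1 (by simpa using hN.ne') * (γ : GL (Fin 2) ℝ) =
        (γ' : GL (Fin 2) ℝ) * upT a b d (mul_pos ha hd).ne' := by
  obtain ⟨γ', a, b, d, ha, hd, had, hdvd, h1, h2, h3, h4⟩ := hermite_int N (by exact_mod_cast hN) γ
  refine ⟨γ', a, b, d, by exact_mod_cast ha, by exact_mod_cast hd, had, hdvd, ?_⟩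
  ext i j
  fin_cases i <;> fin_cases j <;>
    simp [upT, Matrix.mul_apply, Fin.sum_univ_two]
  · exact_mod_cast h1
  · exact_mod_cast h2
  · exact_mod_cast h3
  · exact_mod_cast h4

lemma E4_slash_SL (γ : SL(2, ℤ)) : (E₄ : ℍ → ℂ) ∣[(4 : ℤ)] (γ : GL (Fin 2) ℝ) = E₄ :=
  SlashInvariantFormClass.slash_action_eq E₄ _ ⟨γ, rfl⟩

/-- `E₄ ∣ diag(N,1)`, i.e. `N³ E₄(N z)`. -/
def levelForm (N : ℕ) [NeZero N] : ℍ → ℂ :=
  (E₄ : ℍ → ℂ) ∣[(4 : ℤ)] upT N 0 1 (by simpa using NeZero.ne N)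

lemma mdiff_levelForm_slash (N : ℕ) [NeZero N] (γ : SL(2, ℤ)) :
    MDiff (levelForm N ∣[(4 : ℤ)] γ) :=
  ((ModularFormClass.holo E₄).slash 4 _).slash 4 _

lemma levelForm_slash (N : ℕ) [NeZero N] (γ : SL(2, ℤ)) :
    ∃ (a b d : ℤ) (ha : 0 < (a : ℝ)) (hd : 0 < (d : ℝ)), a * d = N ∧ a ∣ γ 1 0 ∧
      levelForm N ∣[(4 : ℤ)] γ = (E₄ : ℍ → ℂ) ∣[(4 : ℤ)] upT a b d (mul_pos ha hd).ne' := by
  obtain ⟨γ', a, b, d, ha, hd, had, hdvd, h⟩ := hermite N (NeZero.pos N) γ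
  refine ⟨a, b, d, ha, hd, had, hdvd, ?_⟩
  rw [levelForm, ModularForm.SL_slash, ← SlashAction.slash_mul, h, SlashAction.slash_mul,
    E4_slash_SL]

lemma tendsto_levelForm_slash (N : ℕ) [NeZero N] (γ : SL(2, ℤ)) :
    ∃ (a d : ℤ), 0 < a ∧ 0 < d ∧ a * d = N ∧ a ∣ γ 1 0 ∧
      Tendsto (levelForm N ∣[(4 : ℤ)] γ) atImInfty (𝓝 ((N : ℂ) ^ 3 / (d : ℂ) ^ 4)) := by
  obtain ⟨a, b, d, ha, hd, had, hdvd, h⟩ := levelForm_slash N γ
  refine ⟨a, d, by exact_mod_cast ha, by exact_mod_cast hd, had, hdvd, ?_⟩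
  rw [h]
  have := tendsto_slash_upT (b := b) tendsto_E4 4 ha hd
  convert this using 2
  have e : ((a : ℝ) * (d : ℝ) : ℝ) = (N : ℝ) := by exact_mod_cast had
  rw [e]
  simp [div_eq_mul_inv, zpow_neg]

lemma isBoundedAtImInfty_levelForm_slash (N : ℕ) [NeZero N] (γ : SL(2, ℤ)) :
    IsBoundedAtImInfty (levelForm N ∣[(4 : ℤ)] γ) := by
  obtain ⟨a, d, -, -, -, -, h⟩ := tendsto_levelForm_slash N γ
  exact h.isBigO_one ℝ

lemma tendsto_levelForm (N : ℕ) [NeZero N] :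
    Tendsto (levelForm N) atImInfty (𝓝 ((N : ℂ) ^ 3)) := by
  have := tendsto_slash_upT (a := N) (b := 0) (d := 1) tendsto_E4 4
    (by exact_mod_cast NeZero.pos N) one_pos
  simpa [levelForm] using this

lemma levelForm_slash_of_mem (N : ℕ) [NeZero N] {γ : SL(2, ℤ)}
    (hγ : γ ∈ CongruenceSubgroup.Gamma0 N) : levelForm N ∣[(4 : ℤ)] γ = levelForm N := by
  rw [CongruenceSubgroup.Gamma0_mem, ZMod.intCast_zmod_eq_zero_iff_dvd] at hγ
  obtain ⟨c, hc⟩ := hγ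
  have hdet : γ 0 0 * γ 1 1 - γ 0 1 * γ 1 0 = 1 := by
    have := γ.det_coe
    rwa [Matrix.det_fin_two] at this
  obtain ⟨γ', e00, e01, e10, e11⟩ : ∃ γ' : SL(2, ℤ), γ' 0 0 = γ 0 0 ∧ γ' 0 1 = N * γ 0 1 ∧
      γ' 1 0 = c ∧ γ' 1 1 = γ 1 1 :=
    ⟨⟨!![γ 0 0, N * γ 0 1; c, γ 1 1], by
      rw [Matrix.det_fin_two_of]; rw [hc] at hdet; linear_combination hdet⟩, rfl, rfl, rfl, rfl⟩
  have h : upT N 0 1 (by simpa using NeZero.ne N) * (γ : GL (Fin 2) ℝ) =
      (γ' : GL (Fin 2) ℝ) * upT N 0 1 (by simpa using NeZero.ne N) := by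
    ext i j
    fin_cases i <;> fin_cases j <;>
      simp [upT, Matrix.mul_apply, Fin.sum_univ_two, e00, e01, e10, e11, hc]
    · ring
    · ring
  rw [levelForm, ModularForm.SL_slash, ← SlashAction.slash_mul, h, SlashAction.slash_mul,
    E4_slash_SL]

lemma mem_of_levelForm_slash (N : ℕ) [NeZero N] {γ : SL(2, ℤ)}
    (hγ : levelForm N ∣[(4 : ℤ)] γ = levelForm N) : γ ∈ CongruenceSubgroup.Gamma0 N := by
  obtain ⟨a, d, ha, hd, had, hdvd, h⟩ := tendsto_levelForm_slash N γ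
  rw [hγ] at h
  have heq := tendsto_nhds_unique h (tendsto_levelForm N)
  have hN : (N : ℂ) ≠ 0 := by exact_mod_cast NeZero.ne N
  have hd0 : (d : ℂ) ≠ 0 := by exact_mod_cast hd.ne'
  have h4 : (d : ℂ) ^ 4 = 1 := by
    field_simp at heq
    exact heq.symm
  have h4' : d ^ 4 = 1 := by exact_mod_cast h4
  have hd1 : d = 1 := by
    rcases (pow_eq_one_iff_of_ne_zero (by norm_num : (4 : ℕ) ≠ 0)).mp h4' with h | h
    · exact h
    · omega
  rw [hd1, mul_one] at had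
  rw [CongruenceSubgroup.Gamma0_mem, ZMod.intCast_zmod_eq_zero_iff_dvd, ← had]
  exact hdvd

/-- The vector valued form with components `levelForm N ∣ g⁻¹`. -/
def sepForm (N : ℕ) [NeZero N] (q : SL(2, ℤ) ⧸ CongruenceSubgroup.Gamma0 N) : ℍ → ℂ :=
  Quotient.liftOn' q (fun g => levelForm N ∣[(4 : ℤ)] g⁻¹) (by
    intro x y hxy
    rw [QuotientGroup.leftRel_apply] at hxy
    have : y⁻¹ = (x⁻¹ * y)⁻¹ * x⁻¹ := by group
    show levelForm N ∣[(4 : ℤ)] x⁻¹ = levelForm N ∣[(4 : ℤ)] y⁻¹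
    rw [this, SlashAction.slash_mul, levelForm_slash_of_mem N (inv_mem hxy)])

@[simp] lemma sepForm_mk (N : ℕ) [NeZero N] (g : SL(2, ℤ)) :
    sepForm N (g : SL(2, ℤ) ⧸ CongruenceSubgroup.Gamma0 N) = levelForm N ∣[(4 : ℤ)] g⁻¹ := rfl

lemma sepForm_mem_VMF (N : ℕ) [NeZero N] :
    sepForm N ∈ VMF (SL(2, ℤ) ⧸ CongruenceSubgroup.Gamma0 N) 4 := by
  refine ⟨fun x => ?_, fun x => ?_, fun x g => ?_⟩
  · induction x using QuotientGroup.induction_on with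
    | H x => exact mdiff_levelForm_slash N _
  · induction x using QuotientGroup.induction_on with
    | H x => exact isBoundedAtImInfty_levelForm_slash N _
  · induction x using QuotientGroup.induction_on with
    | H x =>
      rw [MulAction.Quotient.smul_coe, sepForm_mk, sepForm_mk, ← SlashAction.slash_mul]
      congr 1
      simp

lemma sepForm_injective (N : ℕ) [NeZero N] : Function.Injective (sepForm N) := by
  intro x y hxy
  induction x using QuotientGroup.induction_on with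
  | H x =>
    induction y using QuotientGroup.induction_on with
    | H y =>
      rw [sepForm_mk, sepForm_mk] at hxy
      rw [QuotientGroup.eq]
      apply mem_of_levelForm_slash
      rw [SlashAction.slash_mul, hxy, ← SlashAction.slash_mul]
      simp

/-- Package G2. -/
theorem exists_separating (N : ℕ) [NeZero N] :
    ∃ (w : ℤ) (H : SL(2, ℤ) ⧸ CongruenceSubgroup.Gamma0 N → ℍ → ℂ),
      H ∈ VMF (SL(2, ℤ) ⧸ CongruenceSubgroup.Gamma0 N) w ∧ Function.Injective H :=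
  ⟨4, sepForm N, sepForm_mem_VMF N, sepForm_injective N⟩

end

end Fermat.Agent.S20
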