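import Fermat.Agent.S20.P1Basic

set_option autoImplicit false

open scoped MatrixGroups
open CongruenceSubgroup ModularCurve

namespace Fermat.Agent.S20.P1

/-- unimodular vectors -/
abbrev Uni (R : Type*) [CommRing R] := {v : R × R // IsCoprime v.1 v.2}

theorem card_uni_eq (N : ℕ) [NeZero N] :
    Nat.card (Uni (ZMod N)) = Nat.card (SL(2, ℤ) ⧸ Gamma0 N) * N.totient := by
  rw [← ZMod.card_units_eq_totient, ← Nat.card_eq_fintype_card, ← Nat.card_prod]
  symm
  refine Nat.card_congr (Equiv.ofBijective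
    (fun x => ⟨((x.2 : ZMod N) * colA N x.1.out, (x.2 : ZMod N) * colC N x.1.out), ?_⟩) ⟨?_, ?_⟩)
  · exact (isCoprime_mul_unit_left x.2.isUnit _ _).mpr (isCoprime_col N _)
  · rintro ⟨x, u⟩ ⟨y, v⟩ h
    have h1 := Subtype.ext_iff.mp h
    simp only [Prod.mk.injEq] at h1
    obtain ⟨h1, h2⟩ := h1
    have hxy : x = y := by
      rw [← QuotientGroup.out_eq' x, ← QuotientGroup.out_eq' y, mk_eq_mk_iff]
      have : (u : ZMod N) * (colA N x.out * colC N y.out - colC N x.out * colA N y.out) = 0 := by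
        linear_combination (colC N y.out) * h1 - (colA N y.out) * h2
      exact (Units.mul_right_eq_zero u).mp this
    subst hxy
    obtain ⟨s, t, hst⟩ := isCoprime_col N x.out
    have : (u : ZMod N) = v := by
      linear_combination (-(u : ZMod N) + v) * hst + s * h1 + t * h2
    rw [Units.ext this]
  · rintro ⟨⟨a, c⟩, hac⟩
    obtain ⟨g, hg1, hg2⟩ := exists_col_eq hac
    have hx : (QuotientGroup.mk (QuotientGroup.mk g : SL(2, ℤ) ⧸ Gamma0 N).out : SL(2, ℤ) ⧸ Gamma0 N)
        = QuotientGroup.mk g := QuotientGroup.out_eq' _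
    rw [mk_eq_mk_iff] at hx
    obtain ⟨u, hu1, hu2⟩ := exists_unit_smul_of_det_eq_zero (isCoprime_col N _) (isCoprime_col N g) hx
    refine ⟨⟨QuotientGroup.mk g, u⟩, ?_⟩
    apply Subtype.ext
    simp only [Prod.mk.injEq]
    exact ⟨by rw [← hu1, hg1], by rw [← hu2, hg2]⟩

theorem isCoprime_prod_iff {A B : Type*} [CommRing A] [CommRing B] (x y : A × B) :
    IsCoprime x y ↔ IsCoprime x.1 y.1 ∧ IsCoprime x.2 y.2 := by
  constructor
  · intro h
    exact ⟨h.map (RingHom.fst A B), h.map (RingHom.snd A B)⟩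
  · rintro ⟨⟨a, b, hab⟩, ⟨c, d, hcd⟩⟩
    exact ⟨(a, c), (b, d), Prod.ext hab hcd⟩

theorem isCoprime_ringEquiv_iff {R S : Type*} [CommRing R] [CommRing S] (e : R ≃+* S) (x y : R) :
    IsCoprime (e x) (e y) ↔ IsCoprime x y := by
  constructor
  · intro h
    have := h.map (e.symm : S →+* R)
    simpa using this
  · intro h
    exact h.map (e : R →+* S)

theorem card_uni_of_ringEquiv {R A B : Type*} [CommRing R] [CommRing A] [CommRing B]
    (e : R ≃+* A × B) : Nat.card (Uni R) = Nat.card (Uni A) * Nat.card (Uni B) := by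
  rw [← Nat.card_prod]
  refine Nat.card_congr ?_
  refine Equiv.trans ?_ (Equiv.subtypeProdEquivProd (p := fun v : A × A => IsCoprime v.1 v.2)
    (q := fun v : B × B => IsCoprime v.1 v.2))
  refine Equiv.subtypeEquiv ((Equiv.prodCongr e.toEquiv e.toEquiv).trans
    (Equiv.prodProdProdComm A B A B)) ?_
  rintro ⟨a, c⟩
  simp only [Equiv.trans_apply, Equiv.prodCongr_apply, Prod.map_apply, Equiv.prodProdProdComm_apply]
  rw [← isCoprime_ringEquiv_iff e, isCoprime_prod_iff]
  rfl

theorem card_uni_mul {m n : ℕ} (h : m.Coprime n) :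
    Nat.card (Uni (ZMod (m * n))) = Nat.card (Uni (ZMod m)) * Nat.card (Uni (ZMod n)) :=
  card_uni_of_ringEquiv (ZMod.chineseRemainder h)

theorem isCoprime_zmod_prime_pow_iff {p k : ℕ} (hp : p.Prime) (a c : ZMod (p ^ (k + 1))) :
    IsCoprime a c ↔ IsUnit a ∨ IsUnit c := by
  have : NeZero (p ^ (k + 1)) := ⟨pow_ne_zero _ hp.ne_zero⟩
  constructor
  · intro h
    by_contra hcon
    push Not at hcon
    obtain ⟨h1, h2⟩ := hcon
    have key : ∀ x : ZMod (p ^ (k + 1)), ¬ IsUnit x → p ∣ x.val := by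
      intro x hx
      rw [← ZMod.natCast_zmod_val x, ZMod.isUnit_iff_coprime] at hx
      by_contra hpx
      exact hx (Nat.Coprime.pow_right _ ((Nat.Prime.coprime_iff_not_dvd hp).mpr hpx).symm)
    have h3 : a.val.Coprime ((p ^ (k + 1)).gcd c.val) := by
      apply coprime_gcd_of_isCoprime (N := p ^ (k + 1))
      simpa using h
    have h4 : p ∣ a.val.gcd ((p ^ (k + 1)).gcd c.val) :=
      Nat.dvd_gcd (key a h1) (Nat.dvd_gcd (dvd_pow_self p (Nat.succ_ne_zero k)) (key c h2))
    rw [h3] at h4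
    exact hp.one_lt.ne' (Nat.dvd_one.mp h4)
  · rintro (h | h)
    · obtain ⟨u, rfl⟩ := h
      exact ⟨↑u⁻¹, 0, by simp⟩
    · obtain ⟨u, rfl⟩ := h
      exact ⟨0, ↑u⁻¹, by simp⟩

theorem card_nonunits_zmod (N : ℕ) [NeZero N] :
    Nat.card {x : ZMod N // ¬ IsUnit x} + N.totient = N := by
  classical
  have h1 : Nat.card {x : ZMod N // IsUnit x} = N.totient := by
    rw [← ZMod.card_units_eq_totient, ← Nat.card_eq_fintype_card]
    exact Nat.card_congr (Submonoid.unitsTypeEquivIsUnitSubmonoid (M := ZMod N)).toEquiv.symm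
  have h2 := Fintype.card_subtype_compl (fun x : ZMod N => IsUnit x)
  rw [ZMod.card, ← Nat.card_eq_fintype_card, ← Nat.card_eq_fintype_card, h1] at h2
  have h3 : N.totient ≤ N := Nat.totient_le N
  omega

theorem card_uni_prime_pow {p k : ℕ} (hp : p.Prime) :
    Nat.card (Uni (ZMod (p ^ (k + 1)))) + (p ^ k) ^ 2 = (p ^ (k + 1)) ^ 2 := by
  classical
  have : NeZero (p ^ (k + 1)) := ⟨pow_ne_zero _ hp.ne_zero⟩
  have h0 := card_nonunits_zmod (p ^ (k + 1))
  rw [Nat.totient_prime_pow_succ hp] at h0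
  have h1 : Nat.card {x : ZMod (p ^ (k + 1)) // ¬ IsUnit x} = p ^ k := by
    have : p ^ (k + 1) = p ^ k * (p - 1) + p ^ k := by
      obtain ⟨q, rfl⟩ : ∃ q, p = q + 1 := ⟨p - 1, by have := hp.pos; omega⟩
      simp; ring
    omega
  have h2 := Fintype.card_subtype_compl
    (fun v : ZMod (p ^ (k + 1)) × ZMod (p ^ (k + 1)) => IsCoprime v.1 v.2)
  have h3 : Nat.card {v : ZMod (p ^ (k + 1)) × ZMod (p ^ (k + 1)) // ¬ IsCoprime v.1 v.2} = (p ^ k) ^ 2 := by
    rw [sq, ← h1, ← Nat.card_prod]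
    refine Nat.card_congr (Equiv.trans (Equiv.subtypeEquivRight ?_) (Equiv.subtypeProdEquivProd
      (p := fun x : ZMod (p ^ (k + 1)) => ¬ IsUnit x) (q := fun x : ZMod (p ^ (k + 1)) => ¬ IsUnit x)))
    intro v
    rw [isCoprime_zmod_prime_pow_iff hp]
    push Not
    rfl
  rw [Fintype.card_prod, ZMod.card, ← Nat.card_eq_fintype_card, ← Nat.card_eq_fintype_card, h3] at h2
  have h4 : Nat.card (Uni (ZMod (p ^ (k + 1)))) ≤ p ^ (k + 1) * p ^ (k + 1) := by
    have := Fintype.card_subtype_le (fun v : ZMod (p ^ (k + 1)) × ZMod (p ^ (k + 1)) => IsCoprime v.1 v.2)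
    rw [Fintype.card_prod, ZMod.card, ← Nat.card_eq_fintype_card] at this
    exact this
  rw [sq (p ^ (k + 1))]
  have h5 : Nat.card (Uni (ZMod (p ^ (k + 1)))) =
    Nat.card {v : ZMod (p ^ (k + 1)) × ZMod (p ^ (k + 1)) // IsCoprime v.1 v.2} := rfl
  omega

open ArithmeticFunction in
/-- indicator of squarefree numbers -/
def sqf : ArithmeticFunction ℕ := ⟨fun n => if Squarefree n then 1 else 0, by simp⟩

theorem sqf_isMultiplicative : sqf.IsMultiplicative := by
  refine ⟨by simp [sqf], ?_⟩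
  intro m n hmn
  simp only [sqf, ArithmeticFunction.coe_mk]
  have h := Nat.squarefree_mul hmn
  by_cases h1 : Squarefree m <;> by_cases h2 : Squarefree n <;> simp [h, h1, h2]

theorem dedekindPsi_eq (n : ℕ) : dedekindPsi n = (sqf * ArithmeticFunction.id) n := by
  rw [ArithmeticFunction.mul_apply, Nat.sum_divisorsAntidiagonal (f := fun d e => sqf d * ArithmeticFunction.id e)]
  unfold dedekindPsi
  rw [Finset.sum_filter]
  refine Finset.sum_congr rfl fun d _ => ?_
  simp only [sqf, ArithmeticFunction.coe_mk, ArithmeticFunction.id_apply]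
  split_ifs <;> simp

theorem dedekindPsi_mul {m n : ℕ} (h : m.Coprime n) :
    dedekindPsi (m * n) = dedekindPsi m * dedekindPsi n := by
  rw [dedekindPsi_eq, dedekindPsi_eq, dedekindPsi_eq]
  exact (sqf_isMultiplicative.mul ArithmeticFunction.isMultiplicative_id).map_mul_of_coprime h

theorem dedekindPsi_prime_pow {p k : ℕ} (hp : p.Prime) :
    dedekindPsi (p ^ (k + 1)) = p ^ (k + 1) + p ^ k := by
  unfold dedekindPsi
  rw [Finset.sum_filter, Nat.sum_divisors_prime_pow hp, Finset.sum_range_succ', Finset.sum_range_succ']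
  have : ∑ i ∈ Finset.range k, (if Squarefree (p ^ (i + 1 + 1)) then p ^ (k + 1) / p ^ (i + 1 + 1) else 0) = 0 := by
    refine Finset.sum_eq_zero fun i _ => ?_
    rw [if_neg]
    intro h
    have := (Nat.squarefree_pow_iff hp.ne_one (by omega)).mp h
    omega
  rw [this]
  simp only [zero_add, pow_one, pow_zero, Nat.div_one, squarefree_one, if_true, hp.squarefree]
  rw [pow_succ, Nat.mul_div_cancel _ hp.pos]
  ring

theorem card_uni_eq_totient_mul_dedekindPsi (N : ℕ) (hN : N ≠ 0) :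
    Nat.card (Uni (ZMod N)) = N.totient * dedekindPsi N := by
  induction N using Nat.recOnPosPrimePosCoprime with
  | prime_pow p n hp hn =>
    obtain ⟨k, rfl⟩ : ∃ k, n = k + 1 := ⟨n - 1, by omega⟩
    have h1 := card_uni_prime_pow (k := k) hp
    rw [Nat.totient_prime_pow_succ hp, dedekindPsi_prime_pow hp]
    obtain ⟨q, rfl⟩ : ∃ q, p = q + 1 := ⟨p - 1, by have := hp.pos; omega⟩
    simp only [Nat.add_sub_cancel]
    have : (q + 1) ^ k * q * ((q + 1) ^ (k + 1) + (q + 1) ^ k) + ((q + 1) ^ k) ^ 2 = ((q + 1) ^ (k + 1)) ^ 2 := by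
      ring
    omega
  | zero => exact absurd rfl hN
  | one =>
    simp only [Nat.totient_one, dedekindPsi_one, mul_one]
    have : Subsingleton (ZMod 1) := inferInstance
    refine Nat.card_eq_one_iff_unique.mpr ⟨inferInstance, ⟨⟨(0, 0), ⟨0, 0, Subsingleton.elim _ _⟩⟩⟩⟩
  | coprime a b ha hb hab iha ihb =>
    rw [card_uni_mul hab, iha (by omega), ihb (by omega), Nat.totient_mul hab, dedekindPsi_mul hab]
    ring

theorem card_quotient_Gamma0 (N : ℕ) [NeZero N] :
    Nat.card (SL(2, ℤ) ⧸ Gamma0 N) = dedekindPsi N := by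
  have h1 := card_uni_eq N
  rw [card_uni_eq_totient_mul_dedekindPsi N (NeZero.ne N), mul_comm] at h1
  exact (Nat.eq_of_mul_eq_mul_right (Nat.totient_pos.mpr (NeZero.pos N)) h1).symm

theorem index_Gamma0 (N : ℕ) [NeZero N] : (Gamma0 N).index = dedekindPsi N := by
  rw [Subgroup.index_eq_card, card_quotient_Gamma0]

end Fermat.Agent.S20.P1
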