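import Fermat.Agent.S20.Basic
import Fermat.Agent.S20.CuspScalar

set_option autoImplicit false

namespace Fermat.Agent.S20

open Complex Filter Function Topology ModularForm
open UpperHalfPlane hiding I
open scoped Real Manifold MatrixGroups

local notation "𝕢" => Periodic.qParam
local notation "T" => ModularGroup.T

noncomputable section

/-- the order of `T` acting on `X`. -/
def wd (X : Type) [MulAction SL(2, ℤ) X] : ℕ := orderOf (MulAction.toPermHom SL(2, ℤ) X T)

variable {X : Type} [MulAction SL(2, ℤ) X]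

lemma wd_pos [Finite X] : 0 < wd X := orderOf_pos _

lemma T_pow_wd_smul (x : X) : (T ^ wd X) • x = x := by
  have h1 : (MulAction.toPermHom SL(2, ℤ) X T) ^ wd X = 1 := pow_orderOf_eq_one _
  rw [← map_pow] at h1
  have := congrArg (fun σ : Equiv.Perm X => σ x) h1
  simpa using this

lemma VMF_vadd_nat {k : ℤ} {G : X → ℍ → ℂ} (hG : G ∈ VMF X k) (j : ℕ) (x : X) (z : ℍ) :
    G x ((j : ℝ) +ᵥ z) = G ((T ^ j)⁻¹ • x) z := by
  have h1 := congrFun (hG.2.2 x (T ^ j)) z
  rw [← h1, SL_slash_apply]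
  have h2 : (T ^ j) • z = (j : ℝ) +ᵥ z := by
    have := modular_T_zpow_smul z j
    simpa using this
  have h3 : denom (Matrix.SpecialLinearGroup.toGL
      ((Matrix.SpecialLinearGroup.map (Int.castRingHom ℝ)) (T ^ j))) z = 1 := by
    have := ModularGroup.coe_T_zpow j
    simp only [zpow_natCast] at this
    generalize T ^ j = g at this
    simp [denom, this]
  rw [h2, h3]
  simp

lemma VMF_good {k : ℤ} {G : X → ℍ → ℂ} (hG : G ∈ VMF X k) (x : X) : Good (wd X) (G x) where
  holo := hG.1 x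
  bdd := hG.2.1 x
  per z := by
    rw [VMF_vadd_nat hG, inv_smul_eq_iff.mpr (T_pow_wd_smul x).symm]

/-- the leading vector of a vector valued form. -/
def leadV (G : X → ℍ → ℂ) : X → ℂ := fun x => ld (wd X) (G x)


lemma leadV_apply (G : X → ℍ → ℂ) (x : X) : leadV G x = ld (wd X) (G x) := rfl

lemma Good.tc_add {h : ℕ} (hh : 0 < h) {φ ψ : ℍ → ℂ} (hφ : Good h φ) (hψ : Good h ψ) {n : ℕ}
    (hn : n < h) : tc h n (fun w => φ w + ψ w) = tc h n φ + tc h n ψ :=
  tc_eq_of_tendsto (((hφ.tendsto_tw hh hn).add (hψ.tendsto_tw hh hn)).congr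
    fun z => (tw_add n φ ψ z).symm)

lemma Good.ld_add {h : ℕ} (hh : 0 < h) {φ ψ : ℍ → ℂ} (hφ : Good h φ) (hψ : Good h ψ) :
    ld h (fun w => φ w + ψ w) = ld h φ + ld h ψ := by
  unfold ld
  rw [← Finset.sum_add_distrib]
  exact Finset.sum_congr rfl fun n hn => hφ.tc_add hh hψ (Finset.mem_range.mp hn)

lemma Good.ld_const_mul {h : ℕ} (hh : 0 < h) {φ : ℍ → ℂ} (hφ : Good h φ) (c : ℂ) :
    ld h (fun w => c * φ w) = c * ld h φ :=
  hφ.ld_mul hh (a := fun _ => c) (fun _ => rfl) tendsto_const_nhds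

variable [Finite X]

/-- the leading vector as a linear map. -/
def leadₗ (X : Type) [MulAction SL(2, ℤ) X] [Finite X] (k : ℤ) : VMF X k →ₗ[ℂ] (X → ℂ) where
  toFun G := leadV G.1
  map_add' G H := by
    ext x
    exact (VMF_good G.2 x).ld_add wd_pos (VMF_good H.2 x)
  map_smul' c G := by
    ext x
    exact (VMF_good G.2 x).ld_const_mul wd_pos c

@[simp] lemma leadₗ_apply {k : ℤ} (G : VMF X k) : leadₗ X k G = leadV G.1 := rfl

lemma tc_eq_zero_of_leadV_eq_zero {k : ℤ} {G : X → ℍ → ℂ} (hG : G ∈ VMF X k)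
    (h0 : leadV G = 0) (x : X) {n : ℕ} (hn : n < wd X) : tc (wd X) n (G x) = 0 := by
  rw [(VMF_good hG x).tc_eq_sum_ld wd_pos hn]
  have : ∀ j ∈ Finset.range (wd X), ((𝕢 (wd X) 1 ^ n) ^ j)⁻¹ *
      ld (wd X) (fun w => G x ((j : ℝ) +ᵥ w)) = 0 := by
    intro j _
    have h1 : (fun w => G x ((j : ℝ) +ᵥ w)) = G ((T ^ j)⁻¹ • x) := by
      ext w
      exact VMF_vadd_nat hG j x w
    rw [h1, ← leadV_apply, h0]
    simp
  rw [Finset.sum_eq_zero this, mul_zero]

lemma isBigO_exp_of_leadV_eq_zero {k : ℤ} {G : X → ℍ → ℂ} (hG : G ∈ VMF X k)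
    (h0 : leadV G = 0) (x : X) : G x =O[atImInfty] fun z : ℍ => Real.exp (-2 * π * z.im) :=
  (VMF_good hG x).isBigO_exp wd_pos fun _ hn => tc_eq_zero_of_leadV_eq_zero hG h0 x hn

/-- a vector valued form with vanishing leading vector is divisible by `Δ`. -/
lemma div_Delta_mem_of_leadV_eq_zero {k : ℤ} {G : X → ℍ → ℂ} (hG : G ∈ VMF X k)
    (h0 : leadV G = 0) : (fun x => G x / discriminant) ∈ VMF X (k - 12) := by
  refine div_Delta_mem_VMF hG fun x => ?_
  have h1 := (isBigO_exp_of_leadV_eq_zero hG h0 x).trans exp_isBigO_discriminant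
  exact (Asymptotics.div_isBoundedUnder_of_isBigO h1).isBigO_one ℝ

lemma exists_eq_Delta_fmul_of_leadV_eq_zero {k : ℤ} {G : X → ℍ → ℂ} (hG : G ∈ VMF X k)
    (h0 : leadV G = 0) : ∃ G' ∈ VMF X (k - 12), G = fmul discriminant G' := by
  refine ⟨_, div_Delta_mem_of_leadV_eq_zero hG h0, ?_⟩
  ext x z
  simp only [fmul_apply, Pi.div_apply]
  rw [mul_div_cancel₀ _ (discriminant_ne_zero z)]


/-- multiplication by `Δ`. -/
def mulDelta (X : Type) [MulAction SL(2, ℤ) X] (k : ℤ) : VMF X (k - 12) →ₗ[ℂ] VMF X k where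
  toFun G := ⟨fmul discriminant G.1, VMF_congr (by ring) (fmul_mem_VMF Delta_mem G.2)⟩
  map_add' G H := by
    ext x z
    simp [mul_add]
  map_smul' c G := by
    ext x z
    simp [mul_left_comm]

lemma ker_leadₗ_le (k : ℤ) : LinearMap.ker (leadₗ X k) ≤ LinearMap.range (mulDelta X k) := by
  intro G hG
  obtain ⟨G', hG', h⟩ := exists_eq_Delta_fmul_of_leadV_eq_zero G.2 (by simpa using hG)
  exact ⟨⟨G', hG'⟩, Subtype.ext h.symm⟩

theorem finiteDimensional_VMF_step (k : ℤ) (h : FiniteDimensional ℂ (VMF X (k - 12))) :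
    FiniteDimensional ℂ (VMF X k) := by
  have : Fintype X := Fintype.ofFinite X
  have h1 : FiniteDimensional ℂ (LinearMap.ker (leadₗ X k)) :=
    Submodule.finiteDimensional_of_le (ker_leadₗ_le k)
  have h2 : ((⊤ : Submodule ℂ (VMF X k)).map (leadₗ X k)).FG := by
    rw [Submodule.fg_iff_finiteDimensional]
    exact FiniteDimensional.finiteDimensional_submodule _
  have h3 : ((⊤ : Submodule ℂ (VMF X k)) ⊓ LinearMap.ker (leadₗ X k)).FG := by
    rw [top_inf_eq, Submodule.fg_iff_finiteDimensional]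
    exact h1
  exact ⟨Submodule.fg_of_fg_map_of_fg_inf_ker (leadₗ X k) h2 h3⟩

theorem finiteDimensional_VMF (hneg : ∀ k : ℤ, k < 0 → VMF X k = ⊥) (k : ℤ) :
    FiniteDimensional ℂ (VMF X k) := by
  have key : ∀ n : ℕ, ∀ k : ℤ, k < 12 * n → FiniteDimensional ℂ (VMF X k) := by
    intro n
    induction n with
    | zero =>
      intro k hk
      rw [hneg k (by simpa using hk)]
      infer_instance
    | succ n ih =>
      intro k hk
      exact finiteDimensional_VMF_step k (ih (k - 12) (by push_cast at hk; linarith))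
  exact key (k.toNat + 1) k (by push_cast; have := Int.self_le_toNat k; linarith)

theorem finrank_VMF_le [Fintype X] (hneg : ∀ k : ℤ, k < 0 → VMF X k = ⊥) (k : ℤ) :
    Module.finrank ℂ (VMF X k) ≤ Module.finrank ℂ (VMF X (k - 12)) + Fintype.card X := by
  have := finiteDimensional_VMF hneg k
  have := finiteDimensional_VMF hneg (k - 12)
  rw [← LinearMap.finrank_range_add_finrank_ker (leadₗ X k), add_comm]
  refine add_le_add ?_ ?_
  · exact (Submodule.finrank_mono (ker_leadₗ_le k)).trans (LinearMap.finrank_range_le _)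
  · refine (Submodule.finrank_le _).trans ?_
    simp

end

end Fermat.Agent.S20
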