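import Fermat.Agent.S20.Cusp1

set_option autoImplicit false

namespace Fermat.Agent.S20

open Complex Filter Function Topology ModularForm EisensteinSeries
open UpperHalfPlane hiding I
open scoped Real Manifold MatrixGroups

local notation "𝕢" => Periodic.qParam
local notation "T" => ModularGroup.T

noncomputable section

lemma exists_M1_tendsto_one {w : ℤ} (hw : 4 ≤ w) (he : Even w) :
    ∃ A ∈ M1 w, Tendsto A atImInfty (𝓝 1) := by
  obtain ⟨n, rfl⟩ := Int.eq_ofNat_of_zero_le (by linarith : 0 ≤ w)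
  have hn : 3 ≤ n := by omega
  have hn2 : Even n := by exact_mod_cast he
  refine ⟨E hn, coe_mem_M1 _, ?_⟩
  have := M1_tendsto (coe_mem_M1 (E hn))
  rwa [M1_valueAtInfty (coe_mem_M1 (E hn)), E_qExpansion_coeff_zero hn hn2] at this

lemma M1_vadd_one {w : ℤ} {A : ℍ → ℂ} (hA : A ∈ M1 w) (z : ℍ) : A ((1 : ℝ) +ᵥ z) = A z :=
  SlashInvariantForm.vAdd_apply_of_mem_strictPeriods (ofM1 A hA) z one_mem_strictPeriods_SL

variable {X : Type} [MulAction SL(2, ℤ) X] [Fintype X] [DecidableEq X]

/-- the matrix of leading vectors. -/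
def leadMatrix (F : X → X → ℍ → ℂ) : Matrix X X ℂ := Matrix.of fun x j => leadV (F j) x

lemma leadV_fmul {w k : ℤ} {A : ℍ → ℂ} (hA : A ∈ M1 w) {a₀ : ℂ} (ha : Tendsto A atImInfty (𝓝 a₀))
    {G : X → ℍ → ℂ} (hG : G ∈ VMF X k) : leadV (fmul A G) = a₀ • leadV G := by
  ext x
  exact (VMF_good hG x).ld_mul wd_pos (M1_vadd_one hA) ha

lemma leadV_sum {ι : Type} (s : Finset ι) {k : ℤ} {G : ι → X → ℍ → ℂ}
    (hG : ∀ i ∈ s, G i ∈ VMF X k) : leadV (∑ i ∈ s, G i) = ∑ i ∈ s, leadV (G i) := by
  ext x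
  have h1 : (∑ i ∈ s, G i) x = fun w => ∑ i ∈ s, G i x w := by
    ext w
    simp [Finset.sum_apply]
  rw [leadV_apply, h1, ld_sum wd_pos s (fun i hi => VMF_good (hG i hi) x), Finset.sum_apply]
  rfl

theorem leadMatrix_det_ne_zero {κ : X → ℤ} {F : X → X → ℍ → ℂ} (h : IsFundSystem κ F)
    (hκ : ∀ j, Even (κ j)) : (leadMatrix F).det ≠ 0 := by
  intro hdet
  obtain ⟨v, hv0, hv⟩ := Matrix.exists_mulVec_eq_zero_iff.mpr hdet
  apply hv0
  -- a large even weight
  set K : ℤ := 2 * (∑ j, |κ j|) + 4 with hK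
  have hKj : ∀ j, 4 ≤ K - κ j := by
    intro j
    have h1 : |κ j| ≤ ∑ j, |κ j| :=
      Finset.single_le_sum (f := fun j => |κ j|) (fun i _ => abs_nonneg _) (Finset.mem_univ j)
    have h2 := le_abs_self (κ j)
    have h3 : 0 ≤ ∑ j, |κ j| := Finset.sum_nonneg fun i _ => abs_nonneg _
    rw [hK]
    linarith
  have hKe : ∀ j, Even (K - κ j) := by
    intro j
    refine Even.sub ?_ (hκ j)
    rw [hK]
    exact Even.add (even_two_mul _) (by decide)
  choose A hA hA1 using fun j => exists_M1_tendsto_one (hKj j) (hKe j)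
  set g : X → ℍ → ℂ := ∑ j, fmul (v j • A j) (F j) with hg
  have hmem : ∀ j, fmul (v j • A j) (F j) ∈ VMF X K := fun j =>
    VMF_congr (by ring) (fmul_mem_VMF ((M1 _).smul_mem (v j) (hA j)) (h.mem j))
  have hgm : g ∈ VMF X K := Submodule.sum_mem _ fun j _ => hmem j
  have hlead : leadV g = 0 := by
    rw [hg, leadV_sum _ (fun j _ => hmem j)]
    have : ∀ j ∈ Finset.univ, leadV (fmul (v j • A j) (F j)) = v j • leadV (F j) := by
      intro j _
      have := leadV_fmul ((M1 _).smul_mem (v j) (hA j)) ((hA1 j).const_smul (v j)) (h.mem j)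
      simpa using this
    rw [Finset.sum_congr rfl this]
    ext x
    have := congrFun hv x
    simp only [Matrix.mulVec, dotProduct, leadMatrix, Matrix.of_apply, Pi.zero_apply] at this
    simp only [Finset.sum_apply, Pi.smul_apply, smul_eq_mul, Pi.zero_apply]
    rw [← this]
    exact Finset.sum_congr rfl fun j _ => mul_comm _ _
  obtain ⟨g', hg', hgg'⟩ := exists_eq_Delta_fmul_of_leadV_eq_zero hgm hlead
  obtain ⟨r, hr, hgr⟩ := h.gen _ g' hg'
  -- compare coefficients
  have hz : ∀ z : ℍ, ∀ j, v j * A j z = discriminant z * r j z := by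
    intro z
    have h1 : (fundMatrix F z).mulVec (fun j => v j * A j z - discriminant z * r j z) = 0 := by
      ext x
      have h2 := congrFun (congrFun hgg' x) z
      rw [hgr, hg] at h2
      simp only [Finset.sum_apply, fmul_apply, Pi.smul_apply, smul_eq_mul, Finset.mul_sum] at h2
      simp only [Matrix.mulVec, dotProduct, fundMatrix_apply, Pi.zero_apply]
      have h3 : ∑ j, F j x z * (v j * A j z - discriminant z * r j z) =
          ∑ j, v j * A j z * F j x z - ∑ j, discriminant z * (r j z * F j x z) := by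
        rw [← Finset.sum_sub_distrib]
        exact Finset.sum_congr rfl fun j _ => by ring
      rw [h3, h2, sub_self]
    have h4 := Matrix.eq_zero_of_mulVec_eq_zero (h.det_ne_zero z) h1
    intro j
    have := congrFun h4 j
    simpa [sub_eq_zero] using this
  ext j
  have h5 : Tendsto (fun z : ℍ => v j * A j z) atImInfty (𝓝 (v j * 1)) := (hA1 j).const_mul _
  have h6 : Tendsto (fun z : ℍ => discriminant z * r j z) atImInfty (𝓝 0) :=
    isZeroAtImInfty_mul_bdd discriminant_isZeroAtImInfty (hr j).2.1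
  have h7 := tendsto_nhds_unique (h5.congr fun z => hz z j) h6
  simpa using h7

end

end Fermat.Agent.S20
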