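import Fermat.Agent.S20.Cusp3

set_option autoImplicit false

namespace Fermat.Agent.S20

open Complex Filter Function Topology ModularForm EisensteinSeries
open UpperHalfPlane hiding I
open scoped Real Manifold MatrixGroups

noncomputable section

variable {X : Type} [MulAction SL(2, ℤ) X] [Fintype X] [DecidableEq X]

/-- the trace pairing with a fundamental system. -/
def cuspPairMap {κ : X → ℤ} {F : X → X → ℍ → ℂ} (h : IsFundSystem κ F) (k : ℤ) :
    VCF X k →ₗ[ℂ] ((j : X) → S1 (k + κ j)) where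
  toFun H := fun j => ⟨∑ x, F j x * H.1 x, S1_congr (by ring) (pairing_mem_S1 (h.mem j) H.2)⟩
  map_add' H H' := by
    ext j z
    simp [mul_add, Finset.sum_add_distrib]
  map_smul' c H := by
    ext j z
    simp [Finset.mul_sum]

lemma cuspPairMap_injective {κ : X → ℤ} {F : X → X → ℍ → ℂ} (h : IsFundSystem κ F) (k : ℤ) :
    Function.Injective (cuspPairMap h k) := by
  rw [← LinearMap.ker_eq_bot, LinearMap.ker_eq_bot']
  intro H hH
  apply Subtype.ext
  apply VCF_injective_pairing h
  intro j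
  exact congrArg Subtype.val (congrFun hH j)

lemma cuspPairMap_surjective {κ : X → ℤ} {F : X → X → ℍ → ℂ} (h : IsFundSystem κ F)
    (hκ : ∀ j, Even (κ j)) (k : ℤ) : Function.Surjective (cuspPairMap h k) := by
  intro b
  obtain ⟨H, h1, h2, h3⟩ := exists_dual h k (fun j => (b j).1) (fun j => (b j).2)
  have h4 := isZeroAtImInfty_of_dual h (leadMatrix_det_ne_zero h hκ) (fun j => (b j).2) h3
  refine ⟨⟨H, h1, h4, h2⟩, ?_⟩
  ext j : 2
  exact h3 j

theorem finrank_VCF_eq {κ : X → ℤ} {F : X → X → ℍ → ℂ} (h : IsFundSystem κ F)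
    (hκ : ∀ j, Even (κ j)) (k : ℤ) :
    Module.finrank ℂ (VCF X k) = ∑ j, δ (k + κ j - 12) := by
  have e := LinearEquiv.ofBijective (cuspPairMap h k) ⟨cuspPairMap_injective h k, cuspPairMap_surjective h hκ k⟩
  rw [e.finrank_eq, Module.finrank_pi_fintype]
  exact Finset.sum_congr rfl fun j _ => finrank_S1 _

end

end Fermat.Agent.S20
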