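import Mathlib

/-!
Shared definitions for S20 (dimension of `S_2(Γ₀(N))`).

Vector valued modular forms for a finite `SL(2,ℤ)`-set `X`, as plain functions
`X → ℍ → ℂ` cut out by predicates.
-/

set_option autoImplicit false

namespace Fermat.Agent.S20

open UpperHalfPlane ModularForm
open scoped MatrixGroups ModularForm Manifold

noncomputable section

variable (X : Type*) [MulAction SL(2, ℤ) X]

/-- Vector valued modular forms of weight `k` for the permutation representation on `X`. -/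
def VMF (k : ℤ) : Submodule ℂ (X → ℍ → ℂ) where
  carrier := {G | (∀ x, MDiff (G x)) ∧ (∀ x, IsBoundedAtImInfty (G x)) ∧
    ∀ (x : X) (g : SL(2, ℤ)), G x ∣[k] g = G (g⁻¹ • x)}
  add_mem' := by
    rintro G H ⟨h1, h2, h3⟩ ⟨h1', h2', h3'⟩
    refine ⟨fun x => (h1 x).add (h1' x), fun x => (h2 x).add (h2' x), fun x g => ?_⟩
    simp only [Pi.add_apply, SlashAction.add_slash, h3, h3']
  zero_mem' := by
    refine ⟨fun x => mdifferentiable_const, fun x => ?_, fun x g => ?_⟩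
    · exact Filter.const_boundedAtFilter atImInfty (0 : ℂ)
    · simp only [Pi.zero_apply, SlashAction.zero_slash]
  smul_mem' := by
    rintro c G ⟨h1, h2, h3⟩
    refine ⟨fun x => (h1 x).const_smul c, fun x => (h2 x).const_smul_left c, fun x g => ?_⟩
    simp only [Pi.smul_apply, ModularForm.SL_smul_slash, h3]

/-- Vector valued cusp forms of weight `k` for the permutation representation on `X`. -/
def VCF (k : ℤ) : Submodule ℂ (X → ℍ → ℂ) where
  carrier := {G | (∀ x, MDiff (G x)) ∧ (∀ x, IsZeroAtImInfty (G x)) ∧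
    ∀ (x : X) (g : SL(2, ℤ)), G x ∣[k] g = G (g⁻¹ • x)}
  add_mem' := by
    rintro G H ⟨h1, h2, h3⟩ ⟨h1', h2', h3'⟩
    refine ⟨fun x => (h1 x).add (h1' x), fun x => (h2 x).add (h2' x), fun x g => ?_⟩
    simp only [Pi.add_apply, SlashAction.add_slash, h3, h3']
  zero_mem' := by
    refine ⟨fun x => mdifferentiable_const, fun x => ?_, fun x g => ?_⟩
    · exact Filter.zero_zeroAtFilter _
    · simp only [Pi.zero_apply, SlashAction.zero_slash]
  smul_mem' := by
    rintro c G ⟨h1, h2, h3⟩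
    refine ⟨fun x => (h1 x).const_smul c, fun x => (h2 x).smul c, fun x g => ?_⟩
    simp only [Pi.smul_apply, ModularForm.SL_smul_slash, h3]

variable {X}

lemma mem_VMF {k : ℤ} {G : X → ℍ → ℂ} : G ∈ VMF X k ↔
    (∀ x, MDiff (G x)) ∧ (∀ x, IsBoundedAtImInfty (G x)) ∧
    ∀ (x : X) (g : SL(2, ℤ)), G x ∣[k] g = G (g⁻¹ • x) := Iff.rfl

lemma mem_VCF {k : ℤ} {G : X → ℍ → ℂ} : G ∈ VCF X k ↔
    (∀ x, MDiff (G x)) ∧ (∀ x, IsZeroAtImInfty (G x)) ∧
    ∀ (x : X) (g : SL(2, ℤ)), G x ∣[k] g = G (g⁻¹ • x) := Iff.rfl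

/-- Level one modular forms of weight `k`, as a space of functions. -/
def M1 (k : ℤ) : Submodule ℂ (ℍ → ℂ) where
  carrier := {r | MDiff r ∧ IsBoundedAtImInfty r ∧ ∀ g : SL(2, ℤ), r ∣[k] g = r}
  add_mem' := by
    rintro G H ⟨h1, h2, h3⟩ ⟨h1', h2', h3'⟩
    refine ⟨h1.add h1', h2.add h2', fun g => ?_⟩
    simp only [SlashAction.add_slash, h3, h3']
  zero_mem' := by
    refine ⟨mdifferentiable_const, ?_, fun g => ?_⟩
    · exact Filter.const_boundedAtFilter atImInfty (0 : ℂ)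
    · simp only [SlashAction.zero_slash]
  smul_mem' := by
    rintro c G ⟨h1, h2, h3⟩
    refine ⟨h1.const_smul c, h2.const_smul_left c, fun g => ?_⟩
    simp only [ModularForm.SL_smul_slash, h3]

lemma mem_M1 {k : ℤ} {r : ℍ → ℂ} : r ∈ M1 k ↔
    MDiff r ∧ IsBoundedAtImInfty r ∧ ∀ g : SL(2, ℤ), r ∣[k] g = r := Iff.rfl

/-- `δ k = dim M_k(SL(2,ℤ))`. -/
def δ (k : ℤ) : ℕ := Module.finrank ℂ (ModularForm 𝒮ℒ k)

omit [MulAction SL(2, ℤ) X]

/-- Multiplication of a vector valued function by a scalar function. -/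
def fmul (r : ℍ → ℂ) (G : X → ℍ → ℂ) : X → ℍ → ℂ := fun x => r * G x

@[simp] lemma fmul_apply (r : ℍ → ℂ) (G : X → ℍ → ℂ) (x : X) (z : ℍ) :
    fmul r G x z = r z * G x z := rfl

/-- The fundamental matrix of a family `F j` (`j : X`) of vector valued functions. -/
def fundMatrix (F : X → X → ℍ → ℂ) (z : ℍ) : Matrix X X ℂ := Matrix.of fun x j => F j x z

@[simp] lemma fundMatrix_apply (F : X → X → ℍ → ℂ) (z : ℍ) (x j : X) :
    fundMatrix F z x j = F j x z := rfl

/-- `(κ, F)` is a free homogeneous basis of `⨁ VMF X k` over `⨁ M1 k`, with fundamental matrix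
invertible at every point of `ℍ`. -/
structure IsFundSystem [MulAction SL(2, ℤ) X] [Fintype X] [DecidableEq X] (κ : X → ℤ) (F : X → X → ℍ → ℂ) : Prop where
  mem : ∀ j, F j ∈ VMF X (κ j)
  gen : ∀ (k : ℤ), ∀ G ∈ VMF X k, ∃ r : X → ℍ → ℂ, (∀ j, r j ∈ M1 (k - κ j)) ∧
    G = ∑ j, fmul (r j) (F j)
  det_ne_zero : ∀ z : ℍ, (fundMatrix F z).det ≠ 0

end

end Fermat.Agent.S20
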