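import Fermat.Agent.S20.Defs
import Fermat.Agent.S20.Serre

/-!
Package E of S20: the determinant of the fundamental matrix satisfies a first order linear ODE,
hence it vanishes nowhere as soon as it is nonzero at one point.
-/

set_option autoImplicit false

namespace Fermat.Agent.S20

open UpperHalfPlane hiding I
open ModularForm Complex
open scoped MatrixGroups ModularForm Manifold Real

noncomputable section

/-- Jacobi's formula (column version). -/
lemma hasDerivAt_det {n : Type*} [Fintype n] [DecidableEq n] {A : ℂ → Matrix n n ℂ}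
    {A' : Matrix n n ℂ} {w : ℂ} (h : ∀ i j, HasDerivAt (fun t => A t i j) (A' i j) w) :
    HasDerivAt (fun t => (A t).det)
      (∑ j, ((A w).updateCol j (fun i => A' i j)).det) w := by
  simp only [Matrix.det_apply]
  rw [Finset.sum_comm]
  refine HasDerivAt.fun_sum fun σ _ => ?_
  simp only [← Finset.smul_sum]
  refine HasDerivAt.const_smul _ ?_
  have key := HasDerivAt.fun_finsetProd (u := Finset.univ) (f := fun i t => A t (σ i) i)
    (f' := fun i => A' (σ i) i) (x := w) (fun i _ => h (σ i) i)
  have e : ∑ x, ∏ i, (A w).updateCol x (fun i => A' i x) (σ i) i =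
      ∑ i, (∏ j ∈ Finset.univ.erase i, A w (σ j) j) • A' (σ i) i := by
    refine Finset.sum_congr rfl fun j _ => ?_
    rw [← Finset.mul_prod_erase Finset.univ _ (Finset.mem_univ j), smul_eq_mul, mul_comm]
    congr 1
    · refine Finset.prod_congr rfl fun i hi => ?_
      rw [Matrix.updateCol_ne (Finset.ne_of_mem_erase hi)]
    · rw [Matrix.updateCol_self]
  rw [e]
  exact key

/-- If `A' = A * B` then the Jacobi formula gives `det A * trace B`. -/
lemma sum_det_updateCol_mul {n : Type*} [Fintype n] [DecidableEq n] (A B : Matrix n n ℂ) :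
    ∑ j, (A.updateCol j (fun i => (A * B) i j)).det = A.det * B.trace := by
  have h : ∀ j, (A.updateCol j (fun i => (A * B) i j)).det = A.det * B j j := by
    intro j
    have h1 : (fun i => (A * B) i j) = A.mulVec (fun i => B i j) := by
      ext i
      simp [Matrix.mul_apply, Matrix.mulVec, dotProduct]
    rw [h1, ← Matrix.cramer_apply, Matrix.cramer_eq_adjugate_mulVec, Matrix.mulVec_mulVec,
      Matrix.adjugate_mul, Matrix.smul_mulVec, Matrix.one_mulVec]
    simp
  simp only [h, Matrix.trace, Matrix.diag_apply, Finset.mul_sum]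

/-- Level one modular forms of weight `2` vanish (function version). -/
lemma eq_zero_of_mem_M1_two {r : ℍ → ℂ} (hr : r ∈ M1 2) : r = 0 := by
  obtain ⟨h1, h2, h3⟩ := hr
  let f : ModularForm 𝒮ℒ 2 :=
    { toFun := r
      slash_action_eq' := by
        intro A hA
        obtain ⟨A, rfl⟩ := hA
        exact h3 A
      holo' := h1
      bdd_at_cusps' := by
        intro c hc
        rw [Subgroup.IsArithmetic.isCusp_iff_isCusp_SL2Z] at hc
        rw [OnePoint.isBoundedAt_iff_forall_SL2Z hc]
        intro γ _
        rw [h3 γ]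
        exact h2 }
  have hf : f = 0 := by
    have := ModularForm.levelOne_weight_two_rank_zero
    rw [rank_zero_iff_forall_zero] at this
    exact this f
  have : (f : ℍ → ℂ) = 0 := by rw [hf]; rfl
  exact this

variable {X : Type*} [Fintype X] [DecidableEq X] [MulAction SL(2, ℤ) X]

/-- The first order linear ODE satisfied by the determinant of the fundamental matrix. -/
lemma hasDerivAt_det_fundMatrix (κ : X → ℤ) (F : X → X → ℍ → ℂ)
    (mem : ∀ j, F j ∈ VMF X (κ j))
    (gen : ∀ (k : ℤ), ∀ G ∈ VMF X k, ∃ r : X → ℍ → ℂ, (∀ j, r j ∈ M1 (k - κ j)) ∧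
      G = ∑ j, fmul (r j) (F j)) (z : ℍ) :
    HasDerivAt (fun t : ℂ => (fundMatrix F (ofComplex t)).det)
      ((fundMatrix F z).det *
        (2 * π * I * (((∑ j, κ j : ℤ) : ℂ) * 12⁻¹ * EisensteinSeries.E2 z))) z := by
  choose r hr1 hr2 using fun j => gen (κ j + 2) _ (serre_mem_VMF (mem j))
  let B : Matrix X X ℂ := Matrix.of fun i j =>
    2 * π * I * (r j i z + if i = j then (κ j : ℂ) * 12⁻¹ * EisensteinSeries.E2 z else 0)
  have hent : ∀ x j, HasDerivAt (fun t : ℂ => fundMatrix F (ofComplex t) x j)
      ((fundMatrix F z * B) x j) z := by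
    intro x j
    have hd : DifferentiableAt ℂ (F j x ∘ ofComplex) z :=
      UpperHalfPlane.mdifferentiableAt_iff.mp ((mem j).1 x z)
    have h1 : deriv (F j x ∘ ofComplex) z =
        2 * π * I * Derivative.normalizedDerivOfComplex (F j x) z := by
      rw [Derivative.normalizedDerivOfComplex]
      have : (2 * π * I : ℂ) ≠ 0 := by simp [Real.pi_ne_zero]
      field_simp
    have h2 : Derivative.serreDerivative (κ j) (F j x) z = ∑ i, r j i z * F i x z := by
      have := congrFun (congrFun (hr2 j) x) z
      simpa [Finset.sum_apply] using this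
    have h3 : (fundMatrix F z * B) x j = deriv (F j x ∘ ofComplex) z := by
      rw [h1]
      rw [Derivative.serreDerivative_apply] at h2
      have h4 : Derivative.normalizedDerivOfComplex (F j x) z =
          ∑ i, r j i z * F i x z + (κ j : ℂ) * 12⁻¹ * EisensteinSeries.E2 z * F j x z := by
        rw [← h2]; ring
      rw [h4, Matrix.mul_apply]
      simp only [fundMatrix_apply, B, Matrix.of_apply, mul_add, Finset.sum_add_distrib,
        mul_ite, mul_zero, Finset.sum_ite_eq', Finset.mem_univ, if_true, Finset.mul_sum]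
      congr 1
      · exact Finset.sum_congr rfl fun i _ => by ring
      · ring
    rw [h3]
    exact hd.hasDerivAt
  have hJ := hasDerivAt_det (A := fun t : ℂ => fundMatrix F (ofComplex t))
    (A' := fundMatrix F z * B) (w := (z : ℂ)) hent
  simp only [ofComplex_apply] at hJ
  rw [sum_det_updateCol_mul] at hJ
  have htr : B.trace = 2 * π * I * (((∑ j, κ j : ℤ) : ℂ) * 12⁻¹ * EisensteinSeries.E2 z) := by
    have hz : ∀ j, r j j z = 0 := by
      intro j
      have h := hr1 j j
      rw [show κ j + 2 - κ j = 2 by ring] at h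
      rw [eq_zero_of_mem_M1_two h]
      rfl
    simp only [Matrix.trace, Matrix.diag_apply, B, Matrix.of_apply, hz, if_true, zero_add]
    push_cast
    rw [Finset.sum_mul, Finset.sum_mul, Finset.mul_sum]
  rw [htr] at hJ
  exact hJ

/-- **Package E.** If the determinant of the fundamental matrix is nonzero at one point, then it
vanishes nowhere on the upper half plane. -/
theorem det_fundMatrix_ne_zero (κ : X → ℤ) (F : X → X → ℍ → ℂ)
    (mem : ∀ j, F j ∈ VMF X (κ j))
    (gen : ∀ (k : ℤ), ∀ G ∈ VMF X k, ∃ r : X → ℍ → ℂ, (∀ j, r j ∈ M1 (k - κ j)) ∧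
      G = ∑ j, fmul (r j) (F j))
    {z₀ : ℍ} (h0 : (fundMatrix F z₀).det ≠ 0) (z : ℍ) : (fundMatrix F z).det ≠ 0 := by
  set K : ℤ := ∑ j, κ j with hK
  let u : ℂ → ℂ := fun t => (fundMatrix F (ofComplex t)).det * ModularForm.eta t ^ (-(2 * K))
  have hu : ∀ t ∈ upperHalfPlaneSet, HasDerivAt u 0 t := by
    intro t ht
    have hd := hasDerivAt_det_fundMatrix κ F mem gen ⟨t, ht⟩
    have hη0 : ModularForm.eta t ≠ 0 := ModularForm.eta_ne_zero ht
    have hη : HasDerivAt ModularForm.eta
        ((π * I / 12) * EisensteinSeries.E2 ⟨t, ht⟩ * ModularForm.eta t) t := by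
      have h1 := (ModularForm.differentiableAt_eta_of_mem_upperHalfPlaneSet ht).hasDerivAt
      have h2 := ModularForm.logDeriv_eta_eq_E2 ⟨t, ht⟩
      rw [logDeriv_apply] at h2
      have h3 : deriv ModularForm.eta t =
          (π * I / 12) * EisensteinSeries.E2 ⟨t, ht⟩ * ModularForm.eta t := by
        have h2' : deriv ModularForm.eta t / ModularForm.eta t =
          (π * I / 12) * EisensteinSeries.E2 ⟨t, ht⟩ := h2
        field_simp at h2' ⊢
        linear_combination h2'
      rwa [h3] at h1
    have hz := (hasDerivAt_zpow (-(2 * K)) (ModularForm.eta t) (Or.inl hη0)).comp t hη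
    have hprod := hd.mul hz
    have he : (fundMatrix F ⟨t, ht⟩).det *
          (2 * π * I * (((∑ j, κ j : ℤ) : ℂ) * 12⁻¹ * EisensteinSeries.E2 ⟨t, ht⟩)) *
          ModularForm.eta t ^ (-(2 * K)) +
        (fundMatrix F (ofComplex t)).det *
          (((-(2 * K) : ℤ) : ℂ) * ModularForm.eta t ^ (-(2 * K) - 1) *
            ((π * I / 12) * EisensteinSeries.E2 ⟨t, ht⟩ * ModularForm.eta t)) = 0 := by
      rw [ofComplex_apply_of_im_pos ht, zpow_sub_one₀ hη0, ← hK]
      push_cast
      field_simp
      ring
    have hprod' : HasDerivAt u _ t := hprod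
    rw [← he]
    exact hprod'
  have hconst : u z = u z₀ :=
    isOpen_upperHalfPlaneSet.is_const_of_deriv_eq_zero
      (Convex.isPreconnected (convex_halfSpace_im_gt 0))
      (fun t ht => (hu t ht).differentiableAt.differentiableWithinAt)
      (fun t ht => (hu t ht).deriv) z.2 z₀.2
  intro hz
  have h1 : u z = 0 := by simp [u, hz]
  have h2 : u z₀ ≠ 0 := by
    simp only [u, ofComplex_apply]
    exact mul_ne_zero h0 (zpow_ne_zero _ (ModularForm.eta_ne_zero z₀.2))
  exact h2 (hconst ▸ h1)

end

end Fermat.Agent.S20
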