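import Fermat.Agent.S20.Basic

/-!
Package D4 of S20: a generating family of `⨁ VMF X k` has linearly independent rows at some
point, provided there is a separating vector valued form.
-/

set_option autoImplicit false

namespace Fermat.Agent.S20

open UpperHalfPlane ModularForm
open scoped MatrixGroups ModularForm Manifold

/-- Pointwise product of vector valued forms. -/
lemma vmul_mem_VMF {X : Type*} [MulAction SL(2, ℤ) X] {a b : ℤ} {G H : X → ℍ → ℂ}
    (hG : G ∈ VMF X a) (hH : H ∈ VMF X b) : (fun x => G x * H x) ∈ VMF X (a + b) := by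
  obtain ⟨h1, h2, h3⟩ := hG
  obtain ⟨h1', h2', h3'⟩ := hH
  refine ⟨fun x => (h1 x).mul (h1' x), fun x => (h2 x).mul (h2' x), fun x g => ?_⟩
  rw [ModularForm.mul_slash_SL2, h3, h3']

/-- Pointwise powers of vector valued forms. -/
lemma vpow_mem_VMF {X : Type} [MulAction SL(2, ℤ) X] {w : ℤ} {H : X → ℍ → ℂ}
    (hH : H ∈ VMF X w) (n : ℕ) : (fun x => H x ^ n) ∈ VMF X (n * w) := by
  induction n with
  | zero =>
    have := const_mem_VMF (X := X) 1
    simp only [pow_zero, Nat.cast_zero, zero_mul]
    exact this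
  | succ n ih =>
    have := vmul_mem_VMF ih hH
    simp only [pow_succ]
    exact VMF_congr (by push_cast; ring) this

/-- A family of pairwise distinct holomorphic functions on `ℍ` takes pairwise distinct values at
some point. -/
lemma exists_injective_eval {X : Type*} [Finite X] {H : X → ℍ → ℂ} (hH : ∀ x, MDiff (H x))
    (hinj : Function.Injective H) : ∃ z : ℍ, Function.Injective (fun x => H x z) := by
  classical
  have := Fintype.ofFinite X
  set s : Finset (X × X) := Finset.univ.filter (fun p => p.1 ≠ p.2) with hs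
  have hne : ∏ p ∈ s, (H p.1 - H p.2) ≠ 0 := by
    intro h0
    rw [UpperHalfPlane.prod_eq_zero_iff (fun p _ => (hH p.1).sub (hH p.2))] at h0
    obtain ⟨p, hp, hp0⟩ := h0
    exact (Finset.mem_filter.mp hp).2 (hinj (sub_eq_zero.mp hp0))
  obtain ⟨z, hz⟩ := Function.ne_iff.mp hne
  refine ⟨z, fun x y hxy => ?_⟩
  by_contra hne'
  apply hz
  rw [Finset.prod_apply]
  refine Finset.prod_eq_zero (i := (x, y)) (Finset.mem_filter.mpr ⟨Finset.mem_univ _, hne'⟩) ?_
  simpa [sub_eq_zero] using hxy

/-- Vandermonde, in the form: power sums with weights vanish only for zero weights. -/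
lemma eq_zero_of_forall_sum_mul_pow {X : Type*} [Fintype X] {v : X → ℂ}
    (hv : Function.Injective v) {c : X → ℂ} (h : ∀ a : ℕ, ∑ x, c x * v x ^ a = 0) (x : X) :
    c x = 0 := by
  classical
  have hpoly : ∀ p : Polynomial ℂ, ∑ y, c y * p.eval (v y) = 0 := by
    intro p
    simp only [Polynomial.eval_eq_sum_range, Finset.mul_sum]
    rw [Finset.sum_comm]
    refine Finset.sum_eq_zero fun a _ => ?_
    have := h a
    calc ∑ y, c y * (p.coeff a * v y ^ a) = p.coeff a * ∑ y, c y * v y ^ a := by
          rw [Finset.mul_sum]; exact Finset.sum_congr rfl fun y _ => by ring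
      _ = 0 := by rw [this, mul_zero]
  have h1 := hpoly (∏ y ∈ Finset.univ.erase x, (Polynomial.X - Polynomial.C (v y)))
  rw [Finset.sum_eq_single x] at h1
  · rcases mul_eq_zero.mp h1 with h2 | h2
    · exact h2
    · exfalso
      rw [Polynomial.eval_prod, Finset.prod_eq_zero_iff] at h2
      obtain ⟨y, hy, hy0⟩ := h2
      simp only [Polynomial.eval_sub, Polynomial.eval_X, Polynomial.eval_C, sub_eq_zero] at hy0
      exact (Finset.mem_erase.mp hy).1 (hv hy0).symm
  · intro y _ hyx
    rw [Polynomial.eval_prod, Finset.prod_eq_zero (i := y)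
      (Finset.mem_erase.mpr ⟨hyx, Finset.mem_univ _⟩) (by simp), mul_zero]
  · intro hx; exact absurd (Finset.mem_univ x) hx

/-- Package D4. -/
theorem exists_linearIndependent_rows {X : Type} [Fintype X] [DecidableEq X]
    [MulAction SL(2, ℤ) X] {J : Type} [Fintype J] (κ : J → ℤ) (F : J → X → ℍ → ℂ)
    (gen : ∀ k : ℤ, ∀ G ∈ VMF X k, ∃ r : J → ℍ → ℂ, (∀ j, r j ∈ M1 (k - κ j)) ∧
      G = ∑ j, fmul (r j) (F j))
    (hsep : ∃ (w : ℤ) (H : X → ℍ → ℂ), H ∈ VMF X w ∧ Function.Injective H) :
    ∃ z : ℍ, LinearIndependent ℂ (fun x : X => fun j : J => F j x z) := by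
  obtain ⟨w, H, hH, hinj⟩ := hsep
  obtain ⟨z, hz⟩ := exists_injective_eval hH.1 hinj
  refine ⟨z, ?_⟩
  rw [Fintype.linearIndependent_iff]
  intro c hc x
  refine eq_zero_of_forall_sum_mul_pow hz (c := c) (fun a => ?_) x
  obtain ⟨r, -, hr⟩ := gen _ _ (vpow_mem_VMF hH a)
  have hval : ∀ y, H y z ^ a = ∑ j, r j z * F j y z := by
    intro y
    have := congrFun (congrFun hr y) z
    simpa [Finset.sum_apply] using this
  have hc' : ∀ j, ∑ y, c y * F j y z = 0 := by
    intro j
    have := congrFun hc j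
    simpa [Finset.sum_apply] using this
  calc ∑ y, c y * H y z ^ a = ∑ y, c y * ∑ j, r j z * F j y z := by simp only [hval]
    _ = ∑ j, r j z * ∑ y, c y * F j y z := by
        simp only [Finset.mul_sum]
        rw [Finset.sum_comm]
        exact Finset.sum_congr rfl fun j _ => Finset.sum_congr rfl fun y _ => by ring
    _ = 0 := by simp only [hc', mul_zero, Finset.sum_const_zero]

end Fermat.Agent.S20
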