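import Fermat.Agent.S20.Generation
import Fermat.Agent.S20.Vandermonde
import Fermat.Agent.S20.DetODE

set_option autoImplicit false

namespace Fermat.Agent.S20

open UpperHalfPlane ModularForm EisensteinSeries
open scoped MatrixGroups ModularForm Manifold

noncomputable section

variable {X : Type} [Fintype X] [DecidableEq X] [MulAction SL(2, ℤ) X]

/-- From a bound on the number of generators to a fundamental system. -/
theorem exists_isFundSystem_of_bound
    (hfin : ∀ k, FiniteDimensional ℂ (VMF X k))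
    (hneg : ∀ k : ℤ, k < 0 → VMF X k = ⊥)
    (hbound : ∃ K0 : ℕ, (∀ k : ℤ, (K0 : ℤ) < k → mgen X k = 0) ∧
      ∑ k ∈ Finset.range (K0 + 1), mgen X (k : ℤ) ≤ Fintype.card X)
    (hsep : ∃ (w : ℤ) (H : X → ℍ → ℂ), H ∈ VMF X w ∧ Function.Injective H) :
    ∃ (κ : X → ℤ) (F : X → X → ℍ → ℂ), IsFundSystem κ F := by
  obtain ⟨K0, hK0, hsum⟩ := hbound
  obtain ⟨κ, F, hmem, hgen⟩ := exists_gen_family hfin hneg K0 hK0
  obtain ⟨z0, hz0⟩ := exists_linearIndependent_rows κ F (fun k G hG => hgen k hG) hsep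
  have hcardJ : Fintype.card (Σ n : Fin (K0 + 1), Fin (mgen X ((n : ℕ) : ℤ))) =
      ∑ k ∈ Finset.range (K0 + 1), mgen X (k : ℤ) := by
    rw [Fintype.card_sigma]
    simp only [Fintype.card_fin]
    exact Fin.sum_univ_eq_sum_range (fun k => mgen X (k : ℤ)) (K0 + 1)
  have hle : Fintype.card X ≤ Fintype.card (Σ n : Fin (K0 + 1), Fin (mgen X ((n : ℕ) : ℤ))) := by
    have := hz0.fintype_card_le_finrank
    simpa using this
  have hcard : Fintype.card X = Fintype.card (Σ n : Fin (K0 + 1), Fin (mgen X ((n : ℕ) : ℤ))) :=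
    le_antisymm hle (hcardJ ▸ hsum)
  let e : X ≃ (Σ n : Fin (K0 + 1), Fin (mgen X ((n : ℕ) : ℤ))) := Fintype.equivOfCardEq hcard
  have hgen' : ∀ (k : ℤ), ∀ G ∈ VMF X k, ∃ r : X → ℍ → ℂ, (∀ j, r j ∈ M1 (k - (κ ∘ e) j)) ∧
      G = ∑ j, fmul (r j) ((F ∘ e) j) := by
    intro k G hG
    obtain ⟨r, hr, rfl⟩ := hgen k hG
    exact ⟨r ∘ e, fun j => hr (e j), (Equiv.sum_comp e (fun j => fmul (r j) (F j))).symm⟩
  have hdet0 : (fundMatrix (F ∘ e) z0).det ≠ 0 := by
    have h1 : LinearIndependent ℂ (fundMatrix (F ∘ e) z0).row := by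
      have h2 := hz0.map' (LinearEquiv.funCongrLeft ℂ ℂ e).toLinearMap
        (LinearEquiv.ker _)
      exact h2
    have h3 := Matrix.linearIndependent_rows_iff_isUnit.mp h1
    exact ((Matrix.isUnit_iff_isUnit_det _).mp h3).ne_zero
  exact ⟨κ ∘ e, F ∘ e, fun j => hmem (e j), hgen',
    det_fundMatrix_ne_zero _ _ (fun j => hmem (e j)) hgen' hdet0⟩

/-- The weights of a fundamental system are even if `-1` acts trivially. -/
lemma IsFundSystem.even {κ : X → ℤ} {F : X → X → ℍ → ℂ} (h : IsFundSystem κ F)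
    (hneg1 : ∀ x : X, (-1 : SL(2, ℤ)) • x = x) (j : X) : Even (κ j) := by
  by_contra hodd
  rw [Int.not_even_iff_odd] at hodd
  have h0 := VMF_eq_zero_of_odd hneg1 hodd (h.mem j)
  apply h.det_ne_zero I
  apply Matrix.det_eq_zero_of_column_eq_zero j
  intro x
  simp [h0]

end

end Fermat.Agent.S20
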