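import Fermat.Agent.S20.KoszulDefs

set_option autoImplicit false

namespace Fermat.Agent.S20

open UpperHalfPlane ModularForm EisensteinSeries
open scoped MatrixGroups ModularForm Manifold

noncomputable section

/-- A finite family spanning a complement of `D` in `V`. -/
lemma exists_fin_complement {E : Type*} [AddCommGroup E] [Module ℂ E] (D V : Submodule ℂ E)
    (hDV : D ≤ V) [FiniteDimensional ℂ V] :
    ∃ b : Fin (Module.finrank ℂ V - Module.finrank ℂ D) → E,
      (∀ i, b i ∈ V) ∧ V ≤ Submodule.span ℂ (Set.range b) ⊔ D := by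
  obtain ⟨W, hW⟩ := Submodule.exists_isCompl (D.submoduleOf V)
  have h1 : Module.finrank ℂ (D.submoduleOf V) = Module.finrank ℂ D :=
    (Submodule.submoduleOfEquivOfLe hDV).finrank_eq
  have h2 := Submodule.finrank_add_eq_of_isCompl hW
  have h3 : Module.finrank ℂ W = Module.finrank ℂ V - Module.finrank ℂ D := by omega
  let B := Module.finBasisOfFinrankEq ℂ W h3
  refine ⟨fun i => ((B i : V) : E), fun i => (B i : V).2, fun v hv => ?_⟩
  have hv' : (⟨v, hv⟩ : V) ∈ D.submoduleOf V ⊔ W := by rw [hW.sup_eq_top]; trivial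
  obtain ⟨d, hd, w, hw, hdw⟩ := Submodule.mem_sup.mp hv'
  have hvE : v = (w : E) + (d : E) := by
    have := congrArg Subtype.val hdw
    simp only [Submodule.coe_add] at this
    rw [← this, add_comm]
  rw [hvE]
  refine Submodule.add_mem_sup ?_ hd
  have hw' : (⟨w, hw⟩ : W) ∈ Submodule.span ℂ (Set.range B) := by rw [B.span_eq]; trivial
  have := Submodule.mem_map_of_mem (f := V.subtype ∘ₗ W.subtype) hw'
  rw [Submodule.map_span, ← Set.range_comp] at this
  exact this

variable {X : Type*} [MulAction SL(2, ℤ) X]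

/-- The weight `k` part of the `⨁ M1`-span of a homogeneous family. -/
def genSpan {J : Type*} [Fintype J] (κ : J → ℤ) (F : J → X → ℍ → ℂ) (k : ℤ) :
    Submodule ℂ (X → ℍ → ℂ) where
  carrier := {G | ∃ r : J → ℍ → ℂ, (∀ j, r j ∈ M1 (k - κ j)) ∧ G = ∑ j, fmul (r j) (F j)}
  add_mem' := by
    rintro _ _ ⟨r, hr, rfl⟩ ⟨s, hs, rfl⟩
    exact ⟨r + s, fun j => add_mem (hr j) (hs j), by
      simp only [Pi.add_apply, add_fmul, Finset.sum_add_distrib]⟩
  zero_mem' := ⟨0, fun j => zero_mem _, by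
    ext x z; simp [Finset.sum_apply]⟩
  smul_mem' := by
    rintro c _ ⟨r, hr, rfl⟩
    refine ⟨c • r, fun j => Submodule.smul_mem _ c (hr j), ?_⟩
    ext x z
    simp [Finset.sum_apply, Finset.mul_sum, mul_assoc]

omit [MulAction SL(2, ℤ) X] in
lemma mem_genSpan {J : Type*} [Fintype J] {κ : J → ℤ} {F : J → X → ℍ → ℂ} {k : ℤ}
    {G : X → ℍ → ℂ} : G ∈ genSpan κ F k ↔
    ∃ r : J → ℍ → ℂ, (∀ j, r j ∈ M1 (k - κ j)) ∧ G = ∑ j, fmul (r j) (F j) := Iff.rfl

omit [MulAction SL(2, ℤ) X] in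
lemma fmul_mem_genSpan {J : Type*} [Fintype J] {κ : J → ℤ} {F : J → X → ℍ → ℂ} {w k : ℤ}
    {s : ℍ → ℂ} (hs : s ∈ M1 w) {G : X → ℍ → ℂ} (hG : G ∈ genSpan κ F k) :
    fmul s G ∈ genSpan κ F (w + k) := by
  obtain ⟨r, hr, rfl⟩ := hG
  refine ⟨fun j => s * r j, fun j => M1_congr (by ring) (mul_mem_M1 hs (hr j)), ?_⟩
  rw [fmul_sum]
  simp only [fmul_fmul]

omit [MulAction SL(2, ℤ) X] in
lemma self_mem_genSpan {J : Type*} [Fintype J] [DecidableEq J] (κ : J → ℤ)
    (F : J → X → ℍ → ℂ) (j : J) : F j ∈ genSpan κ F (κ j) := by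
  refine ⟨fun i => if i = j then 1 else 0, fun i => ?_, ?_⟩
  · show (if i = j then (1 : ℍ → ℂ) else 0) ∈ M1 (κ j - κ i)
    split_ifs with h
    · subst h; simpa using one_mem_M1
    · exact zero_mem _
  · ext x z
    rw [Finset.sum_apply, Finset.sum_apply, Finset.sum_eq_single j]
    · simp
    · intro i _ hi
      simp [hi]
    · simp

/-- Generation: a family containing, in each weight, a spanning set of a complement of the
decomposable part generates everything. -/
theorem exists_gen_family (hfin : ∀ k, FiniteDimensional ℂ (VMF X k))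
    (hneg : ∀ k : ℤ, k < 0 → VMF X k = ⊥)
    (K0 : ℕ) (hK0 : ∀ k : ℤ, (K0 : ℤ) < k → mgen X k = 0) :
    ∃ (κ : (Σ n : Fin (K0 + 1), Fin (mgen X ((n : ℕ) : ℤ))) → ℤ)
      (F : (Σ n : Fin (K0 + 1), Fin (mgen X ((n : ℕ) : ℤ))) → X → ℍ → ℂ),
      (∀ j, F j ∈ VMF X (κ j)) ∧ ∀ k : ℤ, VMF X k ≤ genSpan κ F k := by
  classical
  have hb : ∀ n : ℕ, ∃ b : Fin (mgen X (n : ℤ)) → X → ℍ → ℂ,
      (∀ i, b i ∈ VMF X (n : ℤ)) ∧
      VMF X (n : ℤ) ≤ Submodule.span ℂ (Set.range b) ⊔ decomposable X (n : ℤ) := fun n =>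
    exists_fin_complement _ _ (decomposable_le X (n : ℤ))
  choose b hb1 hb2 using hb
  refine ⟨fun j => ((j.1 : ℕ) : ℤ), fun j => b j.1 j.2, fun j => hb1 _ _, ?_⟩
  set κ : (Σ n : Fin (K0 + 1), Fin (mgen X ((n : ℕ) : ℤ))) → ℤ := fun j => ((j.1 : ℕ) : ℤ)
  set F : (Σ n : Fin (K0 + 1), Fin (mgen X ((n : ℕ) : ℤ))) → X → ℍ → ℂ := fun j => b j.1 j.2
  have key : ∀ n : ℕ, ∀ k : ℤ, k < n → VMF X k ≤ genSpan κ F k := by
    intro n
    induction n with
    | zero =>
      intro k hk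
      rw [hneg k (by simpa using hk)]
      exact bot_le
    | succ n ih =>
      intro k hk
      rcases lt_or_ge k n with h | h
      · exact ih k h
      obtain rfl : k = (n : ℤ) := by push_cast at hk; omega
      refine (hb2 n).trans (sup_le ?_ (sup_le ?_ ?_))
      · rw [Submodule.span_le]
        rintro _ ⟨i, rfl⟩
        by_cases hn : n ≤ K0
        · exact self_mem_genSpan κ F ⟨⟨n, by omega⟩, i⟩
        · have := hK0 (n : ℤ) (by exact_mod_cast not_le.mp hn)
          exact absurd i.2 (by omega)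
      · rintro _ ⟨G, hG, rfl⟩
        have := fmul_mem_genSpan E4_mem (ih _ (by omega) hG)
        rwa [show (4 : ℤ) + ((n : ℤ) - 4) = n by ring] at this
      · rintro _ ⟨G, hG, rfl⟩
        have := fmul_mem_genSpan E6_mem (ih _ (by omega) hG)
        rwa [show (6 : ℤ) + ((n : ℤ) - 6) = n by ring] at this
  intro k
  exact key (k.toNat + 1) k (by push_cast; have := Int.self_le_toNat k; omega)

end

end Fermat.Agent.S20
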