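import Fermat.Agent.S20.Basic

set_option autoImplicit false

namespace Fermat.Agent.S20

open UpperHalfPlane ModularForm EisensteinSeries
open scoped MatrixGroups ModularForm Manifold

noncomputable section

/-- `fmul r` as a linear map. -/
def fmulₗ {X : Type*} (r : ℍ → ℂ) : (X → ℍ → ℂ) →ₗ[ℂ] (X → ℍ → ℂ) where
  toFun := fmul r
  map_add' G H := fmul_add r G H
  map_smul' c G := by ext x z; simp [mul_left_comm]

@[simp] lemma fmulₗ_apply {X : Type*} (r : ℍ → ℂ) (G : X → ℍ → ℂ) : fmulₗ r G = fmul r G := rfl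

variable (X : Type*) [MulAction SL(2, ℤ) X]

/-- The decomposable part `E₄ · VMF (k-4) + E₆ · VMF (k-6)` of `VMF X k`. -/
def decomposable (k : ℤ) : Submodule ℂ (X → ℍ → ℂ) :=
  (VMF X (k - 4)).map (fmulₗ E₄) ⊔ (VMF X (k - 6)).map (fmulₗ E₆)

lemma decomposable_le (k : ℤ) : decomposable X k ≤ VMF X k := by
  refine sup_le ?_ ?_
  · rintro _ ⟨G, hG, rfl⟩
    exact VMF_congr (by ring) (fmul_mem_VMF E4_mem hG)
  · rintro _ ⟨G, hG, rfl⟩
    exact VMF_congr (by ring) (fmul_mem_VMF E6_mem hG)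

/-- The number of new generators needed in weight `k`. -/
def mgen (k : ℤ) : ℕ := Module.finrank ℂ (VMF X k) - Module.finrank ℂ (decomposable X k)

end

end Fermat.Agent.S20
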