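import Mathlib
import Fermat.Prelude.Def_ModularCurve_GenusNumerics

set_option autoImplicit false

open scoped MatrixGroups
open CongruenceSubgroup

namespace Fermat.Agent.S20.P1

variable {N : ℕ}

/-- first column of `g` reduced mod `N`. -/
def colA (N : ℕ) (g : SL(2, ℤ)) : ZMod N := ((g 0 0 : ℤ) : ZMod N)
def colC (N : ℕ) (g : SL(2, ℤ)) : ZMod N := ((g 1 0 : ℤ) : ZMod N)

theorem isCoprime_col (N : ℕ) (g : SL(2, ℤ)) : IsCoprime (colA N g) (colC N g) := by
  have h := g.det_coe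
  rw [Matrix.det_fin_two] at h
  refine ⟨((g 1 1 : ℤ) : ZMod N), -((g 0 1 : ℤ) : ZMod N), ?_⟩
  have h2 : (((g 0 0 * g 1 1 - g 0 1 * g 1 0 : ℤ)) : ZMod N) = 1 := by rw [h]; simp
  push_cast at h2
  unfold colA colC
  linear_combination h2

/-- Fact A -/
theorem mk_eq_mk_iff (g h : SL(2, ℤ)) :
    (QuotientGroup.mk g : SL(2, ℤ) ⧸ Gamma0 N) = QuotientGroup.mk h ↔
      colA N g * colC N h - colC N g * colA N h = 0 := by
  rw [QuotientGroup.eq, Gamma0_mem]
  have : (g⁻¹ * h) 1 0 = g 0 0 * h 1 0 - g 1 0 * h 0 0 := by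
    simp only [Matrix.SpecialLinearGroup.coe_mul, Matrix.SpecialLinearGroup.coe_inv,
      Matrix.adjugate_fin_two, Matrix.mul_apply, Fin.sum_univ_two]
    simp
    ring
  rw [this]
  unfold colA colC
  push_cast
  rfl

theorem exists_add_mul_coprime (x n m : ℕ) (hm : m ≠ 0) (hx : x.Coprime (n.gcd m)) :
    ∃ k : ℕ, (x + k * n).Coprime m := by
  let ps : Finset ℕ := {p ∈ m.primeFactors | ¬p ∣ x}
  use ps.prod id
  apply Nat.coprime_of_dvd
  intro p pp hp hpn
  by_cases hpx : p ∣ x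
  · have h := Nat.dvd_sub hp hpx
    rw [add_comm, Nat.add_sub_cancel] at h
    rcases pp.dvd_mul.mp h with h | h
    · have ⟨q, hq, hq'⟩ := (pp.prime.dvd_finsetProd_iff id).mp h
      rw [Finset.mem_filter, Nat.mem_primeFactors,
        ← (Nat.prime_dvd_prime_iff_eq pp hq.1.1).mp hq'] at hq
      exact hq.2 hpx
    · exact Nat.Prime.not_coprime_iff_dvd.mpr ⟨p, pp, hpx, Nat.dvd_gcd h hpn⟩ hx
  · have pps : p ∈ ps := Finset.mem_filter.mpr ⟨Nat.mem_primeFactors.mpr ⟨pp, hpn, hm⟩, hpx⟩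
    have h := Nat.dvd_sub hp ((Finset.dvd_prod_of_mem id pps).mul_right n)
    rw [Nat.add_sub_cancel] at h
    contradiction

/-- unimodularity in `ZMod N` in terms of naturals. -/
theorem coprime_gcd_of_isCoprime [NeZero N] {a c : ℕ} (h : IsCoprime (a : ZMod N) (c : ZMod N)) :
    a.Coprime (N.gcd c) := by
  obtain ⟨x, y, hxy⟩ := h
  apply Nat.coprime_of_dvd
  intro p pp hpa hpg
  have hpN : p ∣ N := hpg.trans (Nat.gcd_dvd_left _ _)
  have hpc : p ∣ c := hpg.trans (Nat.gcd_dvd_right _ _)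
  have h1 := congrArg (ZMod.castHom hpN (ZMod p)) hxy
  simp only [map_add, map_mul, map_natCast, map_one] at h1
  rw [(ZMod.natCast_eq_zero_iff a p).mpr hpa, (ZMod.natCast_eq_zero_iff c p).mpr hpc] at h1
  have : Fact p.Prime := ⟨pp⟩
  simp at h1

/-- Fact B -/
theorem exists_col_eq [NeZero N] {a c : ZMod N} (h : IsCoprime a c) :
    ∃ g : SL(2, ℤ), colA N g = a ∧ colC N g = c := by
  have hN : N ≠ 0 := NeZero.ne N
  set c0 : ℕ := c.val + N with hc0
  have hc0' : (c0 : ZMod N) = c := by simp [hc0]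
  have ha0' : ((a.val : ℕ) : ZMod N) = a := by simp
  have h1 : a.val.Coprime (N.gcd c0) := by
    apply coprime_gcd_of_isCoprime (N := N)
    rw [hc0', ha0']; exact h
  obtain ⟨k, hk⟩ := exists_add_mul_coprime a.val N c0 (by omega) h1
  have hcop : IsCoprime ((a.val + k * N : ℕ) : ℤ) ((c0 : ℕ) : ℤ) := Nat.isCoprime_iff_coprime.mpr hk
  obtain ⟨g, hg0, hg1⟩ := hcop.exists_SL2_col 0
  refine ⟨g, ?_, ?_⟩
  · unfold colA; rw [hg0]; simp
  · unfold colC; rw [hg1]; simpa using hc0'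

/-- determinant criterion -/
theorem exists_unit_smul_of_det_eq_zero {R : Type*} [CommRing R] {a c a' c' : R}
    (h : IsCoprime a c) (h' : IsCoprime a' c') (hdet : a * c' - c * a' = 0) :
    ∃ u : Rˣ, a' = u * a ∧ c' = u * c := by
  obtain ⟨x, y, hxy⟩ := h
  obtain ⟨x', y', hxy'⟩ := h'
  have e1 : a' = (x * a' + y * c') * a := by linear_combination (-a') * hxy - y * hdet
  have e2 : c' = (x * a' + y * c') * c := by linear_combination (-c') * hxy + x * hdet
  have e3 : a = (x' * a + y' * c) * a' := by linear_combination (-a) * hxy' + y' * hdet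
  have e4 : c = (x' * a + y' * c) * c' := by linear_combination (-c) * hxy' - x' * hdet
  have hu : (x * a' + y * c') * (x' * a + y' * c) = 1 := by
    have : (x * a' + y * c') * (x' * a + y' * c) = x' * ((x * a' + y * c') * a) + y' * ((x * a' + y * c') * c) := by ring
    rw [this, ← e1, ← e2, hxy']
  exact ⟨⟨_, _, hu, by rw [mul_comm]; exact hu⟩, e1, e2⟩

end Fermat.Agent.S20.P1
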