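import Fermat.Agent.S20.P1Basic

set_option autoImplicit false

open scoped MatrixGroups
open CongruenceSubgroup

namespace Fermat.Agent.S20.P1

variable {N : ℕ}

theorem colA_S_mul (g : SL(2, ℤ)) : colA N (ModularGroup.S * g) = - colC N g := by
  simp [colA, colC, Matrix.SpecialLinearGroup.coe_mul, ModularGroup.coe_S, Matrix.mul_apply, Fin.sum_univ_two]

theorem colC_S_mul (g : SL(2, ℤ)) : colC N (ModularGroup.S * g) = colA N g := by
  simp [colA, colC, Matrix.SpecialLinearGroup.coe_mul, ModularGroup.coe_S, Matrix.mul_apply, Fin.sum_univ_two]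

theorem colA_T_mul (g : SL(2, ℤ)) : colA N (ModularGroup.T * g) = colA N g + colC N g := by
  simp [colA, colC, Matrix.SpecialLinearGroup.coe_mul, ModularGroup.coe_T, Matrix.mul_apply, Fin.sum_univ_two]

theorem colC_T_mul (g : SL(2, ℤ)) : colC N (ModularGroup.T * g) = colC N g := by
  simp [colA, colC, Matrix.SpecialLinearGroup.coe_mul, ModularGroup.coe_T, Matrix.mul_apply, Fin.sum_univ_two]

/-- explicit representative with first column `(x, 1)`. -/
def repOf (x : ZMod N) : SL(2, ℤ) :=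
  ⟨!![(x.val : ℤ), -1; 1, 0], by simp [Matrix.det_fin_two]⟩

theorem colA_repOf [NeZero N] (x : ZMod N) : colA N (repOf x) = x := by
  unfold colA repOf
  simp

theorem colC_repOf (x : ZMod N) : colC N (repOf x) = 1 := by
  unfold colC repOf
  simp

theorem card_fixedBy_aux [NeZero N] (γ : SL(2, ℤ)) (q : ZMod N → ZMod N → ZMod N)
    (hq : ∀ g : SL(2, ℤ), γ • (QuotientGroup.mk g : SL(2, ℤ) ⧸ Gamma0 N) = QuotientGroup.mk g ↔
      q (colA N g) (colC N g) = 0)
    (hunit : ∀ a c, IsCoprime a c → q a c = 0 → IsUnit c)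
    (hhom : ∀ a c u, q (u * a) (u * c) = u ^ 2 * q a c) :
    Nat.card (MulAction.fixedBy (SL(2, ℤ) ⧸ Gamma0 N) γ) = Nat.card {x : ZMod N // q x 1 = 0} := by
  symm
  refine Nat.card_congr (Equiv.ofBijective
    (fun x => ⟨(QuotientGroup.mk (repOf x.1) : SL(2, ℤ) ⧸ Gamma0 N), ?_⟩) ⟨?_, ?_⟩)
  · rw [MulAction.mem_fixedBy, hq, colA_repOf, colC_repOf]
    exact x.2
  · intro x y hxy
    have h1 := Subtype.ext_iff.mp hxy
    simp only at h1
    rw [mk_eq_mk_iff, colA_repOf, colC_repOf, colA_repOf, colC_repOf] at h1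
    apply Subtype.ext
    linear_combination h1
  · rintro ⟨y, hy⟩
    induction y using QuotientGroup.induction_on with
    | H g =>
      rw [MulAction.mem_fixedBy, hq] at hy
      obtain ⟨u, hu⟩ := hunit _ _ (isCoprime_col N g) hy
      have hx : q (↑u⁻¹ * colA N g) 1 = 0 := by
        have := hhom (colA N g) (colC N g) ↑u⁻¹
        rw [hy, mul_zero, ← hu, Units.inv_mul] at this
        exact this
      refine ⟨⟨↑u⁻¹ * colA N g, hx⟩, ?_⟩
      apply Subtype.ext
      simp only
      rw [mk_eq_mk_iff, colA_repOf, colC_repOf, ← hu]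
      have : (↑u⁻¹ : ZMod N) * ↑u = 1 := Units.inv_mul u
      linear_combination (colA N g) * this

theorem card_fixedBy_S (N : ℕ) [NeZero N] :
    Nat.card (MulAction.fixedBy (SL(2, ℤ) ⧸ Gamma0 N) ModularGroup.S) = ModularCurve.nuTwo N := by
  rw [card_fixedBy_aux ModularGroup.S (fun a c => a ^ 2 + c ^ 2)]
  · unfold ModularCurve.nuTwo
    simp
  · intro g
    rw [MulAction.Quotient.smul_mk, smul_eq_mul, mk_eq_mk_iff, colA_S_mul, colC_S_mul]
    constructor <;> intro h <;> linear_combination -h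
  · rintro a c ⟨x, y, hxy⟩ h
    refine IsUnit.of_mul_eq_one (-x ^ 2 * c + 2 * x * y * a + y ^ 2 * c) ?_
    linear_combination (x * a + y * c + 1) * hxy - x ^ 2 * h
  · intro a c u
    ring

theorem card_fixedBy_ST (N : ℕ) [NeZero N] :
    Nat.card (MulAction.fixedBy (SL(2, ℤ) ⧸ Gamma0 N) (ModularGroup.S * ModularGroup.T)) =
      ModularCurve.nuThree N := by
  rw [card_fixedBy_aux (ModularGroup.S * ModularGroup.T) (fun a c => a ^ 2 + a * c + c ^ 2)]
  · unfold ModularCurve.nuThree
    simp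
  · intro g
    rw [MulAction.Quotient.smul_mk, smul_eq_mul, mk_eq_mk_iff, mul_assoc, colA_S_mul, colC_S_mul,
      colA_T_mul, colC_T_mul]
    constructor <;> intro h <;> linear_combination -h
  · rintro a c ⟨x, y, hxy⟩ h
    refine IsUnit.of_mul_eq_one (-x ^ 2 * c - x ^ 2 * a + 2 * x * y * a + y ^ 2 * c) ?_
    linear_combination (x * a + y * c + 1) * hxy - x ^ 2 * h
  · intro a c u
    ring

end Fermat.Agent.S20.P1
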